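import Fermat.Agent.S14.Density.Shift

/-!
# S14-AN, task P6: comparing the lattice sums of `J' ≤ J`

Sketch.  Let `m = [J : J']`; `absNorm J' = absNorm J * m` (`Ideal.absNorm_apply`,
`Submodule.cardQuot_apply`, `AddSubgroup.relIndex_mul_index`; or write `J' = J * J₂` by
`Ideal.dvd_iff_le` and use multiplicativity of `absNorm` plus the coset count).  Choose coset
representatives `r_1, …, r_m ∈ J` of `J / J'`
(`AddSubgroup.addGroupEquivQuotientProdAddSubgroup : α ≃ (α ⧸ s) × s` for `α = J`,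
`s = J'.comap J.subtype`, as additive groups).  Then, all sums being absolutely convergent for `s > 1`
(`hasSum_wtO_ideal`), `latSum J s = ∑_c ∑_{y ∈ J'} wtO s (y + r_c)` and
`|∑_{y ∈ J'} (wtO s (y + r_c) - wtO s y)| ≤ ∑_{y ∈ 𝓞 K} |…| ≤ M_{r_c}` (`exists_tsum_shift_bound`,
`Summable.subtype`, `tsum_subtype_le`).  So `|latSum J s - m latSum J' s| ≤ ∑_c M_{r_c}`; multiply by
`absNorm J`.
-/

set_option autoImplicit false

namespace Fermat.Agent.S14

open scoped Classical

open NumberField NumberField.mixedEmbedding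

namespace Coset

/-- the bijection `(H ⧸ s) × s ≃ H`, `(c, y) ↦ y + out c`. -/
noncomputable def prodEquiv {H : Type*} [AddCommGroup H] (s : AddSubgroup H) : (H ⧸ s) × s ≃ H where
  toFun cy := (cy.2 : H) + Quotient.out cy.1
  invFun x := (QuotientAddGroup.mk x, ⟨x - Quotient.out (QuotientAddGroup.mk x : H ⧸ s), by
    have h : (QuotientAddGroup.mk (Quotient.out (QuotientAddGroup.mk x : H ⧸ s)) : H ⧸ s) =
      QuotientAddGroup.mk x := QuotientAddGroup.out_eq' _
    rw [QuotientAddGroup.eq] at h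
    have : x - Quotient.out (QuotientAddGroup.mk x : H ⧸ s) =
      -Quotient.out (QuotientAddGroup.mk x : H ⧸ s) + x := by abel
    rw [this]; exact h⟩)
  left_inv cy := by
    obtain ⟨c, y⟩ := cy
    have h1 : (QuotientAddGroup.mk ((y : H) + Quotient.out c) : H ⧸ s) = c := by
      rw [QuotientAddGroup.mk_add, (QuotientAddGroup.eq_zero_iff (y : H)).mpr y.2, zero_add]
      exact QuotientAddGroup.out_eq' c
    ext
    · exact h1
    · simp only [h1]; abel
  right_inv x := by simp

theorem prodEquiv_apply {H : Type*} [AddCommGroup H] (s : AddSubgroup H) (cy : (H ⧸ s) × s) :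
    prodEquiv s cy = (cy.2 : H) + Quotient.out cy.1 := rfl

theorem abstract_compare {A : Type*} [AddCommGroup A] (F : A → ℝ) (H H' : AddSubgroup A)
    (hle : H' ≤ H) [Fintype (H ⧸ H'.addSubgroupOf H)]
    (hH : Summable fun x : H => F x) (M : A → ℝ)
    (hM : ∀ r : A, Summable (fun y : A => |F (y + r) - F y|) ∧
      ∑' y : A, |F (y + r) - F y| ≤ M r) :
    |∑' x : H, F x - (Fintype.card (H ⧸ H'.addSubgroupOf H) : ℝ) * ∑' y : H', F y| ≤
      ∑ c : H ⧸ H'.addSubgroupOf H, M ((Quotient.out c : H) : A) := by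
  -- summability on the product
  have hsum : Summable fun cy : (H ⧸ H'.addSubgroupOf H) × H'.addSubgroupOf H => F (((cy.2 : H) + Quotient.out cy.1 : H) : A) := by
    have h0 := ((prodEquiv (H'.addSubgroupOf H)).summable_iff (f := fun x : H => F x)).mpr hH
    simpa only [Function.comp_def, prodEquiv_apply] using h0
  have e1 : ∑' x : H, F x = ∑' cy : (H ⧸ H'.addSubgroupOf H) × H'.addSubgroupOf H, F (((cy.2 : H) + Quotient.out cy.1 : H) : A) := by
    have h0 := ((prodEquiv (H'.addSubgroupOf H)).tsum_eq (fun x : H => F x)).symm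
    simpa only [prodEquiv_apply] using h0
  have hfib : ∀ c : H ⧸ H'.addSubgroupOf H, Summable fun y : H'.addSubgroupOf H => F (((y : H) + Quotient.out c : H) : A) :=
    fun c => hsum.prod_factor c
  have e2 : ∑' cy : (H ⧸ H'.addSubgroupOf H) × H'.addSubgroupOf H, F (((cy.2 : H) + Quotient.out cy.1 : H) : A) =
      ∑ c : H ⧸ H'.addSubgroupOf H, ∑' y : H'.addSubgroupOf H, F (((y : H) + Quotient.out c : H) : A) := by
    rw [hsum.tsum_prod' hfib, tsum_fintype]
  -- transport from `s` to `H'`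
  let e := (AddSubgroup.addSubgroupOfEquivOfLe hle).toEquiv
  have e3 : ∀ G : A → ℝ, ∑' y : H'.addSubgroupOf H, G ((y : H) : A) = ∑' y : H', G y := by
    intro G
    rw [← e.tsum_eq (fun y : H' => G y)]
    rfl
  have s3 : ∀ G : A → ℝ, (Summable fun y : H'.addSubgroupOf H => G ((y : H) : A)) → Summable fun y : H' => G y := by
    intro G hG
    rw [← e.summable_iff]
    exact hG
  have hfib' : ∀ c : H ⧸ H'.addSubgroupOf H, Summable fun y : H' => F ((y : A) + ((Quotient.out c : H) : A)) := by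
    intro c
    exact s3 (fun a => F (a + ((Quotient.out c : H) : A))) (by simpa using hfib c)
  have hH' : Summable fun y : H' => F y := by
    have := hH.comp_injective (AddSubgroup.inclusion_injective hle)
    exact this
  have e4 : ∀ c : H ⧸ H'.addSubgroupOf H, ∑' y : H'.addSubgroupOf H, F (((y : H) + Quotient.out c : H) : A) =
      ∑' y : H', F ((y : A) + ((Quotient.out c : H) : A)) := by
    intro c
    rw [← e3 (fun a => F (a + ((Quotient.out c : H) : A)))]
    simp
  rw [e1, e2]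
  have e5 : (Fintype.card (H ⧸ H'.addSubgroupOf H) : ℝ) * ∑' y : H', F y = ∑ _c : H ⧸ H'.addSubgroupOf H, ∑' y : H', F y := by
    simp
  rw [e5, ← Finset.sum_sub_distrib]
  refine (Finset.abs_sum_le_sum_abs _ _).trans (Finset.sum_le_sum fun c _ => ?_)
  rw [e4 c, ← (hfib' c).tsum_sub hH']
  obtain ⟨hs1, hs2⟩ := hM ((Quotient.out c : H) : A)
  have hs1' : Summable fun y : H' => |F ((y : A) + ((Quotient.out c : H) : A)) - F y| :=
    hs1.subtype _
  calc |∑' y : H', (F ((y : A) + ((Quotient.out c : H) : A)) - F y)|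
      ≤ ∑' y : H', |F ((y : A) + ((Quotient.out c : H) : A)) - F y| := by
        have := norm_tsum_le_tsum_norm (f := fun y : H' =>
          (F ((y : A) + ((Quotient.out c : H) : A)) - F y)) (by simpa using hs1')
        simpa using this
    _ ≤ ∑' y : A, |F (y + ((Quotient.out c : H) : A)) - F y| :=
        hs1.tsum_subtype_le _ _ (fun _ => abs_nonneg _)
    _ ≤ _ := hs2

end Coset

variable (K : Type*) [Field K] [NumberField K]

theorem exists_latSum_compare (J J' : nonZeroDivisors (Ideal (𝓞 K)))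
    (h : (J' : Ideal (𝓞 K)) ≤ (J : Ideal (𝓞 K))) :
    ∃ M : ℝ, ∀ s : ℝ, 1 < s → s ≤ 2 →
      |(Ideal.absNorm (J : Ideal (𝓞 K)) : ℝ) * latSum K J s -
        (Ideal.absNorm (J' : Ideal (𝓞 K)) : ℝ) * latSum K J' s| ≤ M := by
  set H : AddSubgroup (𝓞 K) := (J : Ideal (𝓞 K)).toAddSubgroup with hHdef
  set H' : AddSubgroup (𝓞 K) := (J' : Ideal (𝓞 K)).toAddSubgroup with hH'def
  have hle : H' ≤ H := Submodule.toAddSubgroup_mono h
  have hidx : H'.relIndex H * H.index = H'.index := AddSubgroup.relIndex_mul_index hle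
  have hJ' : Ideal.absNorm (J' : Ideal (𝓞 K)) ≠ 0 := by
    rw [Ne, Ideal.absNorm_eq_zero_iff]
    exact nonZeroDivisors.coe_ne_zero J'
  have hN : Ideal.absNorm (J : Ideal (𝓞 K)) = H.index := Ideal.absNorm_eq_index _
  have hN' : Ideal.absNorm (J' : Ideal (𝓞 K)) = H'.index := Ideal.absNorm_eq_index _
  have hrel : H'.relIndex H ≠ 0 := by
    intro h0
    rw [h0, zero_mul, ← hN'] at hidx
    exact hJ' hidx.symm
  have hfin : Finite (H ⧸ H'.addSubgroupOf H) := by
    have : (H'.addSubgroupOf H).index ≠ 0 := hrel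
    have : (H'.addSubgroupOf H).FiniteIndex := ⟨this⟩
    exact AddSubgroup.finite_quotient_of_finiteIndex
  let _ : Fintype (H ⧸ H'.addSubgroupOf H) := Fintype.ofFinite _
  have hcard : Fintype.card (H ⧸ H'.addSubgroupOf H) = H'.relIndex H := by
    rw [← Nat.card_eq_fintype_card]; rfl
  choose M hM using exists_tsum_shift_bound K
  refine ⟨(Ideal.absNorm (J : Ideal (𝓞 K)) : ℝ) *
    ∑ c : H ⧸ H'.addSubgroupOf H, M ((Quotient.out c : H) : 𝓞 K), fun s hs hs2 => ?_⟩
  have hsum : Summable fun x : H => wtO K s (x : 𝓞 K) := (hasSum_wtO_ideal K J hs).summable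
  have key := Coset.abstract_compare (wtO K s) H H' hle hsum M
    (fun r => hM r s ⟨hs.le, hs2⟩)
  have e1 : latSum K J s = ∑' x : H, wtO K s (x : 𝓞 K) := rfl
  have e2 : latSum K J' s = ∑' x : H', wtO K s (x : 𝓞 K) := rfl
  rw [e1, e2]
  have e3 : (Ideal.absNorm (J' : Ideal (𝓞 K)) : ℝ) =
      (Ideal.absNorm (J : Ideal (𝓞 K)) : ℝ) * (Fintype.card (H ⧸ H'.addSubgroupOf H) : ℝ) := by
    rw [hcard, hN, hN', ← hidx]; push_cast; ring
  rw [e3, mul_assoc, ← mul_sub, abs_mul, abs_of_nonneg (Nat.cast_nonneg _)]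
  exact mul_le_mul_of_nonneg_left key (Nat.cast_nonneg _)

end Fermat.Agent.S14
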