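import Fermat.Agent.S14.Density.Defs

/-!
# S14-AN, task Z1: the Dedekind zeta function as a sum over ideals, and its pole

Sketch.  Mathlib: `NumberField.dedekindZeta K s = LSeries (fun n ↦ Nat.card {I // absNorm I = n}) s`
and `NumberField.tendsto_sub_one_mul_dedekindZeta_nhdsGT`.  Summability of the L-series for `s > 1`:
`LSeriesSummable_of_sum_norm_bigO` with `NumberField.Ideal.tendsto_norm_le_div_atTop` (partial sums
are `O(n)`), see the proof of `tendsto_sub_one_mul_dedekindZeta_nhdsGT` for the bookkeeping.  Then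
group the ideals by their norm (`Ideal.finite_setOf_absNorm_eq`, `summable_sigma_of_nonneg`,
`Equiv.sigmaFiberEquiv`, `tsum_sigma'`).
-/

set_option autoImplicit false
set_option linter.unusedSectionVars false

namespace Fermat.Agent.S14

open NumberField IsDedekindDomain Filter Topology

variable (K : Type*) [Field K] [NumberField K]

/-- number of nonzero ideals of norm `n`. -/
noncomputable def zetaCount (n : ℕ) : ℕ :=
  Nat.card {I : nonZeroDivisors (Ideal (𝓞 K)) // Ideal.absNorm (I : Ideal (𝓞 K)) = n}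

instance zeta_finite_fiber (n : ℕ) :
    Finite {I : nonZeroDivisors (Ideal (𝓞 K)) // Ideal.absNorm (I : Ideal (𝓞 K)) = n} := by
  have h : Finite {I : Ideal (𝓞 K) // Ideal.absNorm I = n} :=
    (Ideal.finite_setOfPred_absNorm_eq (S := 𝓞 K) n).to_subtype
  exact Finite.of_injective
    (fun I => (⟨(I.1 : Ideal (𝓞 K)), I.2⟩ : {I : Ideal (𝓞 K) // Ideal.absNorm I = n}))
    (fun a b hab => by
      apply Subtype.ext
      apply Subtype.ext
      exact congrArg (fun x : {I : Ideal (𝓞 K) // Ideal.absNorm I = n} => x.1) hab)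

theorem zetaCount_eq {n : ℕ} (hn : n ≠ 0) :
    zetaCount K n = Nat.card {I : Ideal (𝓞 K) // Ideal.absNorm I = n} := by
  unfold zetaCount
  refine Nat.card_congr ⟨fun I => ⟨I.1.1, I.2⟩, fun I => ⟨⟨I.1, ?_⟩, I.2⟩, fun _ => rfl, fun _ => rfl⟩
  apply mem_nonZeroDivisors_of_ne_zero
  rintro h
  apply hn
  rw [← I.2, h]
  simp

theorem zeta_tendsto_count :
    Tendsto (fun n : ℕ => (∑ k ∈ Finset.Icc 1 n,
      (Nat.card {I : Ideal (𝓞 K) // Ideal.absNorm I = k} : ℝ)) / n) atTop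
      (𝓝 (dedekindZeta_residue K)) := by
  refine ((Ideal.tendsto_norm_le_div_atTop₀ K).comp tendsto_natCast_atTop_atTop).congr fun n ↦ ?_
  simp only [Function.comp_apply, Nat.cast_le, ← Nat.cast_sum]
  congr
  rw [← add_left_inj 1, ← Ideal.card_norm_le_eq_card_norm_le_add_one,
    show Finset.Icc 1 n = Finset.Ioc 0 n from Finset.Icc_succ_left_eq_Ioc _ _,
    show 1 = Nat.card {I : Ideal (𝓞 K) // Ideal.absNorm I = 0} by simp [Ideal.absNorm_eq_zero_iff],
    Finset.sum_Ioc_add_eq_sum_Icc (n.zero_le),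
    ← Finset.card_preimage_eq_sum_card_image_eq (fun k _ ↦ Ideal.finite_setOfPred_absNorm_eq k)]
  simp [Set.coe_eq_subtype]

theorem zeta_lseriesSummable {s : ℝ} (hs : 1 < s) :
    LSeriesSummable (fun n => ((Nat.card {I : Ideal (𝓞 K) // Ideal.absNorm I = n} : ℝ) : ℂ)) s := by
  refine LSeriesSummable_of_sum_norm_bigO_and_nonneg (r := 1) ?_ (fun _ => Nat.cast_nonneg _)
    zero_le_one (by simpa using hs)
  have h := (zeta_tendsto_count K).isBigO_one ℝ
  have h2 : (fun n : ℕ => (n : ℝ)) =O[atTop] (fun n : ℕ => (n : ℝ)) := Asymptotics.isBigO_refl _ _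
  have h3 := h.mul h2
  simp only [one_mul, Real.rpow_one] at h3 ⊢
  refine h3.congr' ?_ EventuallyEq.rfl
  filter_upwards [eventually_ne_atTop 0] with n hn
  have : (n : ℝ) ≠ 0 := by exact_mod_cast hn
  field_simp

theorem zeta_term_eq {s : ℝ} (hs : 1 < s) (n : ℕ) :
    LSeries.term (fun n => ((Nat.card {I : Ideal (𝓞 K) // Ideal.absNorm I = n} : ℝ) : ℂ)) s n =
      (((zetaCount K n : ℝ) * (n : ℝ) ^ (-s) : ℝ) : ℂ) := by
  rcases eq_or_ne n 0 with rfl | hn
  · rw [LSeries.term_zero]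
    have : (-s) ≠ 0 := by linarith
    simp [Real.zero_rpow this]
  · rw [LSeries.term_of_ne_zero hn, zetaCount_eq K hn]
    push_cast
    rw [Complex.ofReal_cpow (Nat.cast_nonneg n), Complex.ofReal_neg, Complex.cpow_neg]
    push_cast
    rw [div_eq_mul_inv]

theorem zeta_summable_count {s : ℝ} (hs : 1 < s) :
    Summable fun n : ℕ => (zetaCount K n : ℝ) * (n : ℝ) ^ (-s) := by
  have h := zeta_lseriesSummable K hs
  unfold LSeriesSummable at h
  rw [funext (zeta_term_eq K hs)] at h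
  exact Complex.summable_ofReal.mp h

theorem zeta_fiber_tsum (s : ℝ) (n : ℕ) :
    ∑' I : {I : nonZeroDivisors (Ideal (𝓞 K)) // Ideal.absNorm (I : Ideal (𝓞 K)) = n},
      (Ideal.absNorm ((I : nonZeroDivisors (Ideal (𝓞 K))) : Ideal (𝓞 K)) : ℝ) ^ (-s) =
      (zetaCount K n : ℝ) * (n : ℝ) ^ (-s) := by
  have : ∀ I : {I : nonZeroDivisors (Ideal (𝓞 K)) // Ideal.absNorm (I : Ideal (𝓞 K)) = n},
      (Ideal.absNorm ((I : nonZeroDivisors (Ideal (𝓞 K))) : Ideal (𝓞 K)) : ℝ) ^ (-s) =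
        (n : ℝ) ^ (-s) := fun I => by rw [I.2]
  rw [tsum_congr this]
  have := Fintype.ofFinite
    {I : nonZeroDivisors (Ideal (𝓞 K)) // Ideal.absNorm (I : Ideal (𝓞 K)) = n}
  rw [tsum_fintype, Finset.sum_const, Finset.card_univ, nsmul_eq_mul, zetaCount,
    Nat.card_eq_fintype_card]

theorem summable_idealNorm_rpow {s : ℝ} (hs : 1 < s) :
    Summable fun I : nonZeroDivisors (Ideal (𝓞 K)) =>
      (Ideal.absNorm (I : Ideal (𝓞 K)) : ℝ) ^ (-s) := by
  rw [← (Equiv.sigmaFiberEquiv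
    (fun I : nonZeroDivisors (Ideal (𝓞 K)) => Ideal.absNorm (I : Ideal (𝓞 K)))).summable_iff,
    summable_sigma_of_nonneg (fun x => by
      simp only [Function.comp_apply]
      exact Real.rpow_nonneg (Nat.cast_nonneg _) _)]
  refine ⟨fun n => Summable.of_finite, ?_⟩
  refine (zeta_summable_count K hs).congr fun n => ?_
  exact (zeta_fiber_tsum K s n).symm

theorem zeta_idealZeta_eq_tsum_count {s : ℝ} (hs : 1 < s) :
    idealZeta K s = ∑' n : ℕ, (zetaCount K n : ℝ) * (n : ℝ) ^ (-s) := by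
  unfold idealZeta
  rw [← (Equiv.sigmaFiberEquiv
    (fun I : nonZeroDivisors (Ideal (𝓞 K)) => Ideal.absNorm (I : Ideal (𝓞 K)))).tsum_eq,
    Summable.tsum_sigma]
  · exact tsum_congr fun n => zeta_fiber_tsum K s n
  · exact ((Equiv.sigmaFiberEquiv
      (fun I : nonZeroDivisors (Ideal (𝓞 K)) => Ideal.absNorm (I : Ideal (𝓞 K)))).summable_iff).mpr
      (summable_idealNorm_rpow K hs)

theorem zeta_idealZeta_eq_dedekindZeta {s : ℝ} (hs : 1 < s) :
    ((idealZeta K s : ℝ) : ℂ) = dedekindZeta K s := by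
  rw [zeta_idealZeta_eq_tsum_count K hs, Complex.ofReal_tsum, dedekindZeta, LSeries]
  refine tsum_congr fun n => ?_
  have := zeta_term_eq K hs n
  simp only [Complex.ofReal_natCast] at this
  rw [this]

/-- `(s-1) ζ_K(s)` tends to a positive limit. -/
theorem exists_tendsto_idealZeta :
    ∃ κ : ℝ, 0 < κ ∧ Tendsto (fun s : ℝ => (s - 1) * idealZeta K s) (𝓝[>] 1) (𝓝 κ) := by
  refine ⟨dedekindZeta_residue K, dedekindZeta_residue_pos K, ?_⟩
  have h := tendsto_sub_one_mul_dedekindZeta_nhdsGT K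
  rw [← Filter.tendsto_ofReal_iff]
  refine h.congr' ?_
  filter_upwards [self_mem_nhdsWithin] with s hs
  rw [← zeta_idealZeta_eq_dedekindZeta K hs]
  push_cast
  rfl

theorem dedekindZeta_eq_idealZeta {s : ℝ} (hs : 1 < s) :
    dedekindZeta K (s : ℂ) = ((idealZeta K s : ℝ) : ℂ) :=
  (zeta_idealZeta_eq_dedekindZeta K hs).symm

theorem idealZeta_pos {s : ℝ} (hs : 1 < s) : 0 < idealZeta K s := by
  have h := (summable_idealNorm_rpow K hs).le_tsum (1 : nonZeroDivisors (Ideal (𝓞 K)))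
    (fun j _ => Real.rpow_nonneg (Nat.cast_nonneg _) _)
  have h1 : (Ideal.absNorm (((1 : nonZeroDivisors (Ideal (𝓞 K))) : Ideal (𝓞 K))) : ℝ) ^ (-s) = 1 := by
    simp
  rw [h1] at h
  exact lt_of_lt_of_le one_pos h

/-- two-sided bound near `1`. -/
theorem idealZeta_bounds :
    ∃ c C : ℝ, 0 < c ∧ 0 < C ∧ ∀ᶠ s in 𝓝[>] (1 : ℝ),
      c / (s - 1) ≤ idealZeta K s ∧ idealZeta K s ≤ C / (s - 1) := by
  obtain ⟨κ, hκ, hlim⟩ := exists_tendsto_idealZeta K
  refine ⟨κ / 2, 2 * κ, by linarith, by linarith, ?_⟩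
  have hev1 : ∀ᶠ s in 𝓝[>] (1 : ℝ), (s - 1) * idealZeta K s < 2 * κ :=
    hlim.eventually (Iio_mem_nhds (by linarith))
  have hev2 : ∀ᶠ s in 𝓝[>] (1 : ℝ), κ / 2 < (s - 1) * idealZeta K s :=
    hlim.eventually (Ioi_mem_nhds (by linarith))
  filter_upwards [hev1, hev2, self_mem_nhdsWithin] with s h1 h2 hs
  have hs' : (0 : ℝ) < s - 1 := sub_pos.mpr hs
  constructor
  · rw [div_le_iff₀ hs']
    linarith
  · rw [le_div_iff₀ hs']
    linarith

/-- logarithmic form. -/
theorem log_idealZeta_bounds :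
    ∃ B : ℝ, ∀ᶠ s in 𝓝[>] (1 : ℝ),
      Real.log (1 / (s - 1)) - B ≤ Real.log (idealZeta K s) ∧
        Real.log (idealZeta K s) ≤ Real.log (1 / (s - 1)) + B := by
  obtain ⟨c, C, hc, hC, hev⟩ := idealZeta_bounds K
  refine ⟨|Real.log c| + |Real.log C|, ?_⟩
  filter_upwards [hev, self_mem_nhdsWithin] with s h hs
  have hs' : (0 : ℝ) < s - 1 := sub_pos.mpr hs
  have hpos : 0 < idealZeta K s := idealZeta_pos K hs
  have e1 : Real.log (c / (s - 1)) = Real.log c + Real.log (1 / (s - 1)) := by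
    rw [div_eq_mul_one_div, Real.log_mul hc.ne' (one_div_pos.mpr hs').ne']
  have e2 : Real.log (C / (s - 1)) = Real.log C + Real.log (1 / (s - 1)) := by
    rw [div_eq_mul_one_div, Real.log_mul hC.ne' (one_div_pos.mpr hs').ne']
  have l1 : Real.log (c / (s - 1)) ≤ Real.log (idealZeta K s) :=
    Real.log_le_log (div_pos hc hs') h.1
  have l2 : Real.log (idealZeta K s) ≤ Real.log (C / (s - 1)) := Real.log_le_log hpos h.2
  have a1 := neg_abs_le (Real.log c)
  have a2 := le_abs_self (Real.log C)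
  have a3 := abs_nonneg (Real.log c)
  have a4 := abs_nonneg (Real.log C)
  constructor <;> linarith

theorem partialZeta_nonneg (C : ClassGroup (𝓞 K)) (s : ℝ) : 0 ≤ partialZeta K C s :=
  tsum_nonneg fun _ => Real.rpow_nonneg (Nat.cast_nonneg _) _

theorem partialZeta_le_idealZeta (C : ClassGroup (𝓞 K)) {s : ℝ} (hs : 1 < s) :
    partialZeta K C s ≤ idealZeta K s := by
  have hsum := summable_idealNorm_rpow K hs
  unfold partialZeta idealZeta
  exact Summable.tsum_subtype_le _ {I : nonZeroDivisors (Ideal (𝓞 K)) | ClassGroup.mk0 I = C}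
    (fun _ => Real.rpow_nonneg (Nat.cast_nonneg _) _) hsum

end Fermat.Agent.S14
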