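import Fermat.Agent.S14.Density.UnitSum
import Fermat.Agent.S14.Density.ZetaSum

/-!
# S14-AN, task P3: unfolding `∑_{x ∈ J} ρ(x)|N x|^{-s}` over the units
-/

set_option autoImplicit false

namespace Fermat.Agent.S14

open NumberField NumberField.mixedEmbedding NumberField.Units

variable (K : Type*) [Field K] [NumberField K]

theorem unfold_norm_eq (x : 𝓞 K) :
    mixedEmbedding.norm (mixedEmbedding K (x : K)) = (Ideal.absNorm (Ideal.span {x}) : ℝ) := by
  rw [mixedEmbedding.norm_eq_norm, Ideal.absNorm_span_singleton, ← Algebra.coe_norm_int]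
  rw [← Int.cast_abs, Int.abs_eq_natAbs]
  simp

theorem unfold_one_le_norm {x : 𝓞 K} (hx : x ≠ 0) :
    1 ≤ mixedEmbedding.norm (mixedEmbedding K (x : K)) := by
  rw [unfold_norm_eq]
  have h : Ideal.absNorm (Ideal.span {x}) ≠ 0 := by
    rw [Ne, Ideal.absNorm_eq_zero_iff, Ideal.span_singleton_eq_bot]
    exact hx
  exact_mod_cast Nat.one_le_iff_ne_zero.mpr h

theorem wtO_nonneg (s : ℝ) (x : 𝓞 K) : 0 ≤ wtO K s x :=
  mul_nonneg (rho_nonneg K _) (Real.rpow_nonneg (mixedEmbedding.norm_nonneg _) _)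

theorem wtO_zero {s : ℝ} (hs : 0 < s) : wtO K s 0 = 0 := by
  rw [wtO, wt]
  simp [Real.zero_rpow (neg_ne_zero.mpr hs.ne')]

/-- on integers, `|N x| ≥ 1` or `x = 0`. -/
theorem wtO_le_one {s : ℝ} (hs : 0 < s) (x : 𝓞 K) : wtO K s x ≤ 1 := by
  rcases eq_or_ne x 0 with rfl | hx
  · rw [wtO_zero K hs]; exact zero_le_one
  · rw [wtO, wt]
    exact mul_le_one₀ (rho_le_one K _) (Real.rpow_nonneg (mixedEmbedding.norm_nonneg _) _)
      (Real.rpow_le_one_of_one_le_of_nonpos (unfold_one_le_norm K hx) (by linarith))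

/-- the sum over one orbit of the units. -/
theorem hasSum_wtO_unit_mul (s : ℝ) {x : 𝓞 K} (hx : x ≠ 0) :
    HasSum (fun u : (𝓞 K)ˣ => wtO K s ((u : 𝓞 K) * x))
      ((torsionOrder K : ℝ) * (Ideal.absNorm (Ideal.span {x}) : ℝ) ^ (-s)) := by
  have hne : mixedEmbedding.norm (mixedEmbedding K (x : K)) ≠ 0 := by
    have := unfold_one_le_norm K hx
    linarith
  have h := (hasSum_rho_unit_smul K (mixedEmbedding K (x : K)) hne).mul_right
    ((mixedEmbedding.norm (mixedEmbedding K (x : K))) ^ (-s))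
  rw [unfold_norm_eq] at h
  have hfun : (fun u : (𝓞 K)ˣ => wtO K s ((u : 𝓞 K) * x)) =
      fun u : (𝓞 K)ˣ => rho K (u • mixedEmbedding K (x : K)) *
        (Ideal.absNorm (Ideal.span {x}) : ℝ) ^ (-s) := by
    funext u
    rw [wtO, wt]
    have h1 : mixedEmbedding K (((u : 𝓞 K) * x : 𝓞 K) : K) = u • mixedEmbedding K (x : K) := by
      rw [unitSMul_smul, ← map_mul]
      rfl
    rw [h1, mixedEmbedding.norm_unit_smul, unfold_norm_eq]
  rw [hfun]
  exact h

theorem hasSum_wtO_ideal (J : nonZeroDivisors (Ideal (𝓞 K))) {s : ℝ} (hs : 1 < s) :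
    HasSum (fun x : (J : Ideal (𝓞 K)) => wtO K s (x : 𝓞 K))
      ((torsionOrder K : ℝ) *
        ∑' I : {I : nonZeroDivisors (Ideal (𝓞 K)) //
            (J : Ideal (𝓞 K)) ∣ (I : Ideal (𝓞 K)) ∧ (I : Ideal (𝓞 K)).IsPrincipal},
          (Ideal.absNorm ((I : nonZeroDivisors (Ideal (𝓞 K))) : Ideal (𝓞 K)) : ℝ) ^ (-s)) := by
  classical
  have hs0 : 0 < s := by linarith
  -- restrict to the nonzero elements
  set S : Set (J : Ideal (𝓞 K)) := {x | (x : 𝓞 K) ≠ 0} with hS
  refine (hasSum_subtype_iff_of_support_subset (s := S) ?_).mp ?_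
  · intro x hx
    rw [Function.mem_support] at hx
    intro h0
    apply hx
    rw [h0, wtO_zero K hs0]
  -- the map to principal ideals
  let P := {I : nonZeroDivisors (Ideal (𝓞 K)) //
            (J : Ideal (𝓞 K)) ∣ (I : Ideal (𝓞 K)) ∧ (I : Ideal (𝓞 K)).IsPrincipal}
  let π : S → P := fun x => ⟨⟨Ideal.span {((x : (J : Ideal (𝓞 K))) : 𝓞 K)},
      mem_nonZeroDivisors_of_ne_zero (by
        rw [Ne, Ideal.zero_eq_bot, Ideal.span_singleton_eq_bot]; exact x.2)⟩,
      Ideal.dvd_span_singleton.mpr x.1.2, ⟨⟨_, rfl⟩⟩⟩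
  let g : P → ℝ := fun I => (torsionOrder K : ℝ) *
    (Ideal.absNorm ((I : nonZeroDivisors (Ideal (𝓞 K))) : Ideal (𝓞 K)) : ℝ) ^ (-s)
  have hg : HasSum g ((torsionOrder K : ℝ) *
      ∑' I : P, (Ideal.absNorm ((I : nonZeroDivisors (Ideal (𝓞 K))) : Ideal (𝓞 K)) : ℝ) ^ (-s)) := by
    apply HasSum.mul_left
    exact ((summable_idealNorm_rpow K hs).subtype _).hasSum
  -- the fibres
  have hfib : ∀ I : P, HasSum (fun x : {x : S // π x = I} =>
      wtO K s (((x : S) : (J : Ideal (𝓞 K))) : 𝓞 K)) (g I) := by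
    intro I
    obtain ⟨⟨x₀, hx₀⟩⟩ := I.2.2
    have hx₀' : ((I : nonZeroDivisors (Ideal (𝓞 K))) : Ideal (𝓞 K)) = Ideal.span {x₀} := hx₀
    have hx₀ne : x₀ ≠ 0 := by
      intro h0
      have h1 := nonZeroDivisors.ne_zero I.1.2
      apply h1
      rw [hx₀', h0]
      simp
    have hx₀J : x₀ ∈ (J : Ideal (𝓞 K)) := by
      rw [← Ideal.dvd_span_singleton, ← hx₀']
      exact I.2.1
    let e : (𝓞 K)ˣ → {x : S // π x = I} := fun u =>
      ⟨⟨⟨(u : 𝓞 K) * x₀, Ideal.mul_mem_left _ _ hx₀J⟩, mul_ne_zero u.ne_zero hx₀ne⟩, by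
        apply Subtype.ext
        apply Subtype.ext
        show Ideal.span {(u : 𝓞 K) * x₀} = _
        rw [hx₀', Ideal.span_singleton_mul_left_unit u.isUnit]⟩
    have he : Function.Bijective e := by
      constructor
      · intro u u' h
        have h1 : (u : 𝓞 K) * x₀ = (u' : 𝓞 K) * x₀ :=
          congrArg (fun x : {x : S // π x = I} => (((x : S) : (J : Ideal (𝓞 K))) : 𝓞 K)) h
        exact Units.ext (mul_right_cancel₀ hx₀ne h1)
      · intro x
        have h1 : Ideal.span {(((x : S) : (J : Ideal (𝓞 K))) : 𝓞 K)} = Ideal.span {x₀} := by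
          rw [← hx₀']
          exact congrArg (fun I : P => ((I : nonZeroDivisors (Ideal (𝓞 K))) : Ideal (𝓞 K))) x.2
        obtain ⟨u, hu⟩ := (Ideal.span_singleton_eq_span_singleton.mp h1).symm
        refine ⟨u, ?_⟩
        apply Subtype.ext
        apply Subtype.ext
        apply Subtype.ext
        show (u : 𝓞 K) * x₀ = _
        rw [← hu, mul_comm]
    refine ((Equiv.ofBijective e he).hasSum_iff).mp ?_
    have h2 := hasSum_wtO_unit_mul K s hx₀ne
    rw [← hx₀'] at h2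
    exact h2
  -- glue
  refine ((Equiv.sigmaFiberEquiv π).hasSum_iff).mp ?_
  refine HasSum.sigma_of_hasSum hg hfib ?_
  refine (summable_sigma_of_nonneg (fun x => wtO_nonneg K s _)).mpr
    ⟨fun I => (hfib I).summable, ?_⟩
  have : (fun I : P => ∑' x : {x : S // π x = I},
      wtO K s (((x : S) : (J : Ideal (𝓞 K))) : 𝓞 K)) = g := by
    funext I
    exact (hfib I).tsum_eq
  exact this ▸ hg.summable

end Fermat.Agent.S14
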