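import Fermat.Agent.S14.Density.Defs

/-!
# S14-AN, task S1: the Kummer extension `K(a^(1/p))` as a number field

Sketch.  `X ^ p - C a` is irreducible (`X_pow_sub_C_irreducible_of_prime`), take
`L = AdjoinRoot (X ^ p - C a)` (`Fact (Irreducible _)` gives the field structure),
`θ = AdjoinRoot.root _`.  `finrank = natDegree = p` (`AdjoinRoot.powerBasis`, `PowerBasis.finrank`).
Galois + the automorphism: Mathlib `Mathlib/FieldTheory/KummerExtension.lean`
(`isSplittingField_AdjoinRoot_X_pow_sub_C`, `isGalois_of_isSplittingField_X_pow_sub_C`,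
`autAdjoinRootXPowSubC`, `autAdjoinRootXPowSubC_root`).  `NumberField L`: `CharZero` via
`algebraMap K L`, finite dimensional over `ℚ` by `FiniteDimensional.trans ℚ K L`
(needs `Algebra ℚ L` = the canonical one and `IsScalarTower ℚ K L`, automatic for `ℚ`-algebras).
-/

set_option autoImplicit false

namespace Fermat.Agent.S14

open NumberField IsDedekindDomain Polynomial

universe u

theorem exists_kummer_field (K : Type u) [Field K] [NumberField K] {p : ℕ} [Fact p.Prime] {ζ : K}
    (hζ : IsPrimitiveRoot ζ p) (a : K) (ha : ¬ ∃ x : K, x ^ p = a) :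
    ∃ (L : Type u) (_ : Field L) (_ : NumberField L) (_ : Algebra K L) (_ : IsGalois K L),
      Module.finrank K L = p ∧ ∃ (θ : L) (σ : L ≃ₐ[K] L),
        θ ^ p = algebraMap K L a ∧ σ θ = algebraMap K L ζ * θ := by
  have hp : p.Prime := Fact.out
  have H : Irreducible (X ^ p - C a) :=
    X_pow_sub_C_irreducible_of_prime hp (fun b hb => ha ⟨b, hb⟩)
  have hprim : (primitiveRoots p K).Nonempty := ⟨ζ, (mem_primitiveRoots hp.pos).mpr hζ⟩
  have := Fact.mk H
  let : Field (AdjoinRoot (X ^ p - C a)) := AdjoinRoot.instField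
  let : Algebra K (AdjoinRoot (X ^ p - C a)) := inferInstance
  have hsplit : IsSplittingField K (AdjoinRoot (X ^ p - C a)) (X ^ p - C a) :=
    isSplittingField_AdjoinRoot_X_pow_sub_C hprim H
  have hgal : IsGalois K (AdjoinRoot (X ^ p - C a)) :=
    isGalois_of_isSplittingField_X_pow_sub_C hprim H _
  have hrank : Module.finrank K (AdjoinRoot (X ^ p - C a)) = p :=
    finrank_of_isSplittingField_X_pow_sub_C hprim H _
  have hfd : FiniteDimensional K (AdjoinRoot (X ^ p - C a)) :=
    Polynomial.IsSplittingField.finiteDimensional _ (X ^ p - C a)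
  have hchar : CharZero (AdjoinRoot (X ^ p - C a)) :=
    charZero_of_injective_algebraMap (algebraMap K (AdjoinRoot (X ^ p - C a))).injective
  have hnf : NumberField (AdjoinRoot (X ^ p - C a)) :=
    { to_charZero := hchar
      to_finiteDimensional := FiniteDimensional.trans ℚ K (AdjoinRoot (X ^ p - C a)) }
  refine ⟨AdjoinRoot (X ^ p - C a), inferInstance, hnf, inferInstance, hgal, hrank,
    AdjoinRoot.root _, autAdjoinRootXPowSubC p a (hζ.toRootsOfUnity), ?_, ?_⟩
  · exact root_X_pow_sub_C_pow p a
  · rw [autAdjoinRootXPowSubC_root, Algebra.smul_def]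
    rfl

end Fermat.Agent.S14
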