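import Fermat.Agent.S14.Density.Defs

/-!
# S14-AN, task S2: a prime modulo which `η` is a `p`-th power splits completely in `K(η^(1/p))`

Sketch.  `θ` is integral: `Θ : 𝓞 L`.  Let `P` be a prime of `𝓞 L` over `v`.
`∏_j (Θ - ζ^j y) = Θ^p - y^p = η - y^p ∈ v 𝓞 L ⊆ P`, so `Θ - ζ^j y ∈ P` for some `j`.
If `σ P = P` then `ζ Θ - ζ^j y ∈ P`, hence `(ζ - 1) Θ ∈ P`; but `Θ ∉ P` (`Θ^p = η ∉ v`) and
`ζ - 1 ∉ P` (`ζ - 1 ∣ p` in `𝓞 K`, `p ∉ v`).  So `σ P ≠ P`; `Gal(L/K)` has prime order `p`, so the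
stabiliser of `P` is trivial and the `σ^i P`, `i < p`, are `p` distinct primes over `v`.
By `Ideal.ncard_primesOver_mul_ramificationIdxIn_mul_inertiaDegIn` (or `Ideal.sum_ramification_inertia`)
`e = f = 1`, so `𝓞 K / v → 𝓞 L / P` is bijective and `absNorm P = absNorm v`.
-/

set_option autoImplicit false
set_option linter.deprecated false

namespace Fermat.Agent.S14

open NumberField IsDedekindDomain

namespace SplitPrimes

/-- if there are `[L:K]` distinct primes over `v`, they all have inertia degree one. -/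
lemma inertiaDeg_eq_one {K L : Type*} [Field K] [NumberField K] [Field L]
    [NumberField L] [Algebra K L] {p : ℕ} (hdeg : Module.finrank K L = p)
    (v : Ideal (𝓞 K)) [v.IsMaximal] (hv0 : v ≠ ⊥) (g : Fin p → Ideal (𝓞 L))
    (hinj : Function.Injective g) (hprime : ∀ i, (g i).IsPrime)
    (hover : ∀ i, (g i).LiesOver v) (i : Fin p) : v.inertiaDeg' (g i) = 1 := by
  classical
  have hsum := Ideal.sum_ramification_inertia (𝓞 L) K L hv0
  rw [hdeg] at hsum
  set T : Finset (Ideal (𝓞 L)) := Finset.univ.image g with hT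
  have hTcard : T.card = p := by
    rw [hT, Finset.card_image_of_injective _ hinj, Finset.card_univ, Fintype.card_fin]
  have hTsub : T ⊆ IsDedekindDomain.primesOverFinset v (𝓞 L) := by
    intro P hP
    rw [hT, Finset.mem_image] at hP
    obtain ⟨j, _, rfl⟩ := hP
    exact (IsDedekindDomain.mem_primesOverFinset_iff hv0 _).mpr ⟨hprime j, hover j⟩
  have hone : ∀ P ∈ T, 1 ≤ v.ramificationIdx' P * v.inertiaDeg' P := by
    intro P hP
    rw [hT, Finset.mem_image] at hP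
    obtain ⟨j, _, rfl⟩ := hP
    have := hprime j
    have := hover j
    exact Right.one_le_mul
      (Nat.pos_iff_ne_zero.mpr <| Ideal.IsDedekindDomain.ramificationIdx'_ne_zero_of_liesOver _ hv0)
      (Nat.pos_iff_ne_zero.mpr <| Ideal.inertiaDeg'_ne_zero v _)
  have hle : ∑ P ∈ T, v.ramificationIdx' P * v.inertiaDeg' P ≤ p := by
    rw [← hsum]
    exact Finset.sum_le_sum_of_subset hTsub
  have heq : ∑ P ∈ T, 1 = ∑ P ∈ T, v.ramificationIdx' P * v.inertiaDeg' P := by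
    apply le_antisymm (Finset.sum_le_sum hone)
    rw [Finset.sum_const, smul_eq_mul, mul_one, hTcard]
    exact hle
  have hall := (Finset.sum_eq_sum_iff_of_le hone).mp heq (g i)
    (Finset.mem_image_of_mem g (Finset.mem_univ i))
  exact Nat.eq_one_of_mul_eq_one_left hall.symm

/-- `1 - ξ ∈ v` for a primitive `p`-th root of unity `ξ` forces `p ∈ v`. -/
lemma natCast_mem_of_one_sub_mem {R : Type*} [CommRing R] [IsDomain R] {p : ℕ} (hp1 : 1 < p)
    {ξ : R} (hξ : IsPrimitiveRoot ξ p) (v : Ideal R) (h : 1 - ξ ∈ v) : (p : R) ∈ v := by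
  have h0 := hξ.geom_sum_eq_zero hp1
  have h1 : (p : R) = ∑ i ∈ Finset.range p, (1 - ξ ^ i) := by
    rw [Finset.sum_sub_distrib, h0]
    simp
  rw [h1]
  apply Ideal.sum_mem
  intro i _
  obtain ⟨c, hc⟩ := one_sub_dvd_one_sub_pow ξ i
  rw [hc]
  exact Ideal.mul_mem_right _ _ h

end SplitPrimes

open SplitPrimes in
theorem exists_primes_over_of_residue {K L : Type*} [Field K] [NumberField K] [Field L]
    [NumberField L] [Algebra K L] [IsGalois K L] {p : ℕ} [Fact p.Prime]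
    (hdeg : Module.finrank K L = p) {ζ : K} (hζ : IsPrimitiveRoot ζ p) (η : 𝓞 K) (θ : L)
    (σ : L ≃ₐ[K] L) (hθ : θ ^ p = algebraMap K L (η : K)) (hσ : σ θ = algebraMap K L ζ * θ)
    (v : HeightOneSpectrum (𝓞 K)) (hp : (p : 𝓞 K) ∉ v.asIdeal) (hη : η ∉ v.asIdeal) (y : 𝓞 K)
    (hy : y ^ p - η ∈ v.asIdeal) :
    ∃ f : Fin p → HeightOneSpectrum (𝓞 L), Function.Injective f ∧
      ∀ i, (f i).asIdeal.comap (algebraMap (𝓞 K) (𝓞 L)) = v.asIdeal ∧
        Ideal.absNorm (f i).asIdeal = Ideal.absNorm v.asIdeal := by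
  classical
  have hpp : p.Prime := Fact.out
  have hp0 : p ≠ 0 := hpp.ne_zero
  have : NeZero p := ⟨hp0⟩
  have hvprime : v.asIdeal.IsPrime := v.isPrime
  have hvmax : v.asIdeal.IsMaximal := v.isMaximal
  set z : 𝓞 K := hζ.toInteger with hzdef
  have hz : IsPrimitiveRoot z p := hζ.toInteger_isPrimitiveRoot
  have hθint : IsIntegral ℤ θ := by
    apply IsIntegral.of_pow (n := p) (Nat.pos_of_ne_zero hp0)
    rw [hθ]
    exact (RingOfIntegers.isIntegral_coe η).algebraMap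
  set Θ : 𝓞 L := ⟨θ, hθint⟩ with hΘdef
  set a : 𝓞 K →+* 𝓞 L := algebraMap (𝓞 K) (𝓞 L) with hadef
  have hainj : Function.Injective a := FaithfulSMul.algebraMap_injective (𝓞 K) (𝓞 L)
  have hacoe : ∀ x : 𝓞 K, ((a x : 𝓞 L) : L) = algebraMap K L (x : K) := fun x => rfl
  have hΘp : Θ ^ p = a η := by
    apply RingOfIntegers.ext
    rw [hacoe, ← hθ]
    rfl
  set Z : 𝓞 L := a z with hZdef
  have hZ : IsPrimitiveRoot Z p := hz.map_of_injective hainj
  -- a prime over `v`
  obtain ⟨P, -, hPprime, hPover⟩ := Ideal.exists_ideal_over_prime_of_isIntegral v.asIdeal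
    (⊥ : Ideal (𝓞 L)) (by
      rw [Ideal.comap_bot_of_injective _ hainj]; exact bot_le)
  -- the automorphisms
  let τ : ℕ → (𝓞 L ≃+* 𝓞 L) := fun i => RingOfIntegers.mapRingEquiv (σ ^ i).toRingEquiv
  have hτcoe : ∀ (i : ℕ) (x : 𝓞 L), ((τ i x : 𝓞 L) : L) = (σ ^ i) (x : L) := fun i x => rfl
  have hτa : ∀ (i : ℕ) (x : 𝓞 K), τ i (a x) = a x := by
    intro i x
    apply RingOfIntegers.ext
    rw [hτcoe, hacoe, AlgEquiv.commutes]
  have hσpow : ∀ i : ℕ, (σ ^ i) θ = algebraMap K L ζ ^ i * θ := by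
    intro i
    induction i with
    | zero => simp
    | succ i ih =>
      rw [pow_succ', AlgEquiv.mul_apply, ih, map_mul, map_pow, AlgEquiv.commutes, hσ]
      ring
  have hτΘ : ∀ i : ℕ, τ i Θ = Z ^ i * Θ := by
    intro i
    apply RingOfIntegers.ext
    rw [hτcoe]
    exact hσpow i
  -- the root modulo `P`
  have hmemP : Θ ^ p - (a y) ^ p ∈ P := by
    have h1 : Θ ^ p - (a y) ^ p = a (-(y ^ p - η)) := by
      rw [hΘp, map_neg, map_sub, map_pow]; ring
    rw [h1]
    have h2 : -(y ^ p - η) ∈ P.comap a := by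
      rw [hPover]; exact neg_mem hy
    exact h2
  obtain ⟨j0, hj0⟩ : ∃ j0 : ℕ, Θ - Z ^ j0 * a y ∈ P := by
    rw [hZ.pow_sub_pow_eq_prod_sub_mul _ _ (Nat.pos_of_ne_zero hp0)] at hmemP
    obtain ⟨μ, hμ, hμP⟩ := (hPprime.prod_mem_iff).mp hmemP
    have hμ1 : μ ^ p = 1 := ((Polynomial.mem_nthRootsFinset (Nat.pos_of_ne_zero hp0) 1).mp hμ)
    obtain ⟨j, -, rfl⟩ := hZ.eq_pow_of_pow_eq_one hμ1
    exact ⟨j, hμP⟩
  -- the conjugate primes
  let g : ℕ → Ideal (𝓞 L) := fun i => P.comap (τ i : 𝓞 L →+* 𝓞 L)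
  have hgprime : ∀ i, (g i).IsPrime := fun i => Ideal.comap_isPrime _ _
  have hgover : ∀ i, (g i).comap a = v.asIdeal := by
    intro i
    rw [← hPover]
    ext x
    simp only [g, Ideal.mem_comap]
    have : (τ i : 𝓞 L →+* 𝓞 L) (a x) = a x := hτa i x
    rw [this]
  have hgmem : ∀ i, Θ - Z ^ (j0 + i) * a y ∈ g i := by
    intro i
    have h1 : (τ i : 𝓞 L →+* 𝓞 L) (Θ - Z ^ (j0 + i) * a y) = Z ^ i * (Θ - Z ^ j0 * a y) := by
      have e1 : (τ i : 𝓞 L →+* 𝓞 L) (Θ - Z ^ (j0 + i) * a y)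
          = τ i Θ - (τ i Z) ^ (j0 + i) * τ i (a y) := by
        simp
      rw [e1, hτΘ, hτa, hZdef, hτa]
      ring
    show (τ i : 𝓞 L →+* 𝓞 L) (Θ - Z ^ (j0 + i) * a y) ∈ P
    rw [h1]
    exact Ideal.mul_mem_left _ _ hj0
  have hyv : y ∉ v.asIdeal := by
    intro h
    apply hη
    have h1 : η = y ^ p - (y ^ p - η) := by ring
    rw [h1]
    exact sub_mem (Ideal.pow_mem_of_mem _ h p (Nat.pos_of_ne_zero hp0)) hy
  have hzunit : ∀ n : ℕ, z ^ n ∉ v.asIdeal := by
    intro n h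
    exact hvprime.ne_top (Ideal.eq_top_of_isUnit_mem _ h ((hz.isUnit hp0).pow n))
  have hne : ∀ i j : ℕ, i < j → j < p → g i ≠ g j := by
    intro i j hij hjp heq
    have h1 := hgmem i
    have h2 := hgmem j
    rw [← heq] at h2
    have h3 := sub_mem h2 h1
    have h4 : (Θ - Z ^ (j0 + j) * a y) - (Θ - Z ^ (j0 + i) * a y)
        = a (z ^ (j0 + i) * ((1 - z ^ (j - i)) * y)) := by
      have e : j0 + j = (j0 + i) + (j - i) := by omega
      rw [e, map_mul, map_mul, map_sub, map_one, map_pow, map_pow, pow_add]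
      ring
    rw [h4] at h3
    have h5 : z ^ (j0 + i) * ((1 - z ^ (j - i)) * y) ∈ v.asIdeal := by
      rw [← hgover i]; exact h3
    have h6 := (hvprime.mem_or_mem h5).resolve_left (hzunit _)
    have h7 := (hvprime.mem_or_mem h6).resolve_right hyv
    have hcop : (j - i).Coprime p := by
      rw [Nat.coprime_comm, Nat.Prime.coprime_iff_not_dvd hpp]
      intro hd
      have := Nat.le_of_dvd (by omega) hd
      omega
    exact hp (natCast_mem_of_one_sub_mem hpp.one_lt (hz.pow_of_coprime _ hcop) _ h7)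
  have hginj : Function.Injective (fun i : Fin p => g i) := by
    intro i j hij
    rcases lt_trichotomy (i : ℕ) (j : ℕ) with h | h | h
    · exact absurd hij (hne i j h j.2)
    · exact Fin.ext h
    · exact absurd hij.symm (hne j i h i.2)
  have hgbot : ∀ i, g i ≠ ⊥ := by
    intro i h
    apply v.ne_bot
    rw [← hgover i, h, Ideal.comap_bot_of_injective _ hainj]
  refine ⟨fun i => ⟨g i, hgprime i, hgbot i⟩, ?_, ?_⟩
  · intro i j hij
    apply hginj
    exact congrArg HeightOneSpectrum.asIdeal hij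
  · intro i
    refine ⟨hgover i, ?_⟩
    have hover : ∀ k : Fin p, (g k).LiesOver v.asIdeal := fun k => ⟨(hgover k).symm⟩
    have h1 := inertiaDeg_eq_one hdeg v.asIdeal v.ne_bot (fun k : Fin p => g k) hginj
      (fun k => hgprime k) hover i
    have := hover i
    have h2 := Ideal.absNorm_eq_pow_inertiaDeg'_of_liesOver (g i) v.asIdeal hvprime v.ne_bot
    rw [h1, pow_one] at h2
    exact h2

end Fermat.Agent.S14
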