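import Fermat.Agent.S14.Density.PrimeSumUpper

/-!
# S14-AN, task S3: comparing prime sums in an extension
-/

set_option autoImplicit false

namespace Fermat.Agent.S14

open NumberField IsDedekindDomain

theorem mul_primeSum_le_of_fibers {K L : Type*} [Field K] [NumberField K] [Field L]
    [NumberField L] [Algebra K L] (p : ℕ) (S : Set (HeightOneSpectrum (𝓞 K)))
    (h : ∀ v ∈ S, ∃ f : Fin p → HeightOneSpectrum (𝓞 L), Function.Injective f ∧
      ∀ i, (f i).asIdeal.comap (algebraMap (𝓞 K) (𝓞 L)) = v.asIdeal ∧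
        Ideal.absNorm (f i).asIdeal = Ideal.absNorm v.asIdeal) {s : ℝ} (hs : 1 < s) :
    (p : ℝ) * primeSum S s ≤ primeSum (Set.univ : Set (HeightOneSpectrum (𝓞 L))) s := by
  classical
  rcases Nat.eq_zero_or_pos p with rfl | hp
  · simpa using primeSum_nonneg _ _
  have hp' : (0 : ℝ) < p := by exact_mod_cast hp
  choose f hfinj hf using h
  rw [← le_div_iff₀' hp']
  apply primeSum_le_of_forall_sum_le
  intro T hT
  rw [le_div_iff₀' hp']
  let F : {v // v ∈ T} × Fin p → HeightOneSpectrum (𝓞 L) := fun x => f x.1.1 (hT x.1.1 x.1.2) x.2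
  have hF : Function.Injective F := by
    rintro ⟨v, i⟩ ⟨v', i'⟩ hvv
    have h1 : v.1.asIdeal = v'.1.asIdeal := by
      rw [← (hf v.1 (hT v.1 v.2) i).1, ← (hf v'.1 (hT v'.1 v'.2) i').1]
      exact congrArg (fun w : HeightOneSpectrum (𝓞 L) =>
        w.asIdeal.comap (algebraMap (𝓞 K) (𝓞 L))) hvv
    have h2 : v = v' := Subtype.ext (HeightOneSpectrum.ext h1)
    subst h2
    have h3 : i = i' := hfinj v.1 (hT v.1 v.2) hvv
    rw [h3]
  have h1 : (p : ℝ) * ∑ v ∈ T, (Ideal.absNorm v.asIdeal : ℝ) ^ (-s) =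
      ∑ w ∈ (Finset.univ : Finset ({v // v ∈ T} × Fin p)).image F,
        (Ideal.absNorm w.asIdeal : ℝ) ^ (-s) := by
    rw [Finset.sum_image (fun a _ b _ hab => hF hab), ← Finset.univ_product_univ,
      Finset.sum_product, ← Finset.sum_attach, Finset.mul_sum]
    refine Finset.sum_congr rfl (fun v _ => ?_)
    have : ∀ i : Fin p, (Ideal.absNorm (F (v, i)).asIdeal : ℝ) ^ (-s) =
        (Ideal.absNorm v.1.asIdeal : ℝ) ^ (-s) := by
      intro i
      rw [(hf v.1 (hT v.1 v.2) i).2]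
    rw [Finset.sum_congr rfl (fun i _ => this i)]
    simp
  rw [h1]
  exact sum_le_primeSum _ (fun _ _ => Set.mem_univ _) (summable_primeNorm_rpow L hs)

end Fermat.Agent.S14
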