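import Fermat.Agent.S14.Density.Zeta
import Fermat.Agent.S14.Density.KummerField
import Fermat.Agent.S14.Density.SplitPrimes
import Fermat.Agent.S14.Density.SplitSum

/-!
# S14-AN, task S4: the primes modulo which `η` is a `p`-th power have upper density `≤ 1/p`
-/

set_option autoImplicit false

namespace Fermat.Agent.S14

open NumberField IsDedekindDomain Filter Topology

variable (K : Type*) [Field K] [NumberField K]

theorem primeSum_split_le {p : ℕ} [Fact p.Prime] {ζ : K} (hζ : IsPrimitiveRoot ζ p) (η : 𝓞 K)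
    (hη : ¬ ∃ x : K, x ^ p = (η : K)) :
    ∃ C : ℝ, ∀ᶠ s in 𝓝[>] (1 : ℝ),
      (p : ℝ) * primeSum {v : HeightOneSpectrum (𝓞 K) | ∃ y : 𝓞 K, y ^ p - η ∈ v.asIdeal} s ≤
        Real.log (1 / (s - 1)) + C := by
  classical
  have hpp : p.Prime := Fact.out
  obtain ⟨L, _, _, _, _, hdeg, θ, σ, hθ, hσ⟩ := exists_kummer_field K hζ (η : K) hη
  obtain ⟨C, hC⟩ := primeSum_univ_le L
  have hη0 : η ≠ 0 := by
    intro h0
    apply hη
    refine ⟨0, ?_⟩
    rw [h0, zero_pow hpp.ne_zero]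
    rfl
  have hpη : ((p : 𝓞 K) * η) ≠ 0 := mul_ne_zero (by exact_mod_cast hpp.ne_zero) hη0
  set S : Set (HeightOneSpectrum (𝓞 K)) := {v | ∃ y : 𝓞 K, y ^ p - η ∈ v.asIdeal} with hS
  set Sbad : Set (HeightOneSpectrum (𝓞 K)) := {v | ((p : 𝓞 K) * η) ∈ v.asIdeal} with hSbad
  have hfin : Sbad.Finite := finite_primes_of_mem hpη
  set Sgood : Set (HeightOneSpectrum (𝓞 K)) := S \ Sbad with hSgood
  refine ⟨C + p * Sbad.ncard, ?_⟩
  filter_upwards [hC, self_mem_nhdsWithin] with s hs1 hs2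
  have hs : 1 < s := hs2
  have hsum := summable_primeNorm_rpow K hs
  have h1 : primeSum S s ≤ primeSum Sgood s + primeSum Sbad s := by
    refine le_trans (primeSum_mono ?_ hsum) (primeSum_union_le Sgood Sbad hsum)
    intro v hv
    by_cases hb : v ∈ Sbad
    · exact Or.inr hb
    · exact Or.inl ⟨hv, hb⟩
  have h2 : primeSum Sbad s ≤ Sbad.ncard := primeSum_le_ncard_of_finite hfin (by linarith)
  have h3 : (p : ℝ) * primeSum Sgood s ≤
      primeSum (Set.univ : Set (HeightOneSpectrum (𝓞 L))) s := by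
    apply mul_primeSum_le_of_fibers p Sgood _ hs
    rintro v ⟨⟨y, hy⟩, hvb⟩
    have hvp : (p : 𝓞 K) ∉ v.asIdeal := fun h => hvb (Ideal.mul_mem_right _ _ h)
    have hvη : η ∉ v.asIdeal := fun h => hvb (Ideal.mul_mem_left _ _ h)
    exact exists_primes_over_of_residue hdeg hζ η θ σ hθ hσ v hvp hvη y hy
  have hp0 : (0 : ℝ) ≤ p := Nat.cast_nonneg p
  calc (p : ℝ) * primeSum S s ≤ p * (primeSum Sgood s + primeSum Sbad s) :=
        mul_le_mul_of_nonneg_left h1 hp0
    _ = p * primeSum Sgood s + p * primeSum Sbad s := by ring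
    _ ≤ (Real.log (1 / (s - 1)) + C) + p * Sbad.ncard :=
        add_le_add (h3.trans hs1) (mul_le_mul_of_nonneg_left h2 hp0)
    _ = Real.log (1 / (s - 1)) + (C + p * Sbad.ncard) := by ring

end Fermat.Agent.S14
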