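import Fermat.Agent.S14.Density.Ker
import Fermat.Agent.S14.Density.Split

/-!
# S14-AN, task Z5: existence of a prime of degree one with `φ(𝔮) ≠ 0` modulo which `η` is not a
`p`-th power

Sketch.  Suppose not.  Then `{N v prime} ⊆ {N v = p} ∪ {φ v = 1} ∪ {η residue mod v}`, so by
`le_primeSum_degree_one`, `primeSum_mono`, `primeSum_union_le`, `finite_primes_of_absNorm_eq`,
`primeSum_le_ncard_of_finite`, `primeSum_ker_le`, `primeSum_split_le`: eventually
`ℓ(s) ≤ (2/p) ℓ(s) + C'` with `ℓ(s) = log (1/(s-1)) → +∞` as `s → 1⁺`; as `1 - 2/p ≥ 1/3 > 0` this is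
a contradiction (`Filter.Eventually.and`, `Filter.Eventually.exists` on `𝓝[>] 1`, which is `NeBot`;
e.g. also intersect with the eventual event `3 * C' + 1 < ℓ(s)`).
-/

set_option autoImplicit false

namespace Fermat.Agent.S14

open NumberField IsDedekindDomain Filter Topology

variable (K : Type*) [Field K] [NumberField K]

theorem main_tendsto_log : Tendsto (fun s : ℝ => Real.log (1 / (s - 1))) (𝓝[>] 1) atTop := by
  have h1 : Tendsto (fun s : ℝ => s - 1) (𝓝[>] 1) (𝓝[>] 0) := by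
    have : Tendsto (fun s : ℝ => s - 1) (𝓝 1) (𝓝 0) := by
      have h0 : Continuous fun s : ℝ => s - 1 := by fun_prop
      have := h0.tendsto 1
      rwa [sub_self] at this
    refine tendsto_nhdsWithin_iff.mpr ⟨this.mono_left nhdsWithin_le_nhds, ?_⟩
    filter_upwards [self_mem_nhdsWithin] with s hs
    have : (1 : ℝ) < s := hs
    show 0 < s - 1
    linarith
  have h2 : Tendsto (fun s : ℝ => 1 / (s - 1)) (𝓝[>] 1) atTop := by
    simp only [one_div]
    exact tendsto_inv_nhdsGT_zero.comp h1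
  exact Real.tendsto_log_atTop.comp h2

theorem exists_prime_of_not_pow {p : ℕ} [Fact p.Prime] (hp3 : 3 ≤ p) {ζ : K}
    (hζ : IsPrimitiveRoot ζ p)
    (φ : ClassGroup (𝓞 K) →* Multiplicative (ZMod p)) (hφ : Function.Surjective φ) (η : 𝓞 K)
    (hη : ¬ ∃ x : K, x ^ p = (η : K)) :
    ∃ v : HeightOneSpectrum (𝓞 K), (Ideal.absNorm v.asIdeal).Prime ∧ Ideal.absNorm v.asIdeal ≠ p ∧
      φ (primeClass v) ≠ 1 ∧ ¬ ∃ y : 𝓞 K, y ^ p - η ∈ v.asIdeal := by
  by_contra hcon
  have hsub : {v : HeightOneSpectrum (𝓞 K) | (Ideal.absNorm v.asIdeal).Prime} ⊆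
      {v : HeightOneSpectrum (𝓞 K) | Ideal.absNorm v.asIdeal = p} ∪
      {v : HeightOneSpectrum (𝓞 K) | φ (primeClass v) = 1} ∪
      {v : HeightOneSpectrum (𝓞 K) | ∃ y : 𝓞 K, y ^ p - η ∈ v.asIdeal} := by
    intro v hv
    by_contra hv'
    simp only [Set.mem_union, Set.mem_ofPred_eq, not_or] at hv'
    exact hcon ⟨v, hv, hv'.1.1, hv'.1.2, hv'.2⟩
  obtain ⟨C₀, h0⟩ := le_primeSum_degree_one K
  obtain ⟨C₁, h1⟩ := primeSum_ker_le K φ hφ
  obtain ⟨C₂, h2⟩ := primeSum_split_le K hζ η hη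
  set C₃ : ℝ := ({v : HeightOneSpectrum (𝓞 K) | Ideal.absNorm v.asIdeal = p}.ncard : ℝ) with hC₃
  have hp3' : (3 : ℝ) ≤ (p : ℝ) := by exact_mod_cast hp3
  have hL := main_tendsto_log.eventually (eventually_gt_atTop (3 * (C₀ + |C₁| + |C₂| + C₃)))
  obtain ⟨s, e0, e1, e2, eL, hs⟩ :=
    (h0.and (h1.and (h2.and (hL.and self_mem_nhdsWithin)))).exists
  have hs' : 1 < s := hs
  have hsum := summable_primeNorm_rpow K hs'
  have e3 : primeSum {v : HeightOneSpectrum (𝓞 K) | Ideal.absNorm v.asIdeal = p} s ≤ C₃ :=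
    primeSum_le_ncard_of_finite (finite_primes_of_absNorm_eq p) (by linarith)
  have e4 := primeSum_mono hsub hsum
  have e5 := primeSum_union_le ({v : HeightOneSpectrum (𝓞 K) | Ideal.absNorm v.asIdeal = p} ∪
      {v : HeightOneSpectrum (𝓞 K) | φ (primeClass v) = 1})
      {v : HeightOneSpectrum (𝓞 K) | ∃ y : 𝓞 K, y ^ p - η ∈ v.asIdeal} hsum
  have e6 := primeSum_union_le {v : HeightOneSpectrum (𝓞 K) | Ideal.absNorm v.asIdeal = p}
      {v : HeightOneSpectrum (𝓞 K) | φ (primeClass v) = 1} hsum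
  set L := Real.log (1 / (s - 1)) with hLdef
  set a := primeSum {v : HeightOneSpectrum (𝓞 K) | φ (primeClass v) = 1} s with ha
  set b := primeSum {v : HeightOneSpectrum (𝓞 K) | ∃ y : 𝓞 K, y ^ p - η ∈ v.asIdeal} s with hb
  have ha0 : 0 ≤ a := tsum_nonneg fun _ => Real.rpow_nonneg (Nat.cast_nonneg _) _
  have hb0 : 0 ≤ b := tsum_nonneg fun _ => Real.rpow_nonneg (Nat.cast_nonneg _) _
  have e1' : 3 * a ≤ L + |C₁| := by
    have : 3 * a ≤ (p : ℝ) * a := mul_le_mul_of_nonneg_right hp3' ha0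
    linarith [le_abs_self C₁]
  have e2' : 3 * b ≤ L + |C₂| := by
    have : 3 * b ≤ (p : ℝ) * b := mul_le_mul_of_nonneg_right hp3' hb0
    linarith [le_abs_self C₂]
  have := abs_nonneg C₁
  have := abs_nonneg C₂
  linarith

end Fermat.Agent.S14
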