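import Fermat.Agent.S14.Density.Defs

/-!
# S14-AN, task K2: `∏_k (1 - e(kj/p) x) = (1-x)^p` or `1 - x^p`
-/

set_option autoImplicit false

namespace Fermat.Agent.S14

theorem charProd_image {p : ℕ} [Fact p.Prime] :
    Polynomial.nthRootsFinset p (1 : ℂ) =
      (Finset.univ : Finset (ZMod p)).image (fun k => (ZMod.stdAddChar k : ℂ)) := by
  classical
  have hp : p ≠ 0 := (Fact.out : p.Prime).ne_zero
  symm
  apply Finset.eq_of_subset_of_card_le
  · intro z hz
    obtain ⟨k, _, rfl⟩ := Finset.mem_image.mp hz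
    rw [Polynomial.mem_nthRootsFinset (Nat.pos_of_ne_zero hp)]
    rw [← AddChar.map_nsmul_eq_pow]
    simp
  · rw [(Complex.isPrimitiveRoot_exp p hp).card_nthRootsFinset,
      Finset.card_image_of_injective _ ZMod.injective_stdAddChar]
    simp

theorem prod_one_sub_stdAddChar_mul {p : ℕ} [Fact p.Prime] (j : ZMod p) (x : ℂ) :
    ∏ k : ZMod p, (1 - ZMod.stdAddChar (k * j) * x) = if j = 0 then (1 - x) ^ p else 1 - x ^ p := by
  classical
  have hp : p ≠ 0 := (Fact.out : p.Prime).ne_zero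
  split_ifs with hj
  · subst hj
    simp [Finset.prod_const, ZMod.card]
  · have h1 : ∏ k : ZMod p, (1 - ZMod.stdAddChar (k * j) * x) =
        ∏ k : ZMod p, (1 - ZMod.stdAddChar k * x) :=
      Fintype.prod_equiv (Equiv.mulRight₀ j hj) _ _ (fun k => rfl)
    rw [h1]
    have h2 := (Complex.isPrimitiveRoot_exp p hp).pow_sub_pow_eq_prod_sub_mul 1 x
      (Nat.pos_of_ne_zero hp)
    rw [one_pow] at h2
    rw [h2, charProd_image, Finset.prod_image]
    intro a _ b _ hab
    exact ZMod.injective_stdAddChar hab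

/-- character sums: `∑_{j} e(kj/p) = 0` for `k ≠ 0`. -/
theorem sum_stdAddChar_mul_eq_zero {p : ℕ} [Fact p.Prime] {k : ZMod p} (hk : k ≠ 0) :
    ∑ j : ZMod p, (ZMod.stdAddChar (k * j) : ℂ) = 0 := by
  classical
  have h := AddChar.sum_mulShift (R := ZMod p) (R' := ℂ) k (ZMod.isPrimitive_stdAddChar p)
  rw [if_neg hk, Nat.cast_zero] at h
  rw [← h]
  refine Finset.sum_congr rfl (fun j _ => ?_)
  rw [mul_comm]

theorem norm_stdAddChar_eq_one {p : ℕ} [Fact p.Prime] (j : ZMod p) :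
    ‖(ZMod.stdAddChar j : ℂ)‖ = 1 :=
  AddChar.norm_apply _ _

end Fermat.Agent.S14
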