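import Fermat.Agent.S14.Density.Defs

/-!
# S14-AN, task P4: principal multiples of `J` versus ideals in the class `[J]⁻¹`

Sketch.  `I' ↦ J * I'` is a bijection `{I' // mk0 I' = C} ≃ {I // J ∣ I ∧ I principal}` when
`mk0 J = C⁻¹` (`ClassGroup.mk0_eq_one_iff`, `map_mul`; see the private lemma
`NumberField.Ideal.tendsto_norm_le_and_mk_eq_div_atTop_aux₁` in
`Mathlib/NumberTheory/NumberField/Ideal/Asymptotics.lean`, which uses `Equiv.dvd J`), and
`absNorm (J * I') = absNorm J * absNorm I'`, `Real.mul_rpow`, `tsum_mul_left`, `Equiv.tsum_eq`.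
-/

set_option autoImplicit false

namespace Fermat.Agent.S14

open NumberField

variable (K : Type*) [Field K] [NumberField K]

theorem tsum_principal_dvd (J : nonZeroDivisors (Ideal (𝓞 K))) (C : ClassGroup (𝓞 K))
    (hJ : ClassGroup.mk0 J = C⁻¹) (s : ℝ) :
    ∑' I : {I : nonZeroDivisors (Ideal (𝓞 K)) //
        (J : Ideal (𝓞 K)) ∣ (I : Ideal (𝓞 K)) ∧ (I : Ideal (𝓞 K)).IsPrincipal},
      (Ideal.absNorm ((I : nonZeroDivisors (Ideal (𝓞 K))) : Ideal (𝓞 K)) : ℝ) ^ (-s) =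
    (Ideal.absNorm (J : Ideal (𝓞 K)) : ℝ) ^ (-s) * partialZeta K C s := by
  classical
  let f : {I : nonZeroDivisors (Ideal (𝓞 K)) // ClassGroup.mk0 I = C} →
      {I : nonZeroDivisors (Ideal (𝓞 K)) //
        (J : Ideal (𝓞 K)) ∣ (I : Ideal (𝓞 K)) ∧ (I : Ideal (𝓞 K)).IsPrincipal} :=
    fun I' => ⟨J * I'.1, by
      refine ⟨by rw [Submonoid.coe_mul]; exact dvd_mul_right _ _, ?_⟩
      rw [← ClassGroup.mk0_eq_one_iff (J * I'.1).2]
      change ClassGroup.mk0 (J * I'.1) = 1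
      rw [map_mul, hJ, I'.2, inv_mul_cancel]⟩
  have hJ0 : (J : Ideal (𝓞 K)) ≠ 0 := nonZeroDivisors.coe_ne_zero J
  have hf : Function.Bijective f := by
    constructor
    · intro a b hab
      have h1 : (J : Ideal (𝓞 K)) * (a.1 : Ideal (𝓞 K)) = (J : Ideal (𝓞 K)) * (b.1 : Ideal (𝓞 K)) := by
        have := congrArg (fun x => ((x.1 : nonZeroDivisors (Ideal (𝓞 K))) : Ideal (𝓞 K))) hab
        simpa [f] using this
      exact Subtype.ext (Subtype.ext (mul_left_cancel₀ hJ0 h1))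
    · rintro ⟨I, ⟨I'', hI''⟩, hprin⟩
      have hI0 : (I : Ideal (𝓞 K)) ≠ 0 := nonZeroDivisors.coe_ne_zero I
      have hI''0 : I'' ≠ 0 := by
        rintro rfl
        rw [mul_zero] at hI''
        exact hI0 hI''
      let I₂ : nonZeroDivisors (Ideal (𝓞 K)) := ⟨I'', mem_nonZeroDivisors_of_ne_zero hI''0⟩
      have hmul : I = J * I₂ := Subtype.ext hI''
      have h1 : ClassGroup.mk0 I = 1 := (ClassGroup.mk0_eq_one_iff I.2).mpr hprin
      have h2 : ClassGroup.mk0 I₂ = C := by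
        rw [hmul, map_mul, hJ] at h1
        exact (inv_mul_eq_one.mp h1).symm
      exact ⟨⟨I₂, h2⟩, Subtype.ext hmul.symm⟩
  rw [← (Equiv.ofBijective f hf).tsum_eq, partialZeta, ← tsum_mul_left]
  refine tsum_congr fun I' => ?_
  change (Ideal.absNorm ((J * I'.1 : nonZeroDivisors (Ideal (𝓞 K))) : Ideal (𝓞 K)) : ℝ) ^ (-s) = _
  rw [Submonoid.coe_mul, map_mul, Nat.cast_mul,
    Real.mul_rpow (Nat.cast_nonneg _) (Nat.cast_nonneg _)]

end Fermat.Agent.S14
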