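import Fermat.Agent.S14.Density.Coset
import Fermat.Agent.S14.Density.ClassIdeal

/-!
# S14-AN, task P7: differences of partial zeta functions are bounded as `s → 1⁺`

Sketch.  Pick `J₁, J₂` with `mk0 J₁ = C⁻¹`, `mk0 J₂ = C'⁻¹` (`ClassGroup.mk0_surjective`),
`N_i = absNorm J_i`, `t = torsionOrder K`, `Y_i(s) = N_i * latSum K J_i s`.
By `hasSum_wtO_ideal` + `tsum_principal_dvd`: `latSum K J_i s = t * N_i^{-s} * partialZeta`, i.e.
`partialZeta K C s = N₁^{s-1} Y₁(s) / t`.  By `exists_latSum_compare` applied to `J₁ * J₂ ≤ J_i`: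
`|Y₁ - Y₂| ≤ M₁ + M₂`.  Then
`t |ζ_C - ζ_C'| ≤ N₁^{s-1} |Y₁ - Y₂| + |N₁^{s-1} - N₂^{s-1}| Y₂`, `N₁^{s-1} ≤ N₁` on `(1,2]`,
`|N^{s-1} - 1| ≤ (s - 1) N log N`-type bound (or `≤ (s-1) * N`: `N^{u} - 1 ≤ u (N - 1)` for
`u ∈ [0,1]` by concavity/Bernoulli `Real.rpow_le_one_add...`; any bound `≤ c (s-1)` is fine),
`Y₂ = t N₂^{1-s} ζ_C' ≤ t * idealZeta K s ≤ t * C₀ / (s-1)` (`partialZeta_le_idealZeta`,
`idealZeta_bounds`).
-/

set_option autoImplicit false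

namespace Fermat.Agent.S14

open NumberField IsDedekindDomain Filter Topology

variable (K : Type*) [Field K] [NumberField K]

theorem latSum_eq (J : nonZeroDivisors (Ideal (𝓞 K))) (C : ClassGroup (𝓞 K))
    (hJ : ClassGroup.mk0 J = C⁻¹) {s : ℝ} (hs : 1 < s) :
    latSum K J s = (NumberField.Units.torsionOrder K : ℝ) *
      ((Ideal.absNorm (J : Ideal (𝓞 K)) : ℝ) ^ (-s) * partialZeta K C s) := by
  rw [latSum, (hasSum_wtO_ideal K J hs).tsum_eq, tsum_principal_dvd K J C hJ s]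

theorem partial_one_le_absNorm (J : nonZeroDivisors (Ideal (𝓞 K))) :
    (1 : ℝ) ≤ (Ideal.absNorm (J : Ideal (𝓞 K)) : ℝ) := by
  have h : Ideal.absNorm (J : Ideal (𝓞 K)) ≠ 0 := by
    rw [Ne, Ideal.absNorm_eq_zero_iff]
    exact nonZeroDivisors.coe_ne_zero J
  exact_mod_cast Nat.one_le_iff_ne_zero.2 h

theorem partial_abs_rpow_sub_one_le {N u : ℝ} (hN : 1 ≤ N) (hu0 : 0 ≤ u) (hu1 : u ≤ 1) :
    |N ^ u - 1| ≤ u * N := by
  have h1 : 1 ≤ N ^ u := Real.one_le_rpow hN hu0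
  have h2 : (1 + (N - 1)) ^ u ≤ 1 + u * (N - 1) :=
    rpow_one_add_le_one_add_mul_self (by linarith) hu0 hu1
  rw [add_sub_cancel] at h2
  rw [abs_of_nonneg (by linarith)]
  nlinarith

theorem partialZeta_sub_bounded (C C' : ClassGroup (𝓞 K)) :
    ∃ M : ℝ, ∀ᶠ s in 𝓝[>] (1 : ℝ), |partialZeta K C s - partialZeta K C' s| ≤ M := by
  obtain ⟨J₁, hJ₁⟩ := ClassGroup.mk0_surjective C⁻¹
  obtain ⟨J₂, hJ₂⟩ := ClassGroup.mk0_surjective C'⁻¹
  obtain ⟨M₁, hM₁⟩ := exists_latSum_compare K J₁ (J₁ * J₂) Ideal.mul_le_left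
  obtain ⟨M₂, hM₂⟩ := exists_latSum_compare K J₂ (J₁ * J₂) Ideal.mul_le_right
  obtain ⟨c₀, C₀, -, hC₀, hz⟩ := idealZeta_bounds K
  set t : ℝ := (NumberField.Units.torsionOrder K : ℝ) with ht
  have ht0 : 0 < t := by
    rw [ht]
    exact_mod_cast (NumberField.Units.torsionOrder_pos K)
  set N₁ : ℝ := (Ideal.absNorm (J₁ : Ideal (𝓞 K)) : ℝ) with hN₁
  set N₂ : ℝ := (Ideal.absNorm (J₂ : Ideal (𝓞 K)) : ℝ) with hN₂
  have h1N₁ : 1 ≤ N₁ := partial_one_le_absNorm K J₁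
  have h1N₂ : 1 ≤ N₂ := partial_one_le_absNorm K J₂
  refine ⟨(N₁ * (M₁ + M₂) + (N₁ + N₂) * (t * C₀)) / t, ?_⟩
  filter_upwards [hz, Ioo_mem_nhdsGT (show (1 : ℝ) < 2 by norm_num)] with s hs hs12
  obtain ⟨hs1, hs2⟩ := hs12
  have hu0 : 0 < s - 1 := by linarith
  have hu1 : s - 1 ≤ 1 := by linarith
  set Y₁ : ℝ := N₁ * latSum K J₁ s with hY₁
  set Y₂ : ℝ := N₂ * latSum K J₂ s with hY₂
  have hY12 : |Y₁ - Y₂| ≤ M₁ + M₂ := by
    have a1 := hM₁ s hs1 hs2.le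
    have a2 := hM₂ s hs1 hs2.le
    rw [← hY₁] at a1
    rw [← hY₂, abs_sub_comm] at a2
    exact (abs_sub_le Y₁ _ Y₂).trans (add_le_add a1 a2)
  have hN₁pos : 0 < N₁ := by linarith
  have hN₂pos : 0 < N₂ := by linarith
  have e₁ : t * partialZeta K C s = N₁ ^ (s - 1) * Y₁ := by
    rw [hY₁, latSum_eq K J₁ C hJ₁ hs1, ← ht, ← hN₁]
    have : N₁ ^ (s - 1) * (N₁ * N₁ ^ (-s)) = 1 := by
      rw [← Real.rpow_one_add' hN₁pos.le (by linarith), ← Real.rpow_add hN₁pos]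
      have : s - 1 + (1 + -s) = 0 := by ring
      rw [this, Real.rpow_zero]
    linear_combination (-(t * partialZeta K C s)) * this
  have e₂ : t * partialZeta K C' s = N₂ ^ (s - 1) * Y₂ := by
    rw [hY₂, latSum_eq K J₂ C' hJ₂ hs1, ← ht, ← hN₂]
    have : N₂ ^ (s - 1) * (N₂ * N₂ ^ (-s)) = 1 := by
      rw [← Real.rpow_one_add' hN₂pos.le (by linarith), ← Real.rpow_add hN₂pos]
      have : s - 1 + (1 + -s) = 0 := by ring
      rw [this, Real.rpow_zero]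
    linear_combination (-(t * partialZeta K C' s)) * this
  have hY₂nn : 0 ≤ Y₂ := by
    have h1 : 0 < N₂ ^ (s - 1) := Real.rpow_pos_of_pos hN₂pos _
    have h2 : 0 ≤ t * partialZeta K C' s := mul_nonneg ht0.le (partialZeta_nonneg K C' s)
    rw [e₂] at h2
    exact nonneg_of_mul_nonneg_right h2 h1
  have hY₂le : Y₂ ≤ t * (C₀ / (s - 1)) := by
    have h1 : 1 ≤ N₂ ^ (s - 1) := Real.one_le_rpow h1N₂ hu0.le
    have h2 : Y₂ ≤ N₂ ^ (s - 1) * Y₂ := le_mul_of_one_le_left hY₂nn h1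
    rw [← e₂] at h2
    refine h2.trans (mul_le_mul_of_nonneg_left ?_ ht0.le)
    exact (partialZeta_le_idealZeta K C' hs1).trans hs.2
  have hmain : t * |partialZeta K C s - partialZeta K C' s| ≤
      N₁ * (M₁ + M₂) + (N₁ + N₂) * (t * C₀) := by
    have e : t * (partialZeta K C s - partialZeta K C' s) =
        N₁ ^ (s - 1) * (Y₁ - Y₂) + (N₁ ^ (s - 1) - N₂ ^ (s - 1)) * Y₂ := by
      rw [mul_sub, e₁, e₂]; ring
    rw [← abs_of_pos ht0, ← abs_mul, abs_of_pos ht0, e]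
    refine (abs_add_le _ _).trans (add_le_add ?_ ?_)
    · rw [abs_mul, abs_of_pos (Real.rpow_pos_of_pos hN₁pos _)]
      have h1 : N₁ ^ (s - 1) ≤ N₁ := by
        conv_rhs => rw [← Real.rpow_one N₁]
        exact Real.rpow_le_rpow_of_exponent_le h1N₁ hu1
      exact mul_le_mul h1 hY12 (abs_nonneg _) hN₁pos.le
    · rw [abs_mul, abs_of_nonneg hY₂nn]
      have h1 : |N₁ ^ (s - 1) - N₂ ^ (s - 1)| ≤ (s - 1) * (N₁ + N₂) := by
        have a1 := partial_abs_rpow_sub_one_le h1N₁ hu0.le hu1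
        have a2 := partial_abs_rpow_sub_one_le h1N₂ hu0.le hu1
        have := abs_sub_le (N₁ ^ (s - 1)) 1 (N₂ ^ (s - 1))
        rw [abs_sub_comm 1] at this
        linarith
      calc |N₁ ^ (s - 1) - N₂ ^ (s - 1)| * Y₂
          ≤ ((s - 1) * (N₁ + N₂)) * (t * (C₀ / (s - 1))) :=
            mul_le_mul h1 hY₂le hY₂nn (mul_nonneg hu0.le (by linarith))
        _ = (N₁ + N₂) * (t * C₀) := by
            field_simp
  rw [le_div_iff₀ ht0, mul_comm]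
  exact hmain

end Fermat.Agent.S14
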