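import Fermat.Agent.S14.Density.Euler
import Fermat.Agent.S14.Density.Partial
import Fermat.Agent.S14.Density.CharProd

/-!
# S14-AN, task K1: the class group `L`-functions `L(s, ψ^k ∘ φ)`, `k ≠ 0`, are bounded near `s = 1`

Sketch.  Group the ideals by their class (`ClassGroup (𝓞 K)` is a `Fintype`):
`lsum (classChar φ k) ∅ s = ∑_C e(k φ(C)) partialZeta K C s` (`lsum_empty`, `Equiv.sigmaFiberEquiv`,
`Summable.tsum_sigma'`/`tsum_fintype`, `Complex.ofReal_tsum`).
`∑_C e(k φ(C)) = 0` for `k ≠ 0`: `φ` is surjective, all fibres of `φ` have the same cardinality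
(cosets of the kernel), and `sum_stdAddChar_mul_eq_zero`; (or: translate by `C₀` with
`e(k φ(C₀)) ≠ 1`).  Hence `L = ∑_C e(k φ(C)) (partialZeta K C s - partialZeta K 1 s)`,
and `‖L‖ ≤ ∑_C M_C` by `partialZeta_sub_bounded`.
-/

set_option autoImplicit false

namespace Fermat.Agent.S14

open NumberField IsDedekindDomain Filter Topology

variable (K : Type*) [Field K] [NumberField K]

theorem ClassL.classChar_apply {p : ℕ} [Fact p.Prime]
    (φ : ClassGroup (𝓞 K) →* Multiplicative (ZMod p)) (k : ZMod p)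
    (I : nonZeroDivisors (Ideal (𝓞 K))) :
    classChar φ k I = ZMod.stdAddChar (k * Multiplicative.toAdd (φ (ClassGroup.mk0 I))) := rfl

theorem norm_classChar_le_one {p : ℕ} [Fact p.Prime]
    (φ : ClassGroup (𝓞 K) →* Multiplicative (ZMod p)) (k : ZMod p)
    (I : nonZeroDivisors (Ideal (𝓞 K))) : ‖classChar φ k I‖ ≤ 1 := by
  rw [ClassL.classChar_apply, norm_stdAddChar_eq_one]

theorem lsum_classChar_zero {p : ℕ} [Fact p.Prime]
    (φ : ClassGroup (𝓞 K) →* Multiplicative (ZMod p)) (s : ℝ) :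
    lsum (classChar φ 0) ∅ s = ((idealZeta K s : ℝ) : ℂ) := by
  have h : classChar φ 0 = (1 : nonZeroDivisors (Ideal (𝓞 K)) →* ℂ) := by
    ext I
    rw [ClassL.classChar_apply, zero_mul, AddChar.map_zero_eq_one, MonoidHom.one_apply]
  rw [h, lsum_one_empty]

theorem lsum_classChar_eq_sum {p : ℕ} [Fact p.Prime]
    (φ : ClassGroup (𝓞 K) →* Multiplicative (ZMod p)) (k : ZMod p) {s : ℝ} (hs : 1 < s) :
    lsum (classChar φ k) ∅ s =
      ∑ C : ClassGroup (𝓞 K), (ZMod.stdAddChar (k * Multiplicative.toAdd (φ C)) : ℂ) *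
        ((partialZeta K C s : ℝ) : ℂ) := by
  have hsum := summable_lsum_term (classChar φ k) (norm_classChar_le_one K φ k) hs
  rw [lsum_empty,
    ← (Equiv.sigmaFiberEquiv (fun I : nonZeroDivisors (Ideal (𝓞 K)) => ClassGroup.mk0 I)).tsum_eq]
  have hsum' := (Equiv.sigmaFiberEquiv
    (fun I : nonZeroDivisors (Ideal (𝓞 K)) => ClassGroup.mk0 I)).summable_iff.mpr hsum
  have hsig := hsum'.tsum_sigma
  simp only [Function.comp_apply] at hsig
  rw [hsig, tsum_fintype]
  refine Finset.sum_congr rfl fun C _ => ?_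
  rw [partialZeta, Complex.ofReal_tsum, ← tsum_mul_left]
  refine tsum_congr fun I => ?_
  simp only [Equiv.sigmaFiberEquiv_apply]
  rw [ClassL.classChar_apply, I.2]

theorem ClassL.sum_char_eq_zero {p : ℕ} [Fact p.Prime]
    (φ : ClassGroup (𝓞 K) →* Multiplicative (ZMod p)) (hφ : Function.Surjective φ)
    {k : ZMod p} (hk : k ≠ 0) :
    ∑ C : ClassGroup (𝓞 K), (ZMod.stdAddChar (k * Multiplicative.toAdd (φ C)) : ℂ) = 0 := by
  obtain ⟨C₀, hC₀⟩ := hφ (Multiplicative.ofAdd 1)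
  have h1 : ∑ C : ClassGroup (𝓞 K), (ZMod.stdAddChar (k * Multiplicative.toAdd (φ C)) : ℂ) =
      (ZMod.stdAddChar k : ℂ) *
        ∑ C : ClassGroup (𝓞 K), (ZMod.stdAddChar (k * Multiplicative.toAdd (φ C)) : ℂ) := by
    rw [Finset.mul_sum, ← Equiv.sum_comp (Equiv.mulLeft C₀)]
    refine Finset.sum_congr rfl fun C _ => ?_
    have h : φ ((Equiv.mulLeft C₀) C) = Multiplicative.ofAdd 1 * φ C := by
      rw [Equiv.coe_mulLeft, map_mul φ, hC₀]
    rw [h, toAdd_mul, toAdd_ofAdd, mul_add, mul_one, AddChar.map_add_eq_mul]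
  have h2 : (ZMod.stdAddChar k : ℂ) ≠ 1 := by
    intro h
    apply hk
    apply ZMod.injective_stdAddChar
    rw [h, AddChar.map_zero_eq_one]
  have h3 : (1 - (ZMod.stdAddChar k : ℂ)) *
      ∑ C : ClassGroup (𝓞 K), (ZMod.stdAddChar (k * Multiplicative.toAdd (φ C)) : ℂ) = 0 := by
    rw [sub_mul, one_mul, ← h1, sub_self]
  rcases mul_eq_zero.mp h3 with h | h
  · exact absurd (sub_eq_zero.mp h).symm h2
  · exact h

theorem exists_norm_lsum_classChar_le {p : ℕ} [Fact p.Prime]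
    (φ : ClassGroup (𝓞 K) →* Multiplicative (ZMod p)) (hφ : Function.Surjective φ) :
    ∃ M : ℝ, ∀ᶠ s in 𝓝[>] (1 : ℝ), ∀ k : ZMod p, k ≠ 0 → ‖lsum (classChar φ k) ∅ s‖ ≤ M := by
  choose M hM using fun C : ClassGroup (𝓞 K) => partialZeta_sub_bounded K C 1
  refine ⟨∑ C, M C, ?_⟩
  have hall : ∀ᶠ s in 𝓝[>] (1 : ℝ), ∀ C : ClassGroup (𝓞 K),
      |partialZeta K C s - partialZeta K 1 s| ≤ M C := Filter.eventually_all.mpr hM
  filter_upwards [hall, self_mem_nhdsWithin] with s hs1 hs2 k hk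
  have hs : 1 < s := hs2
  have h0 := ClassL.sum_char_eq_zero K φ hφ hk
  have h1 : lsum (classChar φ k) ∅ s =
      ∑ C : ClassGroup (𝓞 K), (ZMod.stdAddChar (k * Multiplicative.toAdd (φ C)) : ℂ) *
        (((partialZeta K C s - partialZeta K 1 s : ℝ)) : ℂ) := by
    rw [lsum_classChar_eq_sum K φ k hs]
    simp only [Complex.ofReal_sub, mul_sub]
    rw [Finset.sum_sub_distrib, ← Finset.sum_mul, h0, zero_mul, sub_zero]
  rw [h1]
  refine (norm_sum_le _ _).trans (Finset.sum_le_sum fun C _ => ?_)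
  rw [norm_mul, norm_stdAddChar_eq_one, one_mul, Complex.norm_real, Real.norm_eq_abs]
  exact hs1 C

end Fermat.Agent.S14
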