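import Fermat.Agent.S14.Density.Tent

/-!
# S14-AN, task L1: the support of `ρ` lies in a cone `|x|_w ≥ c ‖x‖`

Sketch.  Let `B = (basisUnitLattice K).ofZLatticeBasis ℝ _`, `b = ∑ i, ‖B i‖`.  If `rho K x ≠ 0` then
`|logCoord K x i| < 1` for all `i` (`abs_lt_one_of_tent_ne_zero`, `Finset.prod_ne_zero_iff`), and
`logMap x = ∑ i, logCoord K x i • B i` (`Basis.sum_repr`), so `‖logMap x‖ ≤ b`, i.e.
`|mult w * (log |x|_w - (1/n) log N x)| ≤ b` for `w ≠ w₀`.  Put `d_w = log |x|_w - (1/n) log N(x)`.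
As `∑_w mult w * d_w = 0` (`mixedEmbedding.norm_apply`/`norm_eq_prod`: `N x = ∏_w |x|_w ^ mult w`,
`∑_w mult w = n`: `InfinitePlace.sum_mult_eq`), also `|mult w₀ * d_{w₀}| ≤ card * b`.  Since
`mult w ≥ 1`: `|d_w| ≤ b' := card * b` for all `w`; hence `|x|_w ≥ exp (-2 b') |x|_{w'}` for all
`w, w'`, and `‖x‖ = sup_w |x|_w` (`mixedEmbedding.norm_eq_sup'_normAtPlace`).  `c = exp (-2 b')`.
-/

set_option autoImplicit false

namespace Fermat.Agent.S14

open scoped Classical

open NumberField NumberField.mixedEmbedding NumberField.Units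
  NumberField.Units.dirichletUnitTheorem

variable (K : Type*) [Field K] [NumberField K]

/-- the deviation of `log |x|_w` from the mean. -/
noncomputable def coneD (x : mixedSpace K) (w : InfinitePlace K) : ℝ :=
  Real.log (normAtPlace w x) - Real.log (mixedEmbedding.norm x) * (Module.finrank ℚ K : ℝ)⁻¹

theorem cone_sum_eq_zero (x : mixedSpace K) (hx : mixedEmbedding.norm x ≠ 0) :
    ∑ w : InfinitePlace K, (InfinitePlace.mult w : ℝ) * coneD K x w = 0 := by
  have hn : (Module.finrank ℚ K : ℝ) ≠ 0 := Nat.cast_ne_zero.2 Module.finrank_pos.ne'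
  have h1 : Real.log (mixedEmbedding.norm x) =
      ∑ w : InfinitePlace K, (InfinitePlace.mult w : ℝ) * Real.log (normAtPlace w x) := by
    rw [mixedEmbedding.norm_apply, Real.log_prod]
    · exact Finset.sum_congr rfl fun w _ => Real.log_pow _ _
    · intro w _
      exact pow_ne_zero _ (mixedEmbedding.norm_ne_zero_iff.1 hx w)
  simp only [coneD, mul_sub]
  rw [Finset.sum_sub_distrib, ← h1, ← Finset.sum_mul, ← Nat.cast_sum, InfinitePlace.sum_mult_eq]
  field_simp
  ring

theorem cone_norm_logMap_le (x : mixedSpace K) (hρ : rho K x ≠ 0) :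
    ‖logMap x‖ ≤ ∑ i, ‖((basisUnitLattice K).ofZLatticeBasis ℝ (unitLattice K)) i‖ := by
  have h1 : ∀ i, |logCoord K x i| < 1 := fun i =>
    abs_lt_one_of_tent_ne_zero (Finset.prod_ne_zero_iff.1 hρ i (Finset.mem_univ i))
  have h2 : logMap x = ∑ i, logCoord K x i •
      ((basisUnitLattice K).ofZLatticeBasis ℝ (unitLattice K)) i :=
    (((basisUnitLattice K).ofZLatticeBasis ℝ (unitLattice K)).sum_repr (logMap x)).symm
  rw [h2]
  refine (norm_sum_le _ _).trans (Finset.sum_le_sum fun i _ => ?_)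
  rw [_root_.norm_smul, Real.norm_eq_abs]
  exact mul_le_of_le_one_left (norm_nonneg _) (h1 i).le

theorem exists_cone :
    ∃ c : ℝ, 0 < c ∧ c ≤ 1 ∧ ∀ x : mixedSpace K, mixedEmbedding.norm x ≠ 0 → rho K x ≠ 0 →
      ∀ w : InfinitePlace K, c * ‖x‖ ≤ normAtPlace w x := by
  set b : ℝ := ∑ i, ‖((basisUnitLattice K).ofZLatticeBasis ℝ (unitLattice K)) i‖ with hb
  have hb0 : 0 ≤ b := Finset.sum_nonneg fun i _ => norm_nonneg _
  set N : ℝ := (Fintype.card (InfinitePlace K) : ℝ) with hN
  have hN1 : 1 ≤ N := by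
    rw [hN]
    exact_mod_cast Fintype.card_pos
  refine ⟨Real.exp (-(2 * (N * b))), Real.exp_pos _, ?_, ?_⟩
  · rw [Real.exp_le_one_iff]
    have : 0 ≤ N * b := mul_nonneg (by linarith) hb0
    linarith
  intro x hx hρ w
  have hpos : ∀ w, 0 < normAtPlace w x := fun w =>
    lt_of_le_of_ne (normAtPlace_nonneg w x) (mixedEmbedding.norm_ne_zero_iff.1 hx w).symm
  have hlog := cone_norm_logMap_le K x hρ
  -- bound away from w₀
  have h1 : ∀ w : {w : InfinitePlace K // w ≠ w₀},
      |(InfinitePlace.mult w.1 : ℝ) * coneD K x w.1| ≤ b := by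
    intro w
    have h2 : ‖logMap x w‖ ≤ ‖logMap x‖ := norm_le_pi_norm _ w
    rw [Real.norm_eq_abs, logMap_apply] at h2
    exact h2.trans hlog
  have h3 : |(InfinitePlace.mult (w₀ : InfinitePlace K) : ℝ) * coneD K x w₀| ≤ N * b := by
    have h4 := cone_sum_eq_zero K x hx
    rw [Fintype.sum_eq_add_sum_subtype_ne _ (w₀ : InfinitePlace K)] at h4
    have h5 : (InfinitePlace.mult (w₀ : InfinitePlace K) : ℝ) * coneD K x w₀ =
        -∑ w : {w : InfinitePlace K // w ≠ w₀}, (InfinitePlace.mult w.1 : ℝ) * coneD K x w.1 := by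
      linarith
    rw [h5, abs_neg]
    refine (Finset.abs_sum_le_sum_abs _ _).trans ?_
    refine (Finset.sum_le_sum fun w _ => h1 w).trans ?_
    rw [Finset.sum_const, nsmul_eq_mul]
    refine mul_le_mul_of_nonneg_right ?_ hb0
    rw [hN]
    exact_mod_cast Fintype.card_subtype_le _
  have h6 : ∀ w : InfinitePlace K, |coneD K x w| ≤ N * b := by
    intro w
    have hm : (1 : ℝ) ≤ (InfinitePlace.mult w : ℝ) := by
      exact_mod_cast Nat.one_le_iff_ne_zero.2 InfinitePlace.mult_ne_zero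
    have h7 : |(InfinitePlace.mult w : ℝ) * coneD K x w| ≤ N * b := by
      by_cases hw : w = w₀
      · rw [hw]; exact h3
      · refine (h1 ⟨w, hw⟩).trans ?_
        exact le_mul_of_one_le_left hb0 hN1
    rw [abs_mul, abs_of_pos (by linarith)] at h7
    exact (le_mul_of_one_le_left (abs_nonneg _) hm).trans h7
  obtain ⟨w', -, hw'⟩ := Finset.exists_mem_eq_sup' Finset.univ_nonempty
    (fun w : InfinitePlace K => normAtPlace w x)
  rw [norm_eq_sup'_normAtPlace, hw']
  have h8 : Real.log (normAtPlace w' x) - Real.log (normAtPlace w x) ≤ 2 * (N * b) := by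
    have e : Real.log (normAtPlace w' x) - Real.log (normAtPlace w x) =
        coneD K x w' - coneD K x w := by
      simp only [coneD]; ring
    rw [e]
    have := abs_le.1 (h6 w)
    have := abs_le.1 (h6 w')
    linarith
  rw [← Real.exp_log (hpos w'), ← Real.exp_log (hpos w), ← Real.exp_add, Real.exp_le_exp]
  linarith

end Fermat.Agent.S14
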