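import Mathlib

/-!
# S14, analytic part: definitions
-/

set_option autoImplicit false

namespace Fermat.Agent.S14

open NumberField IsDedekindDomain

variable (K : Type*) [Field K] [NumberField K]

/-- `∑_{𝔞 ≠ 0} N𝔞^{-s}` as a sum over nonzero ideals. -/
noncomputable def idealZeta (s : ℝ) : ℝ :=
  ∑' I : nonZeroDivisors (Ideal (𝓞 K)), (Ideal.absNorm (I : Ideal (𝓞 K)) : ℝ) ^ (-s)

/-- the partial zeta function of an ideal class. -/
noncomputable def partialZeta (C : ClassGroup (𝓞 K)) (s : ℝ) : ℝ :=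
  ∑' I : {I : nonZeroDivisors (Ideal (𝓞 K)) // ClassGroup.mk0 I = C},
    (Ideal.absNorm ((I : nonZeroDivisors (Ideal (𝓞 K))) : Ideal (𝓞 K)) : ℝ) ^ (-s)

variable {K}

/-- `∑_{𝔮 ∈ S} N𝔮^{-s}`. -/
noncomputable def primeSum (S : Set (HeightOneSpectrum (𝓞 K))) (s : ℝ) : ℝ :=
  ∑' v : S, (Ideal.absNorm (v : HeightOneSpectrum (𝓞 K)).asIdeal : ℝ) ^ (-s)

/-- the class of a prime. -/
noncomputable def primeClass (v : HeightOneSpectrum (𝓞 K)) : ClassGroup (𝓞 K) :=
  ClassGroup.mk0 ⟨v.asIdeal, mem_nonZeroDivisors_of_ne_zero v.ne_bot⟩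

/-! ### Euler products -/

/-- a prime as a nonzero ideal. `primeClass v = ClassGroup.mk0 (primeIdl v)` by `rfl`. -/
noncomputable def primeIdl (v : HeightOneSpectrum (𝓞 K)) : nonZeroDivisors (Ideal (𝓞 K)) :=
  ⟨v.asIdeal, mem_nonZeroDivisors_of_ne_zero v.ne_bot⟩

/-- `I` is divisible by no prime of `T`. -/
def CoprimeTo (T : Finset (HeightOneSpectrum (𝓞 K))) (I : nonZeroDivisors (Ideal (𝓞 K))) : Prop :=
  ∀ w ∈ T, ¬ (I : Ideal (𝓞 K)) ≤ w.asIdeal

/-- `∑ f(I) N I^{-s}` over the nonzero ideals `I` prime to `T`. -/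
noncomputable def lsum (f : nonZeroDivisors (Ideal (𝓞 K)) →* ℂ)
    (T : Finset (HeightOneSpectrum (𝓞 K))) (s : ℝ) : ℂ :=
  ∑' I : {I : nonZeroDivisors (Ideal (𝓞 K)) // CoprimeTo T I},
    f (I : nonZeroDivisors (Ideal (𝓞 K))) *
      (((Ideal.absNorm ((I : nonZeroDivisors (Ideal (𝓞 K))) : Ideal (𝓞 K)) : ℝ) ^ (-s) : ℝ) : ℂ)

/-- the character `I ↦ e(k φ([I]) / p)` of the monoid of nonzero ideals. -/
noncomputable def classChar {p : ℕ} [Fact p.Prime]
    (φ : ClassGroup (𝓞 K) →* Multiplicative (ZMod p)) (k : ZMod p) :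
    nonZeroDivisors (Ideal (𝓞 K)) →* ℂ where
  toFun I := ZMod.stdAddChar (k * Multiplicative.toAdd (φ (ClassGroup.mk0 I)))
  map_one' := by simp
  map_mul' I J := by simp [mul_add, AddChar.map_add_eq_mul]

/-! ### The weight function on the mixed space -/

open NumberField.mixedEmbedding NumberField.Units NumberField.Units.dirichletUnitTheorem

/-- the tent function `max 0 (1 - |t|)`; `∑_{m ∈ ℤ} tent (c + m) = 1`. -/
noncomputable def tent (t : ℝ) : ℝ := max 0 (1 - |t|)

variable (K)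

open scoped Classical in
/-- coordinates of `logMap x` in the real basis of `logSpace K` given by a system of
fundamental units. -/
noncomputable def logCoord (x : mixedSpace K) (i : Fin (rank K)) : ℝ :=
  ((basisUnitLattice K).ofZLatticeBasis ℝ (unitLattice K)).repr (logMap x) i

/-- the partition of unity for the action of the units. -/
noncomputable def rho (x : mixedSpace K) : ℝ := ∏ i, tent (logCoord K x i)

/-- `ρ(x) |N x|^{-s}` (it is `0` if `N x = 0` and `s ≠ 0`). -/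
noncomputable def wt (s : ℝ) (x : mixedSpace K) : ℝ := rho K x * (mixedEmbedding.norm x) ^ (-s)

/-- the weight of an algebraic integer. -/
noncomputable def wtO (s : ℝ) (x : 𝓞 K) : ℝ := wt K s (mixedEmbedding K (x : K))

/-- `∑_{x ∈ J} ρ(x) |N x|^{-s}`. -/
noncomputable def latSum (J : Ideal (𝓞 K)) (s : ℝ) : ℝ := ∑' x : J, wtO K s (x : 𝓞 K)

end Fermat.Agent.S14
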