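import Fermat.Agent.S14.Density.EulerTail

/-!
# S14-AN, task Z2b: finite Euler product identity and its real corollaries

Sketch.  `lsum_mul_prod`: induction on `T` (`Finset.induction_on`) with `lsum_insert`.
`lsum_empty`: `CoprimeTo ∅ I` is always true (`Equiv.subtypeUnivEquiv`).
Real corollaries: for `f = 1`, `lsum 1 T s` is the complex cast of the real sum
`∑_{I prime to T} N I ^ (-s)` (`Complex.ofReal_tsum`), which is `≥ 1` (term `I = 1`), and is `< 2`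
for `T ⊇ T₀` by `exists_finset_lsum_sub_one_lt` with `ε = 1`.
-/

set_option autoImplicit false

namespace Fermat.Agent.S14

open NumberField IsDedekindDomain Filter Topology

variable {K : Type*} [Field K] [NumberField K]

theorem zetaCop_empty : zetaCop (∅ : Finset (HeightOneSpectrum (𝓞 K))) = Set.univ := by
  ext I
  simp [zetaCop, CoprimeTo]

theorem lsum_empty (f : nonZeroDivisors (Ideal (𝓞 K)) →* ℂ) (s : ℝ) :
    lsum f ∅ s = ∑' I : nonZeroDivisors (Ideal (𝓞 K)),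
      f I * (((Ideal.absNorm (I : Ideal (𝓞 K)) : ℝ) ^ (-s) : ℝ) : ℂ) := by
  rw [lsum_eq_tsum_zetaTerm, tsum_congr_set_coe _ zetaCop_empty, tsum_univ]
  rfl

/-- `lsum 1 T s` is the cast of a real sum. -/
theorem lsum_one_eq_ofReal (T : Finset (HeightOneSpectrum (𝓞 K))) (s : ℝ) :
    lsum (1 : nonZeroDivisors (Ideal (𝓞 K)) →* ℂ) T s =
      ((∑' I : zetaCop T,
        (Ideal.absNorm ((I : nonZeroDivisors (Ideal (𝓞 K))) : Ideal (𝓞 K)) : ℝ) ^ (-s) : ℝ) : ℂ) := by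
  rw [lsum_eq_tsum_zetaTerm, Complex.ofReal_tsum]
  refine tsum_congr fun I => ?_
  simp [zetaTerm]

theorem lsum_one_empty (s : ℝ) :
    lsum (1 : nonZeroDivisors (Ideal (𝓞 K)) →* ℂ) ∅ s = ((idealZeta K s : ℝ) : ℂ) := by
  rw [lsum_one_eq_ofReal, tsum_congr_set_coe (fun I : nonZeroDivisors (Ideal (𝓞 K)) =>
    (Ideal.absNorm (I : Ideal (𝓞 K)) : ℝ) ^ (-s)) zetaCop_empty,
    tsum_univ (fun I : nonZeroDivisors (Ideal (𝓞 K)) =>
    (Ideal.absNorm (I : Ideal (𝓞 K)) : ℝ) ^ (-s))]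
  rfl

theorem lsum_mul_prod (f : nonZeroDivisors (Ideal (𝓞 K)) →* ℂ) (hf : ∀ I, ‖f I‖ ≤ 1) {s : ℝ}
    (hs : 1 < s) (T : Finset (HeightOneSpectrum (𝓞 K))) :
    lsum f ∅ s * ∏ v ∈ T, (1 - f (primeIdl v) * (((Ideal.absNorm v.asIdeal : ℝ) ^ (-s) : ℝ) : ℂ)) =
      lsum f T s := by
  classical
  induction T using Finset.induction_on with
  | empty => rw [Finset.prod_empty, mul_one]
  | insert v T hv ih =>
    rw [Finset.prod_insert hv, ← lsum_insert f hf hs T v hv, ← ih]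
    ring

variable (K)

/-- the real form of the finite Euler product. -/
theorem idealZeta_mul_prod_eq {s : ℝ} (hs : 1 < s) (T : Finset (HeightOneSpectrum (𝓞 K))) :
    idealZeta K s * ∏ v ∈ T, (1 - (Ideal.absNorm v.asIdeal : ℝ) ^ (-s)) =
      ∑' I : zetaCop T,
        (Ideal.absNorm ((I : nonZeroDivisors (Ideal (𝓞 K))) : Ideal (𝓞 K)) : ℝ) ^ (-s) := by
  have h := lsum_mul_prod (1 : nonZeroDivisors (Ideal (𝓞 K)) →* ℂ) (fun I => by simp) hs T
  rw [lsum_one_empty, lsum_one_eq_ofReal] at h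
  simp only [MonoidHom.one_apply, one_mul] at h
  exact_mod_cast h

theorem one_le_idealZeta_mul_prod {s : ℝ} (hs : 1 < s) (T : Finset (HeightOneSpectrum (𝓞 K))) :
    1 ≤ idealZeta K s * ∏ v ∈ T, (1 - (Ideal.absNorm v.asIdeal : ℝ) ^ (-s)) := by
  rw [idealZeta_mul_prod_eq K hs T]
  have h := ((summable_idealNorm_rpow K hs).subtype (zetaCop T)).le_tsum ⟨1, zeta_one_mem_cop T⟩
    (fun j _ => Real.rpow_nonneg (Nat.cast_nonneg _) _)
  have h1 : (Ideal.absNorm (((1 : nonZeroDivisors (Ideal (𝓞 K))) : Ideal (𝓞 K))) : ℝ) ^ (-s) = 1 := by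
    simp
  calc (1 : ℝ) = _ := h1.symm
    _ ≤ _ := h

theorem exists_idealZeta_mul_prod_le_two {s : ℝ} (hs : 1 < s) :
    ∃ T₀ : Finset (HeightOneSpectrum (𝓞 K)), ∀ T : Finset (HeightOneSpectrum (𝓞 K)), T₀ ⊆ T →
      idealZeta K s * ∏ v ∈ T, (1 - (Ideal.absNorm v.asIdeal : ℝ) ^ (-s)) ≤ 2 := by
  obtain ⟨T₀, hT₀⟩ := exists_finset_lsum_sub_one_lt (K := K) hs one_pos
  refine ⟨T₀, fun T hT => ?_⟩
  have h := hT₀ T hT (1 : nonZeroDivisors (Ideal (𝓞 K)) →* ℂ) (fun I => by simp)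
  rw [lsum_one_eq_ofReal, ← idealZeta_mul_prod_eq K hs T, ← Complex.ofReal_one,
    ← Complex.ofReal_sub, Complex.norm_real, Real.norm_eq_abs] at h
  have := (abs_lt.mp h).2
  linarith

end Fermat.Agent.S14
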