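import Fermat.Agent.S14.Density.ZetaSum

/-!
# S14-AN, task Z2a: peeling one prime off an Euler product

Sketch.  Split `{I prime to T}` into `{v ∤ I}` (= prime to `insert v T`) and `{v ∣ I}`; the second
part is in bijection with `{J prime to T}` by `J ↦ v * J` (for `w ∈ T`, `w ≠ v`:
`v * J ≤ w ↔ J ≤ w`, as `w` is prime and `v ≤ w → v = w` by maximality).  `f` and `absNorm` are
multiplicative.  So `lsum f T s = lsum f (insert v T) s + f v * N v ^ (-s) * lsum f T s`.
Summability of everything: `summable_idealNorm_rpow` + `‖f I‖ ≤ 1` (`Summable.of_norm_bounded`,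
`Summable.subtype`); use `Summable.tsum_subtype_add_tsum_subtype_compl` or `tsum` over
`Equiv.Set.sumCompl`-like equivalences.
-/

set_option autoImplicit false

namespace Fermat.Agent.S14

open NumberField IsDedekindDomain Filter Topology

variable {K : Type*} [Field K] [NumberField K]

/-- nonzero ideals prime to the finite set `T`. -/
def zetaCop (T : Finset (HeightOneSpectrum (𝓞 K))) : Set (nonZeroDivisors (Ideal (𝓞 K))) :=
  {I | CoprimeTo T I}

open Classical in
theorem zetaCop_eq_union (T : Finset (HeightOneSpectrum (𝓞 K))) (v : HeightOneSpectrum (𝓞 K))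
    (hv : v ∉ T) :
    zetaCop T = (fun I => primeIdl v * I) '' zetaCop T ∪ zetaCop (insert v T) := by
  ext I
  constructor
  · intro hI
    by_cases hIv : (I : Ideal (𝓞 K)) ≤ v.asIdeal
    · left
      obtain ⟨J, hJ⟩ := Ideal.dvd_iff_le.mpr hIv
      have hJ0 : J ≠ 0 := by
        rintro rfl
        have := nonZeroDivisors.coe_ne_zero I
        rw [hJ, mul_zero] at this
        exact this rfl
      refine ⟨⟨J, mem_nonZeroDivisors_of_ne_zero hJ0⟩, ?_, ?_⟩
      · intro w hw hJw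
        apply hI w hw
        rw [hJ]
        exact (Ideal.mul_le_right (I := v.asIdeal) (J := J)).trans hJw
      · apply Subtype.ext
        exact hJ.symm
    · right
      intro w hw
      rcases Finset.mem_insert.mp hw with rfl | hw
      · exact hIv
      · exact hI w hw
  · rintro (⟨J, hJ, rfl⟩ | hI)
    · intro w hw hle
      have hle' : v.asIdeal * (J : Ideal (𝓞 K)) ≤ w.asIdeal := hle
      rcases (Ideal.IsPrime.mul_le w.isPrime).mp hle' with h | h
      · have : v.asIdeal = w.asIdeal := v.isMaximal.eq_of_le w.isPrime.ne_top h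
        exact hv ((HeightOneSpectrum.ext this) ▸ hw)
      · exact hJ w hw h
    · intro w hw
      exact hI w (Finset.mem_insert_of_mem hw)

open Classical in
theorem zetaCop_disjoint (T : Finset (HeightOneSpectrum (𝓞 K))) (v : HeightOneSpectrum (𝓞 K)) :
    Disjoint ((fun I => primeIdl v * I) '' zetaCop T) (zetaCop (insert v T)) := by
  rw [Set.disjoint_left]
  rintro _ ⟨J, -, rfl⟩ h
  apply h v (Finset.mem_insert_self v T)
  show v.asIdeal * (J : Ideal (𝓞 K)) ≤ v.asIdeal
  exact Ideal.mul_le_left (I := v.asIdeal) (J := (J : Ideal (𝓞 K)))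

/-- the general term. -/
noncomputable def zetaTerm (f : nonZeroDivisors (Ideal (𝓞 K)) →* ℂ) (s : ℝ)
    (I : nonZeroDivisors (Ideal (𝓞 K))) : ℂ :=
  f I * (((Ideal.absNorm (I : Ideal (𝓞 K)) : ℝ) ^ (-s) : ℝ) : ℂ)

theorem zetaTerm_mul (f : nonZeroDivisors (Ideal (𝓞 K)) →* ℂ) (s : ℝ)
    (I J : nonZeroDivisors (Ideal (𝓞 K))) :
    zetaTerm f s (I * J) = zetaTerm f s I * zetaTerm f s J := by
  unfold zetaTerm
  rw [Submonoid.coe_mul, map_mul, map_mul, Nat.cast_mul,
    Real.mul_rpow (Nat.cast_nonneg _) (Nat.cast_nonneg _)]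
  push_cast
  ring

theorem norm_zetaTerm_le (f : nonZeroDivisors (Ideal (𝓞 K)) →* ℂ) (hf : ∀ I, ‖f I‖ ≤ 1) (s : ℝ)
    (I : nonZeroDivisors (Ideal (𝓞 K))) :
    ‖zetaTerm f s I‖ ≤ (Ideal.absNorm (I : Ideal (𝓞 K)) : ℝ) ^ (-s) := by
  unfold zetaTerm
  rw [norm_mul, Complex.norm_real, Real.norm_of_nonneg (Real.rpow_nonneg (Nat.cast_nonneg _) _)]
  exact mul_le_of_le_one_left (Real.rpow_nonneg (Nat.cast_nonneg _) _) (hf _)

theorem zetaTerm_summable (f : nonZeroDivisors (Ideal (𝓞 K)) →* ℂ) (hf : ∀ I, ‖f I‖ ≤ 1) {s : ℝ}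
    (hs : 1 < s) : Summable (zetaTerm f s) :=
  Summable.of_norm_bounded (summable_idealNorm_rpow K hs) (norm_zetaTerm_le f hf s)

theorem lsum_eq_tsum_zetaTerm (f : nonZeroDivisors (Ideal (𝓞 K)) →* ℂ)
    (T : Finset (HeightOneSpectrum (𝓞 K))) (s : ℝ) :
    lsum f T s = ∑' I : zetaCop T, zetaTerm f s I := rfl

/-- the summand of `lsum` is summable on the whole monoid of ideals. -/
theorem summable_lsum_term (f : nonZeroDivisors (Ideal (𝓞 K)) →* ℂ) (hf : ∀ I, ‖f I‖ ≤ 1) {s : ℝ}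
    (hs : 1 < s) :
    Summable fun I : nonZeroDivisors (Ideal (𝓞 K)) =>
      f I * (((Ideal.absNorm (I : Ideal (𝓞 K)) : ℝ) ^ (-s) : ℝ) : ℂ) :=
  zetaTerm_summable f hf hs

open Classical in
theorem zetaTerm_tsum_insert (f : nonZeroDivisors (Ideal (𝓞 K)) →* ℂ) (hf : ∀ I, ‖f I‖ ≤ 1)
    {s : ℝ} (hs : 1 < s)
    (T : Finset (HeightOneSpectrum (𝓞 K))) (v : HeightOneSpectrum (𝓞 K)) (hv : v ∉ T) :
    (∑' I : zetaCop T, zetaTerm f s I) * (1 - zetaTerm f s (primeIdl v)) =
      ∑' I : zetaCop (insert v T), zetaTerm f s I := by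
  have hsum := zetaTerm_summable f hf hs
  have hinj : Set.InjOn (fun I => primeIdl v * I) (zetaCop T) := by
    intro a _ b _ hab
    apply Subtype.ext
    have h1 : v.asIdeal * (a : Ideal (𝓞 K)) = v.asIdeal * (b : Ideal (𝓞 K)) :=
      congrArg Subtype.val hab
    exact mul_left_cancel₀ v.ne_bot h1
  have h1 : ∑' I : zetaCop T, zetaTerm f s I =
      ∑' I : ((fun I => primeIdl v * I) '' zetaCop T), zetaTerm f s I +
        ∑' I : zetaCop (insert v T), zetaTerm f s I := by
    rw [← Summable.tsum_union_disjoint (zetaCop_disjoint T v) (hsum.subtype _) (hsum.subtype _)]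
    exact tsum_congr_set_coe _ (zetaCop_eq_union T v hv)
  have h2 : ∑' I : ((fun I => primeIdl v * I) '' zetaCop T), zetaTerm f s I =
      zetaTerm f s (primeIdl v) * ∑' I : zetaCop T, zetaTerm f s I := by
    rw [tsum_image _ hinj, ← tsum_mul_left]
    exact tsum_congr fun I => zetaTerm_mul f s _ _
  rw [h2] at h1
  linear_combination h1

open Classical in
theorem lsum_insert (f : nonZeroDivisors (Ideal (𝓞 K)) →* ℂ) (hf : ∀ I, ‖f I‖ ≤ 1) {s : ℝ}
    (hs : 1 < s) (T : Finset (HeightOneSpectrum (𝓞 K))) (v : HeightOneSpectrum (𝓞 K))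
    (hv : v ∉ T) :
    lsum f T s * (1 - f (primeIdl v) * (((Ideal.absNorm v.asIdeal : ℝ) ^ (-s) : ℝ) : ℂ)) =
      lsum f (insert v T) s :=
  zetaTerm_tsum_insert f hf hs T v hv

end Fermat.Agent.S14
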