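import Fermat.Agent.S14.Density.EulerStep

/-!
# S14-AN, task Z2c: the tail of an Euler product tends to `1`

Sketch.  `g I = N I ^ (-s)` is summable on the nonzero ideals, so there is a finite set `F` of ideals
with `∑_{I ∉ F} g I < ε` (`Summable.tsum_vanishing` / `tendsto_tsum_compl_atTop_zero`).  Let `T₀`
contain, for each `I ∈ F`, `I ≠ ⊤`, one prime `w ⊇ I` (`Ideal.exists_le_maximal`; a maximal ideal
containing a nonzero ideal gives a `HeightOneSpectrum`).  If `T ⊇ T₀` and `I ≠ ⊤` is prime to `T`,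
then `I ∉ F`.  The term `I = ⊤ = 1` of `lsum f T s` equals `1`.
-/

set_option autoImplicit false

namespace Fermat.Agent.S14

open NumberField IsDedekindDomain Filter Topology

variable {K : Type*} [Field K] [NumberField K]

theorem zeta_exists_prime_ge (I : nonZeroDivisors (Ideal (𝓞 K))) (hI : (I : Ideal (𝓞 K)) ≠ ⊤) :
    ∃ w : HeightOneSpectrum (𝓞 K), (I : Ideal (𝓞 K)) ≤ w.asIdeal := by
  obtain ⟨M, hM, hIM⟩ := Ideal.exists_le_maximal _ hI
  refine ⟨⟨M, hM.isPrime, ?_⟩, hIM⟩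
  rintro rfl
  exact nonZeroDivisors.coe_ne_zero I (le_bot_iff.mp hIM)

/-- nonzero ideals `≠ 1` prime to the finite set `T`. -/
def zetaCopNe (T : Finset (HeightOneSpectrum (𝓞 K))) : Set (nonZeroDivisors (Ideal (𝓞 K))) :=
  {I | CoprimeTo T I ∧ (I : Ideal (𝓞 K)) ≠ ⊤}

/-- the tail tends to `0`: for every `ε > 0` there is a finite set `T₀` of primes such that the sum
of `N I ^ (-s)` over the ideals `I ≠ 1` prime to `T ⊇ T₀` is `< ε`. -/
theorem exists_finset_tail_lt {s : ℝ} (hs : 1 < s) {ε : ℝ} (hε : 0 < ε) :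
    ∃ T₀ : Finset (HeightOneSpectrum (𝓞 K)), ∀ T : Finset (HeightOneSpectrum (𝓞 K)), T₀ ⊆ T →
      ∑' I : zetaCopNe T,
        (Ideal.absNorm ((I : nonZeroDivisors (Ideal (𝓞 K))) : Ideal (𝓞 K)) : ℝ) ^ (-s) < ε := by
  classical
  obtain ⟨F, hF⟩ := (summable_idealNorm_rpow K hs).tsum_vanishing (Iio_mem_nhds hε)
  let c : nonZeroDivisors (Ideal (𝓞 K)) → Finset (HeightOneSpectrum (𝓞 K)) := fun I =>
    if h : (I : Ideal (𝓞 K)) ≠ ⊤ then {(zeta_exists_prime_ge I h).choose} else ∅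
  refine ⟨F.biUnion c, fun T hT => ?_⟩
  refine hF (zetaCopNe T) ?_
  rw [Set.disjoint_left]
  rintro I ⟨h1, h2⟩ hIF
  refine h1 (zeta_exists_prime_ge I h2).choose (hT ?_) (zeta_exists_prime_ge I h2).choose_spec
  rw [Finset.mem_biUnion]
  refine ⟨I, hIF, ?_⟩
  simp only [c, dif_pos h2, Finset.mem_singleton]

theorem zeta_one_mem_cop (T : Finset (HeightOneSpectrum (𝓞 K))) :
    (1 : nonZeroDivisors (Ideal (𝓞 K))) ∈ zetaCop T := by
  intro w _ h
  apply w.isPrime.ne_top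
  rw [eq_top_iff]
  simpa using h

theorem zetaTerm_one_right (f : nonZeroDivisors (Ideal (𝓞 K)) →* ℂ) (s : ℝ) :
    zetaTerm f s 1 = 1 := by
  simp [zetaTerm]

theorem zetaCop_eq_one_union (T : Finset (HeightOneSpectrum (𝓞 K))) :
    zetaCop T = {1} ∪ zetaCopNe T := by
  ext I
  constructor
  · intro hI
    by_cases h : (I : Ideal (𝓞 K)) = ⊤
    · left
      apply Subtype.ext
      simpa using h
    · right
      exact ⟨hI, h⟩
  · rintro (rfl | h)
    · exact zeta_one_mem_cop T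
    · exact h.1

theorem zetaCopNe_disjoint (T : Finset (HeightOneSpectrum (𝓞 K))) :
    Disjoint ({1} : Set (nonZeroDivisors (Ideal (𝓞 K)))) (zetaCopNe T) := by
  rw [Set.disjoint_left]
  rintro _ rfl h
  exact h.2 (by simp)

theorem lsum_eq_one_add (f : nonZeroDivisors (Ideal (𝓞 K)) →* ℂ) (hf : ∀ I, ‖f I‖ ≤ 1) {s : ℝ}
    (hs : 1 < s) (T : Finset (HeightOneSpectrum (𝓞 K))) :
    lsum f T s = 1 + ∑' I : zetaCopNe T, zetaTerm f s I := by
  have hsum := zetaTerm_summable f hf hs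
  rw [lsum_eq_tsum_zetaTerm, tsum_congr_set_coe _ (zetaCop_eq_one_union T),
    Summable.tsum_union_disjoint (zetaCopNe_disjoint T) (hsum.subtype _) (hsum.subtype _),
    tsum_singleton, zetaTerm_one_right]

theorem exists_finset_lsum_sub_one_lt {s : ℝ} (hs : 1 < s) {ε : ℝ} (hε : 0 < ε) :
    ∃ T₀ : Finset (HeightOneSpectrum (𝓞 K)), ∀ T : Finset (HeightOneSpectrum (𝓞 K)), T₀ ⊆ T →
      ∀ f : nonZeroDivisors (Ideal (𝓞 K)) →* ℂ, (∀ I, ‖f I‖ ≤ 1) → ‖lsum f T s - 1‖ < ε := by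
  obtain ⟨T₀, hT₀⟩ := exists_finset_tail_lt (K := K) hs hε
  refine ⟨T₀, fun T hT f hf => ?_⟩
  rw [lsum_eq_one_add f hf hs T, add_sub_cancel_left]
  refine lt_of_le_of_lt ?_ (hT₀ T hT)
  exact tsum_of_norm_bounded (((summable_idealNorm_rpow K hs).subtype (zetaCopNe T)).hasSum)
    (fun I => norm_zetaTerm_le f hf s I)

end Fermat.Agent.S14
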