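import Fermat.Agent.S14.Density.PrimeSumBasic

/-!
# S14-AN, task Z4a: the primes of degree `≥ 2` contribute a bounded amount

Sketch.  Let `n = [K : ℚ]`.  A prime `v` lies over a rational prime `q`
(`q = ` the characteristic of the residue field; `v.asIdeal.under ℤ = span {q}`), `N v = q ^ f`
(`Ideal.absNorm_eq_pow_inertiaDeg`), and `N v` not prime means `f ≥ 2`, so
`N v ^ (-s) ≤ q ^ (-2)` for `s ≥ 1`.  At most `n` primes lie over `q`
(`Ideal.card_primesOverFinset_le_finrank`, or `Ideal.sum_ramification_inertia`).  Hence every finite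
partial sum is `≤ n * ∑_q q^(-2) ≤ n * ∑' m : ℕ, 1/m^2`; conclude by `primeSum_le_of_forall_sum_le`.
-/

set_option autoImplicit false

namespace Fermat.Agent.S14

open NumberField IsDedekindDomain Filter Topology

variable (K : Type*) [Field K] [NumberField K]

theorem zeta_card_primes_le (p : ℕ) (hp : p.Prime) (F : Finset (HeightOneSpectrum (𝓞 K)))
    (hF : ∀ v ∈ F, (p : 𝓞 K) ∈ v.asIdeal) : F.card ≤ Module.finrank ℚ K := by
  classical
  have hp' : Prime (p : ℤ) := Nat.prime_iff_prime_int.mp hp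
  have hp0 : Ideal.span {(p : ℤ)} ≠ ⊥ := by
    simpa using hp.ne_zero
  have hmax : (Ideal.span {(p : ℤ)}).IsMaximal :=
    ((Ideal.span_singleton_prime hp'.ne_zero).mpr hp').isMaximal hp0
  refine le_trans ?_ (Ideal.card_primesOverFinset_le_finrank (𝓞 K) ℚ K hp0)
  refine Finset.card_le_card_of_injOn (fun v => v.asIdeal) ?_ ?_
  · intro v hv
    rw [Finset.mem_coe, IsDedekindDomain.mem_primesOverFinset_iff hp0]
    refine ⟨v.isPrime, ⟨?_⟩⟩
    refine hmax.eq_of_le ?_ ?_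
    · have := v.isPrime
      exact (Ideal.IsPrime.under ℤ v.asIdeal).ne_top
    · rw [Ideal.span_singleton_le_iff_mem, Ideal.mem_comap]
      simpa using hF v hv
  · intro a _ b _ hab
    exact HeightOneSpectrum.ext hab

theorem zeta_exists_prime_pow (v : HeightOneSpectrum (𝓞 K)) :
    ∃ p n : ℕ, 0 < n ∧ (p : 𝓞 K) ∈ v.asIdeal ∧ p.Prime ∧ Ideal.absNorm v.asIdeal = p ^ n := by
  have := v.isMaximal
  exact Ideal.exists_prime_and_absNorm_eq_pow v.asIdeal

/-- the rational prime below `v`. -/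
noncomputable def zetaBelow (v : HeightOneSpectrum (𝓞 K)) : ℕ := (zeta_exists_prime_pow K v).choose

theorem zetaBelow_spec (v : HeightOneSpectrum (𝓞 K)) :
    ∃ n : ℕ, 0 < n ∧ (zetaBelow K v : 𝓞 K) ∈ v.asIdeal ∧ (zetaBelow K v).Prime ∧
      Ideal.absNorm v.asIdeal = zetaBelow K v ^ n := (zeta_exists_prime_pow K v).choose_spec

theorem zeta_rpow_le_of_not_prime {s : ℝ} (hs : 1 ≤ s) (v : HeightOneSpectrum (𝓞 K))
    (hv : ¬ (Ideal.absNorm v.asIdeal).Prime) :
    (Ideal.absNorm v.asIdeal : ℝ) ^ (-s) ≤ (zetaBelow K v : ℝ) ^ (-2 : ℝ) := by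
  obtain ⟨n, hn, -, hp, hN⟩ := zetaBelow_spec K v
  have hn2 : 2 ≤ n := by
    rcases Nat.lt_or_ge n 2 with h | h
    · exfalso
      have : n = 1 := by omega
      rw [this, pow_one] at hN
      exact hv (hN ▸ hp)
    · exact h
  have hp1 : (1 : ℝ) ≤ (zetaBelow K v : ℝ) := by exact_mod_cast hp.one_lt.le
  rw [hN]
  push_cast
  rw [← Real.rpow_natCast, ← Real.rpow_mul (by linarith)]
  apply Real.rpow_le_rpow_of_exponent_le hp1
  have : (2 : ℝ) ≤ (n : ℝ) := by exact_mod_cast hn2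
  nlinarith

theorem zeta_sum_not_prime_le {s : ℝ} (hs : 1 ≤ s) (F : Finset (HeightOneSpectrum (𝓞 K)))
    (hF : ∀ v ∈ F, ¬ (Ideal.absNorm v.asIdeal).Prime) :
    ∑ v ∈ F, (Ideal.absNorm v.asIdeal : ℝ) ^ (-s) ≤
      (Module.finrank ℚ K : ℝ) * ∑' n : ℕ, (n : ℝ) ^ (-2 : ℝ) := by
  classical
  have hsum : Summable fun n : ℕ => (n : ℝ) ^ (-2 : ℝ) := Real.summable_nat_rpow.mpr (by norm_num)
  calc ∑ v ∈ F, (Ideal.absNorm v.asIdeal : ℝ) ^ (-s)
      ≤ ∑ v ∈ F, (fun n : ℕ => (n : ℝ) ^ (-2 : ℝ)) (zetaBelow K v) :=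
        Finset.sum_le_sum fun v hv => zeta_rpow_le_of_not_prime K hs v (hF v hv)
    _ = ∑ b ∈ F.image (zetaBelow K), (F.filter fun a => zetaBelow K a = b).card •
          (b : ℝ) ^ (-2 : ℝ) := Finset.sum_comp (fun n : ℕ => (n : ℝ) ^ (-2 : ℝ)) (zetaBelow K)
    _ ≤ ∑ b ∈ F.image (zetaBelow K), (Module.finrank ℚ K : ℝ) * (b : ℝ) ^ (-2 : ℝ) := by
        refine Finset.sum_le_sum fun b hb => ?_
        rw [nsmul_eq_mul]
        refine mul_le_mul_of_nonneg_right ?_ (Real.rpow_nonneg (Nat.cast_nonneg _) _)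
        obtain ⟨v₀, -, rfl⟩ := Finset.mem_image.mp hb
        obtain ⟨n, -, -, hp, -⟩ := zetaBelow_spec K v₀
        have := zeta_card_primes_le K (zetaBelow K v₀) hp
          (F.filter fun a => zetaBelow K a = zetaBelow K v₀) (fun v hv => by
            obtain ⟨n', -, hmem, -, -⟩ := zetaBelow_spec K v
            rw [(Finset.mem_filter.mp hv).2] at hmem
            exact hmem)
        exact_mod_cast this
    _ = (Module.finrank ℚ K : ℝ) * ∑ b ∈ F.image (zetaBelow K), (b : ℝ) ^ (-2 : ℝ) := by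
        rw [Finset.mul_sum]
    _ ≤ (Module.finrank ℚ K : ℝ) * ∑' n : ℕ, (n : ℝ) ^ (-2 : ℝ) := by
        refine mul_le_mul_of_nonneg_left ?_ (Nat.cast_nonneg _)
        exact hsum.sum_le_tsum _ (fun i _ => Real.rpow_nonneg (Nat.cast_nonneg _) _)

theorem primeSum_not_prime_le :
    ∃ C : ℝ, ∀ s : ℝ, 1 ≤ s →
      primeSum {v : HeightOneSpectrum (𝓞 K) | ¬ (Ideal.absNorm v.asIdeal).Prime} s ≤ C :=
  ⟨(Module.finrank ℚ K : ℝ) * ∑' n : ℕ, (n : ℝ) ^ (-2 : ℝ), fun _ hs =>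
    primeSum_le_of_forall_sum_le fun T hT => zeta_sum_not_prime_le K hs T hT⟩

end Fermat.Agent.S14
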