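import Fermat.Agent.S14.Density.Zeta
import Fermat.Agent.S14.Density.ClassL

/-!
# S14-AN, task K3: the primes in the kernel of a surjection `Cl(K) → ℤ/p` have upper density `≤ 1/p`

Sketch.  Fix `s > 1` close to `1`, `x_v = N v^{-s}`, `D = ∏_{k : ZMod p} lsum (classChar φ k) ∅ s`.
(1) `‖D‖ ≤ idealZeta K s * M^(p-1)` (`lsum_classChar_zero`, `exists_norm_lsum_classChar_le`).
(2) For `T ⊇ T₀` (`exists_finset_lsum_sub_one_lt` with `ε = 1/2`), by `lsum_mul_prod`: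
`D * ∏_{v ∈ T} ∏_k (1 - classChar φ k (primeIdl v) x_v) = ∏_k lsum (classChar φ k) T s`, of norm
`≥ (1/2)^p`.  (3) By `prod_one_sub_stdAddChar_mul` the inner product is `(1 - x_v)^p` if
`φ (primeClass v) = 1` and `1 - x_v^p ∈ (0,1]` otherwise; `(1 - x)^p ≤ exp (- p x)`.  So
`(1/2)^p ≤ ‖D‖ * exp (- p ∑_{v ∈ T, φ v = 1} x_v)`.  (4) For a finite `T' ⊆ {φ = 1}` apply this to
`T = T' ∪ T₀`: `p ∑_{T'} x_v ≤ log (2^p ‖D‖)`; `primeSum_le_of_forall_sum_le`, `idealZeta_bounds`.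
-/

set_option autoImplicit false

namespace Fermat.Agent.S14

open NumberField IsDedekindDomain Filter Topology

variable (K : Type*) [Field K] [NumberField K]

namespace KerAux

/-- `(1 - x)^p ≤ exp (-(p x))` for `0 ≤ x ≤ 1`. -/
theorem one_sub_pow_le_exp (p : ℕ) {x : ℝ} (hx1 : x ≤ 1) :
    (1 - x) ^ p ≤ Real.exp (-((p : ℝ) * x)) := by
  have h1 : 1 - x ≤ Real.exp (-x) := by
    have := Real.add_one_le_exp (-x)
    linarith
  calc (1 - x) ^ p ≤ Real.exp (-x) ^ p := pow_le_pow_left₀ (by linarith) h1 p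
    _ = Real.exp (-((p : ℝ) * x)) := by
      rw [← Real.exp_nat_mul]
      ring_nf

variable {K}

/-- the local factor of the product of all the `L`-functions. -/
theorem norm_prod_factor_le {p : ℕ} [Fact p.Prime]
    (φ : ClassGroup (𝓞 K) →* Multiplicative (ZMod p)) {s : ℝ} (hs : 1 < s)
    (v : HeightOneSpectrum (𝓞 K)) :
    ‖∏ k : ZMod p, (1 - classChar φ k (primeIdl v) *
        (((Ideal.absNorm v.asIdeal : ℝ) ^ (-s) : ℝ) : ℂ))‖ ≤ 1 ∧
    (φ (primeClass v) = 1 →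
      ‖∏ k : ZMod p, (1 - classChar φ k (primeIdl v) *
        (((Ideal.absNorm v.asIdeal : ℝ) ^ (-s) : ℝ) : ℂ))‖ ≤
      Real.exp (-((p : ℝ) * (Ideal.absNorm v.asIdeal : ℝ) ^ (-s)))) := by
  obtain ⟨x, hx⟩ : ∃ x : ℝ, x = (Ideal.absNorm v.asIdeal : ℝ) ^ (-s) := ⟨_, rfl⟩
  have hx0 : 0 < x := hx ▸ primeTerm_pos v s
  have hx1 : x ≤ 1 / 2 := hx ▸ primeTerm_le_half v hs.le
  rw [← hx]
  have h1 : ∏ k : ZMod p, (1 - classChar φ k (primeIdl v) * (x : ℂ)) =
      if Multiplicative.toAdd (φ (primeClass v)) = 0 then (1 - (x : ℂ)) ^ p else 1 - (x : ℂ) ^ p :=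
    prod_one_sub_stdAddChar_mul (Multiplicative.toAdd (φ (primeClass v))) (x : ℂ)
  rw [h1]
  have hA : ‖(1 - (x : ℂ)) ^ p‖ = (1 - x) ^ p := by
    rw [norm_pow, ← Complex.ofReal_one, ← Complex.ofReal_sub, Complex.norm_real, Real.norm_eq_abs,
      abs_of_nonneg (by linarith)]
  have hB : ‖1 - (x : ℂ) ^ p‖ = 1 - x ^ p := by
    rw [← Complex.ofReal_one, ← Complex.ofReal_pow, ← Complex.ofReal_sub, Complex.norm_real,
      Real.norm_eq_abs, abs_of_nonneg]
    have : x ^ p ≤ 1 := pow_le_one₀ hx0.le (by linarith)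
    linarith
  constructor
  · split_ifs
    · rw [hA]
      exact pow_le_one₀ (by linarith) (by linarith)
    · rw [hB]
      have : 0 ≤ x ^ p := pow_nonneg hx0.le p
      linarith
  · intro hv
    have : Multiplicative.toAdd (φ (primeClass v)) = 0 := by rw [hv]; rfl
    rw [if_pos this, hA]
    exact one_sub_pow_le_exp p (by linarith)

end KerAux

open KerAux

/-- steps (2)-(4) above for a fixed `s`. -/
theorem exp_mul_sum_le_norm_prod {p : ℕ} [Fact p.Prime]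
    (φ : ClassGroup (𝓞 K) →* Multiplicative (ZMod p)) {s : ℝ} (hs : 1 < s)
    (T' : Finset (HeightOneSpectrum (𝓞 K))) (hT' : ∀ v ∈ T', φ (primeClass v) = 1) :
    Real.exp ((p : ℝ) * ∑ v ∈ T', (Ideal.absNorm v.asIdeal : ℝ) ^ (-s)) ≤
      2 ^ p * ‖∏ k : ZMod p, lsum (classChar φ k) ∅ s‖ := by
  classical
  obtain ⟨T₀, hT₀⟩ := exists_finset_lsum_sub_one_lt (K := K) hs (ε := 1 / 2) (by norm_num)
  obtain ⟨T, hT⟩ : ∃ T, T = T' ∪ T₀ := ⟨_, rfl⟩
  have hsub : T₀ ⊆ T := hT ▸ Finset.subset_union_right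
  have hsub' : T' ⊆ T := hT ▸ Finset.subset_union_left
  -- the product identity
  have hid : (∏ k : ZMod p, lsum (classChar φ k) ∅ s) *
      ∏ v ∈ T, ∏ k : ZMod p, (1 - classChar φ k (primeIdl v) *
        (((Ideal.absNorm v.asIdeal : ℝ) ^ (-s) : ℝ) : ℂ)) =
      ∏ k : ZMod p, lsum (classChar φ k) T s := by
    rw [Finset.prod_comm, ← Finset.prod_mul_distrib]
    exact Finset.prod_congr rfl fun k _ =>
      lsum_mul_prod (classChar φ k) (norm_classChar_le_one K φ k) hs T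
  have hlow : (1 / 2 : ℝ) ^ p ≤ ‖∏ k : ZMod p, lsum (classChar φ k) T s‖ := by
    rw [norm_prod]
    calc (1 / 2 : ℝ) ^ p = ∏ _k : ZMod p, (1 / 2 : ℝ) := by
          rw [Finset.prod_const, Finset.card_univ, ZMod.card]
      _ ≤ ∏ k : ZMod p, ‖lsum (classChar φ k) T s‖ := by
          refine Finset.prod_le_prod (fun _ _ => by norm_num) fun k _ => ?_
          have h1 := hT₀ T hsub (classChar φ k) (norm_classChar_le_one K φ k)
          have h2 : ‖(1 : ℂ)‖ - ‖lsum (classChar φ k) T s‖ ≤ ‖lsum (classChar φ k) T s - 1‖ := by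
            rw [← norm_neg (lsum (classChar φ k) T s - 1), neg_sub]
            exact norm_sub_norm_le _ _
          rw [norm_one] at h2
          linarith
  have hup : ‖∏ v ∈ T, ∏ k : ZMod p, (1 - classChar φ k (primeIdl v) *
        (((Ideal.absNorm v.asIdeal : ℝ) ^ (-s) : ℝ) : ℂ))‖ ≤
      Real.exp (-((p : ℝ) * ∑ v ∈ T', (Ideal.absNorm v.asIdeal : ℝ) ^ (-s))) := by
    rw [norm_prod, ← Finset.prod_sdiff hsub', Finset.mul_sum, ← Finset.sum_neg_distrib,
      Real.exp_sum]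
    calc _ ≤ 1 * ∏ v ∈ T', Real.exp (-((p : ℝ) * (Ideal.absNorm v.asIdeal : ℝ) ^ (-s))) := by
          refine mul_le_mul ?_ ?_ (Finset.prod_nonneg fun _ _ => norm_nonneg _) zero_le_one
          · exact Finset.prod_le_one (fun _ _ => norm_nonneg _)
              fun v _ => (norm_prod_factor_le φ hs v).1
          · exact Finset.prod_le_prod (fun _ _ => norm_nonneg _)
              fun v hv => (norm_prod_factor_le φ hs v).2 (hT' v hv)
      _ = _ := one_mul _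
  rw [← hid, norm_mul] at hlow
  obtain ⟨E, hE⟩ : ∃ E : ℝ, E = (p : ℝ) * ∑ v ∈ T', (Ideal.absNorm v.asIdeal : ℝ) ^ (-s) :=
    ⟨_, rfl⟩
  rw [← hE] at hup ⊢
  have h3 : (1 / 2 : ℝ) ^ p ≤ ‖∏ k : ZMod p, lsum (classChar φ k) ∅ s‖ * Real.exp (-E) :=
    hlow.trans (mul_le_mul_of_nonneg_left hup (norm_nonneg _))
  have h4 : (1 / 2 : ℝ) ^ p * Real.exp E ≤ ‖∏ k : ZMod p, lsum (classChar φ k) ∅ s‖ := by
    have := mul_le_mul_of_nonneg_right h3 (Real.exp_pos E).le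
    rwa [mul_assoc, ← Real.exp_add, neg_add_cancel, Real.exp_zero, mul_one] at this
  have h5 : (2 : ℝ) ^ p * ((1 / 2 : ℝ) ^ p * Real.exp E) = Real.exp E := by
    rw [← mul_assoc, ← mul_pow]
    norm_num
  rw [← h5]
  exact mul_le_mul_of_nonneg_left h4 (by positivity)

theorem primeSum_ker_le {p : ℕ} [Fact p.Prime]
    (φ : ClassGroup (𝓞 K) →* Multiplicative (ZMod p)) (hφ : Function.Surjective φ) :
    ∃ C : ℝ, ∀ᶠ s in 𝓝[>] (1 : ℝ),
      (p : ℝ) * primeSum {v : HeightOneSpectrum (𝓞 K) | φ (primeClass v) = 1} s ≤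
        Real.log (1 / (s - 1)) + C := by
  classical
  have hp : p.Prime := Fact.out
  have hp0 : (0 : ℝ) < p := by exact_mod_cast hp.pos
  obtain ⟨M, hM⟩ := exists_norm_lsum_classChar_le K φ hφ
  obtain ⟨c, C₀, hc, hC₀, hz⟩ := idealZeta_bounds K
  obtain ⟨M', hM'⟩ : ∃ M' : ℝ, M' = max M 1 := ⟨_, rfl⟩
  have hM'1 : 1 ≤ M' := hM' ▸ le_max_right _ _
  refine ⟨Real.log (2 ^ p * (C₀ * M' ^ (p - 1))), ?_⟩
  filter_upwards [hM, hz, self_mem_nhdsWithin] with s hMs hzs hs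
  have hs1 : (1 : ℝ) < s := hs
  have hs0 : 0 < s - 1 := by linarith
  have hD : ‖∏ k : ZMod p, lsum (classChar φ k) ∅ s‖ ≤ C₀ / (s - 1) * M' ^ (p - 1) := by
    rw [norm_prod, ← Finset.mul_prod_erase Finset.univ _ (Finset.mem_univ (0 : ZMod p))]
    refine mul_le_mul ?_ ?_ (Finset.prod_nonneg fun _ _ => norm_nonneg _)
      (div_nonneg hC₀.le hs0.le)
    · rw [lsum_classChar_zero, Complex.norm_real, Real.norm_eq_abs,
        abs_of_pos (idealZeta_pos K hs1)]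
      exact hzs.2
    · have hcard : (Finset.univ.erase (0 : ZMod p)).card = p - 1 := by
        rw [Finset.card_erase_of_mem (Finset.mem_univ _), Finset.card_univ, ZMod.card]
      rw [← hcard, ← Finset.prod_const]
      refine Finset.prod_le_prod (fun _ _ => norm_nonneg _) fun k hk => ?_
      exact (hMs k (Finset.ne_of_mem_erase hk)).trans (hM' ▸ le_max_left _ _)
  have hkey : ∀ T : Finset (HeightOneSpectrum (𝓞 K)),
      (∀ v ∈ T, v ∈ {v : HeightOneSpectrum (𝓞 K) | φ (primeClass v) = 1}) →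
      ∑ v ∈ T, (Ideal.absNorm v.asIdeal : ℝ) ^ (-s) ≤
        (Real.log (1 / (s - 1)) + Real.log (2 ^ p * (C₀ * M' ^ (p - 1)))) / p := by
    intro T hT
    have h1 := exp_mul_sum_le_norm_prod K φ hs1 T hT
    have h2 : Real.exp ((p : ℝ) * ∑ v ∈ T, (Ideal.absNorm v.asIdeal : ℝ) ^ (-s)) ≤
        1 / (s - 1) * (2 ^ p * (C₀ * M' ^ (p - 1))) := by
      refine h1.trans ?_
      calc (2 : ℝ) ^ p * ‖∏ k : ZMod p, lsum (classChar φ k) ∅ s‖
          ≤ 2 ^ p * (C₀ / (s - 1) * M' ^ (p - 1)) :=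
            mul_le_mul_of_nonneg_left hD (by positivity)
        _ = 1 / (s - 1) * (2 ^ p * (C₀ * M' ^ (p - 1))) := by
            field_simp
    have hpos1 : 0 < 1 / (s - 1) := by positivity
    have hpos2 : 0 < (2 : ℝ) ^ p * (C₀ * M' ^ (p - 1)) := by positivity
    rw [le_div_iff₀ hp0, mul_comm, ← Real.log_mul hpos1.ne' hpos2.ne',
      Real.le_log_iff_exp_le (mul_pos hpos1 hpos2)]
    exact h2
  have := primeSum_le_of_forall_sum_le hkey
  rwa [le_div_iff₀ hp0, mul_comm] at this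

end Fermat.Agent.S14
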