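import Fermat.Agent.S14.Density.Defs

/-!
# S14-AN, task L2: elementary estimates for `log |x|_w` and `|N x|^{-s}`

Sketch.  (1) `|normAtPlace w x - normAtPlace w y| ≤ normAtPlace w (x - y) ≤ ‖x - y‖`
(`normAtPlace_add_le`, `normAtPlace_neg`/`normAtPlace_sub`, `mixedEmbedding.norm_eq_sup'_normAtPlace` or
`normAtPlace_le_norm`-like) and `|log a - log b| ≤ |a - b| / m` for `a, b ≥ m > 0`
(`Real.log_le_sub_one_of_pos` applied to `a/b` and `b/a`).
(2) `N x = ∏_w |x|_w ^ mult w` so `log N x - log N y = ∑_w mult w * δ_w`, `|·| ≤ n ε`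
(`InfinitePlace.sum_mult_eq`); `N x^{-s} = N y^{-s} * exp (-s (log N x - log N y))`
(`Real.rpow_def_of_pos`), and `|exp t - 1| ≤ |t| exp |t|` with `|t| ≤ 2 n ε ≤ 2 n`.
-/

set_option autoImplicit false

namespace Fermat.Agent.S14

open scoped Classical

open NumberField NumberField.mixedEmbedding

variable (K : Type*) [Field K] [NumberField K]

theorem normAtPlace_le_norm' (w : InfinitePlace K) (x : mixedSpace K) :
    normAtPlace w x ≤ ‖x‖ := by
  rw [norm_eq_sup'_normAtPlace]
  exact Finset.le_sup' (fun w => normAtPlace w x) (Finset.mem_univ w)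

namespace LogDiff

theorem log_sub_log_le {a b m : ℝ} (hm : 0 < m) (ha : m ≤ a) (hb : m ≤ b) :
    Real.log a - Real.log b ≤ |a - b| / m := by
  have ha0 : 0 < a := lt_of_lt_of_le hm ha
  have hb0 : 0 < b := lt_of_lt_of_le hm hb
  rw [← Real.log_div ha0.ne' hb0.ne']
  have h1 := Real.log_le_sub_one_of_pos (div_pos ha0 hb0)
  have h2 : a / b - 1 = (a - b) / b := by field_simp
  rw [h2] at h1
  refine h1.trans ?_
  calc (a - b) / b ≤ |a - b| / b := div_le_div_of_nonneg_right (le_abs_self _) hb0.le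
    _ ≤ |a - b| / m := div_le_div_of_nonneg_left (abs_nonneg _) hm hb

theorem abs_log_sub_log_le {a b m : ℝ} (hm : 0 < m) (ha : m ≤ a) (hb : m ≤ b) :
    |Real.log a - Real.log b| ≤ |a - b| / m := by
  rw [abs_le]
  constructor
  · have := log_sub_log_le hm hb ha
    rw [abs_sub_comm] at this
    linarith
  · exact log_sub_log_le hm ha hb

theorem abs_exp_sub_one_le (t : ℝ) : |Real.exp t - 1| ≤ |t| * Real.exp |t| := by
  rcases le_total 0 t with ht | ht
  · rw [abs_of_nonneg ht, abs_of_nonneg (by linarith [Real.add_one_le_exp t])]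
    have h1 := Real.add_one_le_exp (-t)
    have h2 : Real.exp t * Real.exp (-t) = 1 := by rw [← Real.exp_add]; simp
    have h3 := Real.exp_pos t
    nlinarith
  · have h1 : Real.exp t ≤ 1 := Real.exp_le_one_iff.2 ht
    rw [abs_of_nonpos ht, abs_of_nonpos (by linarith)]
    have h2 := Real.add_one_le_exp t
    have h3 : 1 ≤ Real.exp (-t) := Real.one_le_exp (by linarith)
    nlinarith

variable {K}

theorem abs_normAtPlace_sub_le (w : InfinitePlace K) (x y : mixedSpace K) :
    |normAtPlace w x - normAtPlace w y| ≤ ‖x - y‖ := by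
  have h1 : normAtPlace w x ≤ normAtPlace w (x - y) + normAtPlace w y := by
    have := normAtPlace_add_le w (x - y) y
    simpa using this
  have h2 : normAtPlace w y ≤ normAtPlace w (x - y) + normAtPlace w x := by
    have := normAtPlace_add_le w (-(x - y)) x
    rw [normAtPlace_neg] at this
    simpa using this
  have h3 := normAtPlace_le_norm' K w (x - y)
  rw [abs_le]
  constructor <;> linarith

theorem log_norm_eq (x : mixedSpace K) (hx : mixedEmbedding.norm x ≠ 0) :
    Real.log (mixedEmbedding.norm x)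
      = ∑ w : InfinitePlace K, (InfinitePlace.mult w : ℝ) * Real.log (normAtPlace w x) := by
  rw [mixedEmbedding.norm_apply, Real.log_prod]
  · refine Finset.sum_congr rfl fun w _ => ?_
    rw [Real.log_pow]
  · intro w _
    exact pow_ne_zero _ (mixedEmbedding.norm_ne_zero_iff.1 hx w)

theorem sum_mult_eq' : ∑ w : InfinitePlace K, (InfinitePlace.mult w : ℝ)
    = (Module.finrank ℚ K : ℝ) := by
  have := InfinitePlace.sum_mult_eq (K := K)
  exact_mod_cast this

end LogDiff

open LogDiff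

theorem abs_log_normAtPlace_sub_le (x y : mixedSpace K) {m : ℝ} (hm : 0 < m)
    (w : InfinitePlace K) (hx : m ≤ normAtPlace w x) (hy : m ≤ normAtPlace w y) :
    |Real.log (normAtPlace w x) - Real.log (normAtPlace w y)| ≤ ‖x - y‖ / m :=
  (abs_log_sub_log_le hm hx hy).trans
    (div_le_div_of_nonneg_right (abs_normAtPlace_sub_le w x y) hm.le)

theorem abs_log_norm_sub_le (x y : mixedSpace K) {ε : ℝ}
    (hx : mixedEmbedding.norm x ≠ 0) (hy : mixedEmbedding.norm y ≠ 0)
    (h : ∀ w : InfinitePlace K, |Real.log (normAtPlace w x) - Real.log (normAtPlace w y)| ≤ ε) :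
    |Real.log (mixedEmbedding.norm x) - Real.log (mixedEmbedding.norm y)| ≤
      (Module.finrank ℚ K : ℝ) * ε := by
  rw [log_norm_eq x hx, log_norm_eq y hy, ← Finset.sum_sub_distrib, ← sum_mult_eq',
    Finset.sum_mul]
  refine (Finset.abs_sum_le_sum_abs _ _).trans (Finset.sum_le_sum fun w _ => ?_)
  rw [← mul_sub, abs_mul, abs_of_nonneg (Nat.cast_nonneg _)]
  exact mul_le_mul_of_nonneg_left (h w) (Nat.cast_nonneg _)

theorem abs_norm_rpow_sub_le (x y : mixedSpace K) {ε : ℝ} (hε1 : ε ≤ 1)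
    (hx : mixedEmbedding.norm x ≠ 0) (hy : mixedEmbedding.norm y ≠ 0)
    (h : ∀ w : InfinitePlace K, |Real.log (normAtPlace w x) - Real.log (normAtPlace w y)| ≤ ε)
    {s : ℝ} (hs : s ∈ Set.Icc (1 : ℝ) 2) :
    |(mixedEmbedding.norm x) ^ (-s) - (mixedEmbedding.norm y) ^ (-s)| ≤
      (mixedEmbedding.norm y) ^ (-s) *
        (2 * (Module.finrank ℚ K : ℝ) * Real.exp (2 * (Module.finrank ℚ K : ℝ)) * ε) := by
  have hx0 : 0 < mixedEmbedding.norm x := lt_of_le_of_ne (mixedEmbedding.norm_nonneg x) hx.symm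
  have hy0 : 0 < mixedEmbedding.norm y := lt_of_le_of_ne (mixedEmbedding.norm_nonneg y) hy.symm
  set n : ℝ := (Module.finrank ℚ K : ℝ) with hn
  have hn0 : 0 ≤ n := by rw [hn]; positivity
  have hε0 : 0 ≤ ε := by
    obtain ⟨w⟩ := (inferInstance : Nonempty (InfinitePlace K))
    exact (abs_nonneg _).trans (h w)
  have hL := abs_log_norm_sub_le K x y hx hy h
  set L : ℝ := Real.log (mixedEmbedding.norm x) - Real.log (mixedEmbedding.norm y) with hLdef
  set t : ℝ := -s * L with ht
  have htabs : |t| ≤ 2 * n * ε := by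
    rw [ht, abs_mul, abs_neg, abs_of_nonneg (by linarith [hs.1] : (0 : ℝ) ≤ s)]
    calc s * |L| ≤ 2 * (n * ε) :=
          mul_le_mul hs.2 hL (abs_nonneg _) (by norm_num)
      _ = 2 * n * ε := by ring
  have htabs2 : |t| ≤ 2 * n := by
    refine htabs.trans ?_
    have : 2 * n * ε ≤ 2 * n * 1 := mul_le_mul_of_nonneg_left hε1 (by positivity)
    linarith
  have e : (mixedEmbedding.norm x) ^ (-s) = (mixedEmbedding.norm y) ^ (-s) * Real.exp t := by
    rw [Real.rpow_def_of_pos hx0, Real.rpow_def_of_pos hy0, ← Real.exp_add]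
    congr 1
    rw [ht, hLdef]; ring
  have hyn : 0 ≤ (mixedEmbedding.norm y) ^ (-s) := Real.rpow_nonneg hy0.le _
  have e2 : (mixedEmbedding.norm x) ^ (-s) - (mixedEmbedding.norm y) ^ (-s)
      = (mixedEmbedding.norm y) ^ (-s) * (Real.exp t - 1) := by rw [e]; ring
  rw [e2, abs_mul, abs_of_nonneg hyn]
  refine mul_le_mul_of_nonneg_left ?_ hyn
  refine (abs_exp_sub_one_le t).trans ?_
  calc |t| * Real.exp |t| ≤ (2 * n * ε) * Real.exp (2 * n) :=
        mul_le_mul htabs (Real.exp_le_exp.2 htabs2) (Real.exp_pos _).le (by positivity)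
    _ = 2 * n * Real.exp (2 * n) * ε := by ring

/-- if all `|y|_w ≥ m ≥ 1` then `N y ^ (-s) ≤ m ^ (-n)` for `s ≥ 1`. -/
theorem norm_rpow_le_of_le_normAtPlace (y : mixedSpace K) {m : ℝ} (hm : 1 ≤ m)
    (h : ∀ w : InfinitePlace K, m ≤ normAtPlace w y) {s : ℝ} (hs : 1 ≤ s) :
    (mixedEmbedding.norm y) ^ (-s) ≤ m ^ (-(Module.finrank ℚ K : ℝ)) := by
  have hm0 : 0 < m := by linarith
  have h1 : m ^ (Module.finrank ℚ K) ≤ mixedEmbedding.norm y := by
    rw [mixedEmbedding.norm_apply, ← InfinitePlace.sum_mult_eq (K := K), ← Finset.prod_pow_eq_pow_sum]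
    exact Finset.prod_le_prod (fun w _ => pow_nonneg hm0.le _)
      (fun w _ => pow_le_pow_left₀ hm0.le (h w) _)
  have h2 : (mixedEmbedding.norm y) ^ (-s) ≤ (m ^ (Module.finrank ℚ K)) ^ (-s) :=
    Real.rpow_le_rpow_of_nonpos (pow_pos hm0 _) h1 (by linarith)
  refine h2.trans ?_
  rw [← Real.rpow_natCast, ← Real.rpow_mul hm0.le]
  refine Real.rpow_le_rpow_of_exponent_le hm ?_
  have : (0 : ℝ) ≤ (Module.finrank ℚ K : ℝ) := Nat.cast_nonneg _
  nlinarith

end Fermat.Agent.S14
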