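import Fermat.Agent.S14.Density.Tent
import Fermat.Agent.S14.Density.LogDiff

/-!
# S14-AN, task L3: `ρ` is Lipschitz in the logarithmic coordinates

Sketch.  `logMap x w - logMap y w = mult w * (δ_w - (1/n) (log N x - log N y))`, of absolute value
`≤ 2 * (ε + ε) = 4 ε` (`mult w ≤ 2`, `abs_log_norm_sub_le`), so `‖logMap x - logMap y‖ ≤ 4 ε`
(`pi_norm_le_iff_of_nonneg`).  The coordinate functionals `v ↦ B.repr v i` are linear on a finite
dimensional space, hence bounded: `|B.repr v i| ≤ M_i ‖v‖`
(`LinearMap.toContinuousLinearMap`, `ContinuousLinearMap.le_opNorm`).  Conclude with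
`abs_prod_tent_sub_le`: `|ρ x - ρ y| ≤ ∑_i |logCoord x i - logCoord y i| ≤ (∑_i M_i) 4 ε`.
-/

set_option autoImplicit false

namespace Fermat.Agent.S14

open scoped Classical

open NumberField NumberField.mixedEmbedding NumberField.Units
  NumberField.Units.dirichletUnitTheorem

variable (K : Type*) [Field K] [NumberField K]

theorem exists_rho_lipschitz :
    ∃ M : ℝ, 0 ≤ M ∧ ∀ (x y : mixedSpace K) (ε : ℝ), mixedEmbedding.norm x ≠ 0 →
      mixedEmbedding.norm y ≠ 0 →
      (∀ w : InfinitePlace K, |Real.log (normAtPlace w x) - Real.log (normAtPlace w y)| ≤ ε) →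
      |rho K x - rho K y| ≤ M * ε := by
  set B := (basisUnitLattice K).ofZLatticeBasis ℝ (unitLattice K) with hB
  let f : Fin (rank K) → (logSpace K →L[ℝ] ℝ) := fun i => LinearMap.toContinuousLinearMap (B.coord i)
  refine ⟨(∑ i, ‖f i‖) * 4, by positivity, ?_⟩
  intro x y ε hx hy h
  have hε : 0 ≤ ε := (abs_nonneg _).trans (h (Classical.arbitrary (InfinitePlace K)))
  have hn : (0 : ℝ) < (Module.finrank ℚ K : ℝ) := by exact_mod_cast Module.finrank_pos
  have hN := abs_log_norm_sub_le K x y hx hy h
  have hnorm : ‖logMap x - logMap y‖ ≤ 4 * ε := by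
    rw [pi_norm_le_iff_of_nonneg (by positivity)]
    intro w
    rw [Pi.sub_apply, logMap_apply, logMap_apply, Real.norm_eq_abs, ← mul_sub, abs_mul]
    have h1 : |((w.val.mult : ℕ) : ℝ)| ≤ 2 := by
      rw [abs_of_nonneg (by positivity)]
      unfold InfinitePlace.mult
      split_ifs <;> norm_num
    have h2 : |Real.log (normAtPlace w.val x) -
        Real.log (mixedEmbedding.norm x) * (Module.finrank ℚ K : ℝ)⁻¹ -
        (Real.log (normAtPlace w.val y) -
        Real.log (mixedEmbedding.norm y) * (Module.finrank ℚ K : ℝ)⁻¹)| ≤ 2 * ε := by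
      have e : Real.log (normAtPlace w.val x) -
        Real.log (mixedEmbedding.norm x) * (Module.finrank ℚ K : ℝ)⁻¹ -
        (Real.log (normAtPlace w.val y) -
        Real.log (mixedEmbedding.norm y) * (Module.finrank ℚ K : ℝ)⁻¹) =
        (Real.log (normAtPlace w.val x) - Real.log (normAtPlace w.val y)) -
        (Real.log (mixedEmbedding.norm x) - Real.log (mixedEmbedding.norm y)) *
          (Module.finrank ℚ K : ℝ)⁻¹ := by ring
      rw [e]
      refine (abs_sub _ _).trans ?_
      have h3 : |(Real.log (mixedEmbedding.norm x) - Real.log (mixedEmbedding.norm y)) *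
          (Module.finrank ℚ K : ℝ)⁻¹| ≤ ε := by
        rw [abs_mul, abs_of_pos (inv_pos.mpr hn), ← div_eq_mul_inv, div_le_iff₀ hn]
        linarith
      have := h w.val
      linarith
    calc |((w.val.mult : ℕ) : ℝ)| * _ ≤ 2 * (2 * ε) :=
          mul_le_mul h1 h2 (abs_nonneg _) (by norm_num)
      _ = 4 * ε := by ring
  have hcoord : ∀ i, |logCoord K x i - logCoord K y i| ≤ ‖f i‖ * (4 * ε) := by
    intro i
    have e : logCoord K x i - logCoord K y i = f i (logMap x - logMap y) := by
      simp only [logCoord, f, LinearMap.coe_toContinuousLinearMap', Module.Basis.coord_apply, map_sub,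
        Finsupp.coe_sub, Pi.sub_apply, hB]
    rw [e, ← Real.norm_eq_abs]
    exact ((f i).le_opNorm _).trans (mul_le_mul_of_nonneg_left hnorm (norm_nonneg _))
  calc |rho K x - rho K y| ≤ ∑ i, |logCoord K x i - logCoord K y i| :=
        abs_prod_tent_sub_le _ _
    _ ≤ ∑ i, ‖f i‖ * (4 * ε) := Finset.sum_le_sum fun i _ => hcoord i
    _ = (∑ i, ‖f i‖) * 4 * ε := by rw [← Finset.sum_mul]; ring

end Fermat.Agent.S14
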