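import Fermat.Agent.S14.Density.Tent

/-!
# S14-AN, task P2: `∑_{u ∈ (𝓞 K)ˣ} ρ(u • x) = #torsion`

Sketch.  `logMap_unit_smul`: `logMap (u • x) = logEmbedding K (Additive.ofMul u) + logMap x`.
`NumberField.Units.exist_unique_eq_mul_prod` gives a bijection
`(𝓞 K)ˣ ≃ torsion K × (Fin (rank K) → ℤ)`, `u = ζ * ∏ i, fundSystem K i ^ e i`;
`logEmbedding` kills `ζ` (`logEmbedding_eq_zero_iff`) and sends `fundSystem K i` to
`basisUnitLattice K i` (`logEmbedding_fundSystem`), whose coordinates in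
`(basisUnitLattice K).ofZLatticeBasis ℝ _` are `Pi.single i 1` (`Basis.ofZLatticeBasis_apply`,
`Basis.repr_self`).  So `logCoord K (u • x) i = logCoord K x i + e i`; then `hasSum_prod_tent`,
summed over the finite group `torsion K` (`torsionOrder K = Fintype.card (torsion K)`), e.g. via
`HasSum.prod_fiberwise`/`hasSum_fintype` and `Equiv.hasSum_iff`.
-/

set_option autoImplicit false

namespace Fermat.Agent.S14

open NumberField NumberField.mixedEmbedding NumberField.Units
  NumberField.Units.dirichletUnitTheorem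

variable (K : Type*) [Field K] [NumberField K]

theorem rho_nonneg (x : mixedSpace K) : 0 ≤ rho K x :=
  prod_tent_nonneg _

theorem rho_le_one (x : mixedSpace K) : rho K x ≤ 1 :=
  prod_tent_le_one _

open scoped Classical in
theorem logCoord_unit_smul (ζ : torsion K) (e : Fin (rank K) → ℤ) (x : mixedSpace K)
    (hx : mixedEmbedding.norm x ≠ 0) (i : Fin (rank K)) :
    logCoord K (((ζ : (𝓞 K)ˣ) * ∏ j, fundSystem K j ^ e j) • x) i = logCoord K x i + e i := by
  have h1 : logEmbedding K (Additive.ofMul ((ζ : (𝓞 K)ˣ) * ∏ j, fundSystem K j ^ e j)) =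
      ∑ j, (e j : ℝ) • ((basisUnitLattice K).ofZLatticeBasis ℝ (unitLattice K)) j := by
    rw [ofMul_mul, map_add, logEmbedding_eq_zero_iff.mpr ζ.2, zero_add, ofMul_prod, map_sum]
    refine Finset.sum_congr rfl fun j _ => ?_
    rw [ofMul_zpow, map_zsmul, logEmbedding_fundSystem, Module.Basis.ofZLatticeBasis_apply,
      Int.cast_smul_eq_zsmul]
  unfold logCoord
  rw [logMap_unit_smul _ hx, map_add, Finsupp.add_apply, add_comm, h1]
  congr 1
  rw [map_sum, Finsupp.finsetSum_apply]
  simp only [map_smul, Module.Basis.repr_self, Finsupp.smul_apply, Finsupp.single_apply,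
    smul_eq_mul, mul_ite, mul_one, mul_zero, Finset.sum_ite_eq', Finset.mem_univ, if_true]

/-- the parametrisation of the units by torsion and exponents. -/
noncomputable def unitEquiv : torsion K × (Fin (rank K) → ℤ) ≃ (𝓞 K)ˣ :=
  Equiv.ofBijective (fun ζe => (ζe.1 : (𝓞 K)ˣ) * ∏ i, fundSystem K i ^ ζe.2 i) <| by
    constructor
    · intro a b hab
      obtain ⟨c, -, hc⟩ := exist_unique_eq_mul_prod K ((a.1 : (𝓞 K)ˣ) * ∏ i, fundSystem K i ^ a.2 i)
      rw [hc a rfl, hc b hab]
    · intro u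
      obtain ⟨c, hc, -⟩ := exist_unique_eq_mul_prod K u
      exact ⟨c, hc.symm⟩

theorem hasSum_rho_unit_smul (x : mixedSpace K) (hx : mixedEmbedding.norm x ≠ 0) :
    HasSum (fun u : (𝓞 K)ˣ => rho K (u • x)) (torsionOrder K : ℝ) := by
  rw [← (unitEquiv K).hasSum_iff]
  have hf : ∀ ζe : torsion K × (Fin (rank K) → ℤ),
      ((fun u : (𝓞 K)ˣ => rho K (u • x)) ∘ unitEquiv K) ζe =
        ∏ i, tent (logCoord K x i + ζe.2 i) := by
    intro ζe
    show rho K ((((ζe.1 : (𝓞 K)ˣ) * ∏ i, fundSystem K i ^ ζe.2 i)) • x) = _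
    unfold rho
    exact Finset.prod_congr rfl fun i _ => by rw [logCoord_unit_smul K ζe.1 ζe.2 x hx i]
  rw [show ((fun u : (𝓞 K)ˣ => rho K (u • x)) ∘ unitEquiv K) =
    fun ζe : torsion K × (Fin (rank K) → ℤ) => ∏ i, tent (logCoord K x i + ζe.2 i) from funext hf]
  have h1 := hasSum_prod_tent (fun i => logCoord K x i)
  have hsum : Summable fun ζe : torsion K × (Fin (rank K) → ℤ) =>
      ∏ i, tent (logCoord K x i + ζe.2 i) := by
    rw [summable_prod_of_nonneg (fun ζe => prod_tent_nonneg _)]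
    exact ⟨fun _ => h1.summable, Summable.of_finite⟩
  let _ : Fintype (torsion K) := Fintype.ofFinite _
  rw [hsum.hasSum_iff, hsum.tsum_prod]
  simp only [h1.tsum_eq, tsum_fintype, Finset.sum_const, Finset.card_univ, nsmul_eq_mul, mul_one]
  rw [torsionOrder, Nat.card_eq_fintype_card]

end Fermat.Agent.S14
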