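import Fermat.Agent.S14.Density.Cone
import Fermat.Agent.S14.Density.RhoLip
import Fermat.Agent.S14.Density.UnitSum

/-!
# S14-AN, task L5: `|wt s (y + r) - wt s y| ≤ C ‖y‖^{-(n+1)}` for `‖y‖ ≥ R`

Sketch.  Let `c` be as in `exists_cone`, `M` as in `exists_rho_lipschitz`, `n = finrank ℚ K`,
`R = max (4 (‖r‖ + 1) / c) (4 / c)`; let `‖y‖ ≥ R`, `m = (c/4) ‖y‖ ≥ 1`, `ε = ‖r‖ / m ≤ 1`.
* If `wt s y = 0 = wt s (y + r)`: trivial.
* If `wt s y ≠ 0`: `N y ≠ 0`, `ρ y ≠ 0`, so `|y|_w ≥ c ‖y‖ ≥ m` and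
  `|y + r|_w ≥ |y|_w - ‖r‖ ≥ c ‖y‖ - (c/4) ‖y‖ ≥ m`.
* If `wt s (y + r) ≠ 0`: `|y + r|_w ≥ c ‖y + r‖ ≥ c (‖y‖ - ‖r‖) ≥ (3c/4) ‖y‖ ≥ m` (as `c ≤ 1`,
  `‖r‖ ≤ (c/4)‖y‖ ≤ ‖y‖/4`) and `|y|_w ≥ |y + r|_w - ‖r‖ ≥ (c/2) ‖y‖ ≥ m`.
In the last two cases all places of `y`, `y + r` are `≥ m > 0` (so both norms are `≠ 0`:
`mixedEmbedding.norm_ne_zero_iff`), `|log |y+r|_w - log |y|_w| ≤ ε` (`abs_log_normAtPlace_sub_le`), and
`|ρ(y+r) N(y+r)^{-s} - ρ(y) N(y)^{-s}| ≤ |ρ(y+r) - ρ(y)| N(y+r)^{-s} + ρ(y) |N(y+r)^{-s} - N(y)^{-s}|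
 ≤ M ε m^{-n} + m^{-n} (2 n e^{2n} ε)` (`norm_rpow_le_of_le_normAtPlace`, `abs_norm_rpow_sub_le`,
`rho_le_one`), which is `C ‖y‖^{-n-1}` with `C = (M + 2 n e^{2n}) ‖r‖ (c/4)^{-(n+1)}`.
-/

set_option autoImplicit false

namespace Fermat.Agent.S14

open scoped Classical

open NumberField NumberField.mixedEmbedding

variable (K : Type*) [Field K] [NumberField K]

namespace Lip

variable {K}

theorem le_normAtPlace_add (w : InfinitePlace K) (x r : mixedSpace K) :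
    normAtPlace w x - ‖r‖ ≤ normAtPlace w (x + r) := by
  have h1 : normAtPlace w x ≤ normAtPlace w (x + r) + normAtPlace w (-r) := by
    have := normAtPlace_add_le w (x + r) (-r)
    simpa using this
  rw [normAtPlace_neg] at h1
  have h2 := normAtPlace_le_norm' K w r
  linarith

theorem le_normAtPlace_of_add (w : InfinitePlace K) (x r : mixedSpace K) :
    normAtPlace w (x + r) - ‖r‖ ≤ normAtPlace w x := by
  have h1 := normAtPlace_add_le w x r
  have h2 := normAtPlace_le_norm' K w r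
  linarith

theorem ne_zero_of_wt_ne_zero {s : ℝ} (hs : s ≠ 0) {x : mixedSpace K} (h : wt K s x ≠ 0) :
    mixedEmbedding.norm x ≠ 0 ∧ rho K x ≠ 0 := by
  unfold wt at h
  refine ⟨?_, left_ne_zero_of_mul h⟩
  intro h0
  apply right_ne_zero_of_mul h
  rw [h0, Real.zero_rpow (neg_ne_zero.2 hs)]

/-- the main estimate, once all places are `≥ m`. -/
theorem abs_wt_sub_le {M : ℝ} (hM0 : 0 ≤ M)
    (hM : ∀ (x y : mixedSpace K) (ε : ℝ), mixedEmbedding.norm x ≠ 0 →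
      mixedEmbedding.norm y ≠ 0 →
      (∀ w : InfinitePlace K, |Real.log (normAtPlace w x) - Real.log (normAtPlace w y)| ≤ ε) →
      |rho K x - rho K y| ≤ M * ε)
    (y r : mixedSpace K) {m : ℝ} (hm : 1 ≤ m) (hrm : ‖r‖ ≤ m)
    (h1 : ∀ w : InfinitePlace K, m ≤ normAtPlace w y)
    (h2 : ∀ w : InfinitePlace K, m ≤ normAtPlace w (y + r))
    {s : ℝ} (hs : s ∈ Set.Icc (1 : ℝ) 2) :
    |wt K s (y + r) - wt K s y| ≤
      (M + 2 * (Module.finrank ℚ K : ℝ) * Real.exp (2 * (Module.finrank ℚ K : ℝ))) * ‖r‖ *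
        m ^ (-((Module.finrank ℚ K : ℝ) + 1)) := by
  have hm0 : 0 < m := by linarith
  set n : ℝ := (Module.finrank ℚ K : ℝ) with hn
  set ε : ℝ := ‖r‖ / m with hε
  have hε0 : 0 ≤ ε := div_nonneg (norm_nonneg _) hm0.le
  have hε1 : ε ≤ 1 := (div_le_one hm0).2 hrm
  have hy0 : mixedEmbedding.norm y ≠ 0 :=
    mixedEmbedding.norm_ne_zero_iff.2 fun w => (lt_of_lt_of_le hm0 (h1 w)).ne'
  have hyr0 : mixedEmbedding.norm (y + r) ≠ 0 :=
    mixedEmbedding.norm_ne_zero_iff.2 fun w => (lt_of_lt_of_le hm0 (h2 w)).ne'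
  have hδ : ∀ w : InfinitePlace K,
      |Real.log (normAtPlace w (y + r)) - Real.log (normAtPlace w y)| ≤ ε := by
    intro w
    have := abs_log_normAtPlace_sub_le K (y + r) y hm0 w (h2 w) (h1 w)
    simpa using this
  have hρ := hM (y + r) y ε hyr0 hy0 hδ
  have hN1 := norm_rpow_le_of_le_normAtPlace K (y + r) hm h2 hs.1
  have hN2 := norm_rpow_le_of_le_normAtPlace K y hm h1 hs.1
  have hN3 := abs_norm_rpow_sub_le K (y + r) y hε1 hyr0 hy0 hδ hs
  have hNn1 : 0 ≤ (mixedEmbedding.norm (y + r)) ^ (-s) :=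
    Real.rpow_nonneg (mixedEmbedding.norm_nonneg _) _
  have hNn2 : 0 ≤ (mixedEmbedding.norm y) ^ (-s) :=
    Real.rpow_nonneg (mixedEmbedding.norm_nonneg _) _
  have hρ0 := rho_nonneg K y
  have hρ1 := rho_le_one K y
  set E : ℝ := 2 * n * Real.exp (2 * n) with hE
  have hn0 : 0 ≤ n := by rw [hn]; positivity
  have hE0 : 0 ≤ E := by rw [hE]; positivity
  have hmn : 0 ≤ m ^ (-n) := Real.rpow_nonneg hm0.le _
  have e : wt K s (y + r) - wt K s y
      = (rho K (y + r) - rho K y) * (mixedEmbedding.norm (y + r)) ^ (-s)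
        + rho K y * ((mixedEmbedding.norm (y + r)) ^ (-s) - (mixedEmbedding.norm y) ^ (-s)) := by
    unfold wt; ring
  have b1 : |(rho K (y + r) - rho K y) * (mixedEmbedding.norm (y + r)) ^ (-s)|
      ≤ (M * ε) * m ^ (-n) := by
    rw [abs_mul, abs_of_nonneg hNn1]
    exact mul_le_mul hρ hN1 hNn1 (mul_nonneg hM0 hε0)
  have b2 : |rho K y * ((mixedEmbedding.norm (y + r)) ^ (-s) - (mixedEmbedding.norm y) ^ (-s))|
      ≤ 1 * (m ^ (-n) * (E * ε)) := by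
    rw [abs_mul, abs_of_nonneg hρ0]
    refine mul_le_mul hρ1 (hN3.trans ?_) (abs_nonneg _) zero_le_one
    exact mul_le_mul_of_nonneg_right hN2 (mul_nonneg hE0 hε0)
  have e2 : ε * m ^ (-n) = ‖r‖ * m ^ (-(n + 1)) := by
    rw [hε, neg_add, Real.rpow_add hm0, Real.rpow_neg_one]
    field_simp
  calc |wt K s (y + r) - wt K s y|
      ≤ (M * ε) * m ^ (-n) + 1 * (m ^ (-n) * (E * ε)) := by
        rw [e]; exact (abs_add_le _ _).trans (add_le_add b1 b2)
    _ = (M + E) * (ε * m ^ (-n)) := by ring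
    _ = (M + E) * ‖r‖ * m ^ (-(n + 1)) := by rw [e2]; ring

end Lip

open Lip in
theorem exists_wt_shift_bound (r : mixedSpace K) :
    ∃ C R : ℝ, 0 ≤ C ∧ 0 < R ∧ ∀ s ∈ Set.Icc (1 : ℝ) 2, ∀ y : mixedSpace K, R ≤ ‖y‖ →
      |wt K s (y + r) - wt K s y| ≤ C * ‖y‖ ^ (-((Module.finrank ℚ K : ℝ) + 1)) := by
  obtain ⟨c, hc0, hc1, hcone⟩ := exists_cone K
  obtain ⟨M, hM0, hM⟩ := exists_rho_lipschitz K
  set n : ℝ := (Module.finrank ℚ K : ℝ) with hn
  have hn0 : 0 ≤ n := by rw [hn]; positivity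
  have hr0 : 0 ≤ ‖r‖ := norm_nonneg r
  have hc4 : 0 < c / 4 := by positivity
  refine ⟨(M + 2 * n * Real.exp (2 * n)) * ‖r‖ * (c / 4) ^ (-(n + 1)), 4 * (‖r‖ + 1) / c,
    by positivity, by positivity, ?_⟩
  intro s hs y hy
  have hs0 : s ≠ 0 := by have := hs.1; linarith
  have hy0 : 0 < ‖y‖ := lt_of_lt_of_le (by positivity) hy
  set m : ℝ := c / 4 * ‖y‖ with hm
  have hmr : ‖r‖ + 1 ≤ m := by
    rw [div_le_iff₀ hc0] at hy
    rw [hm]; linarith
  have hm1 : 1 ≤ m := by linarith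
  have hrm : ‖r‖ ≤ m := by linarith
  have hC0 : 0 ≤ (M + 2 * n * Real.exp (2 * n)) * ‖r‖ * (c / 4) ^ (-(n + 1)) := by positivity
  have hfin : (∀ w : InfinitePlace K, m ≤ normAtPlace w y) →
      (∀ w : InfinitePlace K, m ≤ normAtPlace w (y + r)) →
      |wt K s (y + r) - wt K s y| ≤
        (M + 2 * n * Real.exp (2 * n)) * ‖r‖ * (c / 4) ^ (-(n + 1)) * ‖y‖ ^ (-(n + 1)) := by
    intro h1 h2
    have := abs_wt_sub_le hM0 hM y r hm1 hrm h1 h2 hs
    rw [hm, Real.mul_rpow hc4.le hy0.le, ← mul_assoc] at this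
    exact this
  by_cases hwy : wt K s y = 0
  · by_cases hwyr : wt K s (y + r) = 0
    · rw [hwy, hwyr, sub_zero, abs_zero]
      exact mul_nonneg hC0 (Real.rpow_nonneg hy0.le _)
    · obtain ⟨hN, hρ⟩ := ne_zero_of_wt_ne_zero hs0 hwyr
      have hyr : ‖y‖ - ‖r‖ ≤ ‖y + r‖ := by
        have := norm_sub_norm_le y (-r)
        simpa using this
      have hcy : c * ‖y‖ = 4 * m := by rw [hm]; ring
      have hcr : c * ‖r‖ ≤ m := by nlinarith
      have h2 : ∀ w : InfinitePlace K, 3 * m ≤ normAtPlace w (y + r) := by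
        intro w
        have h3 := hcone (y + r) hN hρ w
        have h4 : c * (‖y‖ - ‖r‖) ≤ c * ‖y + r‖ := mul_le_mul_of_nonneg_left hyr hc0.le
        nlinarith
      refine hfin (fun w => ?_) (fun w => ?_)
      · have := le_normAtPlace_of_add w y r
        have := h2 w
        linarith
      · have := h2 w
        linarith
  · obtain ⟨hN, hρ⟩ := ne_zero_of_wt_ne_zero hs0 hwy
    have hcy : c * ‖y‖ = 4 * m := by rw [hm]; ring
    have h1 : ∀ w : InfinitePlace K, 4 * m ≤ normAtPlace w y := by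
      intro w
      have h3 := hcone y hN hρ w
      linarith
    refine hfin (fun w => ?_) (fun w => ?_)
    · have := h1 w
      linarith
    · have := le_normAtPlace_add w y r
      have := h1 w
      linarith

end Fermat.Agent.S14
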