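import Fermat.Agent.S14.Density.Defs

/-!
# S14-AN, task B1: basic facts on `primeSum` (all elementary `tsum` manipulations)

`summable_primeNorm_rpow` is proved in `PrimeSumUpper.lean`; here it is taken as a hypothesis `hsum`.
-/

set_option autoImplicit false

namespace Fermat.Agent.S14

open NumberField IsDedekindDomain Filter Topology

variable {K : Type*} [Field K] [NumberField K]

theorem primeSum_nonneg (S : Set (HeightOneSpectrum (𝓞 K))) (s : ℝ) : 0 ≤ primeSum S s :=
  tsum_nonneg fun _ => Real.rpow_nonneg (Nat.cast_nonneg _) _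

theorem primeSum_eq_tsum_indicator (S : Set (HeightOneSpectrum (𝓞 K))) (s : ℝ) :
    primeSum S s = ∑' v : HeightOneSpectrum (𝓞 K),
      S.indicator (fun v => (Ideal.absNorm v.asIdeal : ℝ) ^ (-s)) v := by
  unfold primeSum
  exact tsum_subtype S (fun v : HeightOneSpectrum (𝓞 K) => (Ideal.absNorm v.asIdeal : ℝ) ^ (-s))

theorem primeSum_mono {S S' : Set (HeightOneSpectrum (𝓞 K))} (h : S ⊆ S') {s : ℝ}
    (hsum : Summable fun v : HeightOneSpectrum (𝓞 K) => (Ideal.absNorm v.asIdeal : ℝ) ^ (-s)) :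
    primeSum S s ≤ primeSum S' s := by
  rw [primeSum_eq_tsum_indicator, primeSum_eq_tsum_indicator]
  exact (hsum.indicator S).tsum_le_tsum (fun v => Set.indicator_le_indicator_of_subset h
    (fun _ => Real.rpow_nonneg (Nat.cast_nonneg _) _) v) (hsum.indicator S')

theorem primeSum_union_le (S S' : Set (HeightOneSpectrum (𝓞 K))) {s : ℝ}
    (hsum : Summable fun v : HeightOneSpectrum (𝓞 K) => (Ideal.absNorm v.asIdeal : ℝ) ^ (-s)) :
    primeSum (S ∪ S') s ≤ primeSum S s + primeSum S' s := by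
  simp only [primeSum_eq_tsum_indicator]
  rw [← (hsum.indicator S).tsum_add (hsum.indicator S')]
  refine (hsum.indicator (S ∪ S')).tsum_le_tsum (fun v => ?_)
    ((hsum.indicator S).add (hsum.indicator S'))
  have hnn : ∀ (X : Set (HeightOneSpectrum (𝓞 K))),
      0 ≤ X.indicator (fun v => (Ideal.absNorm v.asIdeal : ℝ) ^ (-s)) v := fun X =>
    Set.indicator_nonneg (fun v _ => Real.rpow_nonneg (Nat.cast_nonneg _) _) v
  by_cases hv : v ∈ S ∪ S'
  · rw [Set.indicator_of_mem hv]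
    rcases hv with hA | hB
    · rw [Set.indicator_of_mem hA]
      linarith [hnn S']
    · rw [Set.indicator_of_mem hB]
      linarith [hnn S]
  · rw [Set.indicator_of_notMem hv]
    linarith [hnn S, hnn S']

/-- `2 ≤ N v`. -/
theorem two_le_absNorm_prime (v : HeightOneSpectrum (𝓞 K)) : 2 ≤ Ideal.absNorm v.asIdeal := by
  have h0 : Ideal.absNorm v.asIdeal ≠ 0 := by
    rw [Ne, Ideal.absNorm_eq_zero_iff]
    exact v.ne_bot
  have h1 : Ideal.absNorm v.asIdeal ≠ 1 := by
    rw [Ne, Ideal.absNorm_eq_one_iff]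
    exact v.isPrime.ne_top
  omega

theorem primeTerm_pos (v : HeightOneSpectrum (𝓞 K)) (s : ℝ) :
    0 < (Ideal.absNorm v.asIdeal : ℝ) ^ (-s) := by
  have := two_le_absNorm_prime v
  apply Real.rpow_pos_of_pos
  have : 0 < Ideal.absNorm v.asIdeal := by omega
  exact_mod_cast this

/-- `0 < N v ^ (-s) ≤ 1/2` for `s ≥ 1`. -/
theorem primeTerm_le_half (v : HeightOneSpectrum (𝓞 K)) {s : ℝ} (hs : 1 ≤ s) :
    (Ideal.absNorm v.asIdeal : ℝ) ^ (-s) ≤ 1 / 2 := by
  have h2 : (2 : ℝ) ≤ (Ideal.absNorm v.asIdeal : ℝ) := by exact_mod_cast two_le_absNorm_prime v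
  rw [Real.rpow_neg (by linarith), one_div]
  apply inv_anti₀ (by norm_num)
  calc (2 : ℝ) ≤ (Ideal.absNorm v.asIdeal : ℝ) := h2
    _ = (Ideal.absNorm v.asIdeal : ℝ) ^ (1 : ℝ) := (Real.rpow_one _).symm
    _ ≤ (Ideal.absNorm v.asIdeal : ℝ) ^ s := Real.rpow_le_rpow_of_exponent_le (by linarith) hs

theorem primeTerm_le_one (v : HeightOneSpectrum (𝓞 K)) {s : ℝ} (hs : 0 ≤ s) :
    (Ideal.absNorm v.asIdeal : ℝ) ^ (-s) ≤ 1 := by
  have h2 : (2 : ℝ) ≤ (Ideal.absNorm v.asIdeal : ℝ) := by exact_mod_cast two_le_absNorm_prime v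
  exact Real.rpow_le_one_of_one_le_of_nonpos (by linarith) (by linarith)

/-- a finite set of primes contributes at most its cardinality
(cf. Mathlib `NumberField.Set.primeIdealZetaSum_le_card_of_finite`, same expression). -/
theorem primeSum_le_ncard_of_finite {S : Set (HeightOneSpectrum (𝓞 K))} (hS : S.Finite) {s : ℝ}
    (hs : 0 ≤ s) : primeSum S s ≤ S.ncard := by
  unfold primeSum
  have := hS.fintype
  rw [tsum_fintype, Set.ncard_eq_toFinset_card' S, ← Fintype.card_coe]
  calc ∑ v : S, (Ideal.absNorm (v : HeightOneSpectrum (𝓞 K)).asIdeal : ℝ) ^ (-s)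
      ≤ ∑ _v : S, (1 : ℝ) := Finset.sum_le_sum fun v _ => primeTerm_le_one _ hs
    _ = _ := by simp

/-- finite partial sums are bounded by `primeSum`. -/
theorem sum_le_primeSum {S : Set (HeightOneSpectrum (𝓞 K))}
    (T : Finset (HeightOneSpectrum (𝓞 K))) (hT : ∀ v ∈ T, v ∈ S) {s : ℝ}
    (hsum : Summable fun v : HeightOneSpectrum (𝓞 K) => (Ideal.absNorm v.asIdeal : ℝ) ^ (-s)) :
    ∑ v ∈ T, (Ideal.absNorm v.asIdeal : ℝ) ^ (-s) ≤ primeSum S s := by
  have h1 : ∑ v ∈ T, (Ideal.absNorm v.asIdeal : ℝ) ^ (-s) =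
      primeSum (T : Set (HeightOneSpectrum (𝓞 K))) s := by
    unfold primeSum
    exact (Finset.tsum_subtype' T (fun v : HeightOneSpectrum (𝓞 K) =>
      (Ideal.absNorm v.asIdeal : ℝ) ^ (-s))).symm
  rw [h1]
  exact primeSum_mono (fun v hv => hT v hv) hsum

/-- `primeSum` is the supremum of its finite partial sums. -/
theorem primeSum_le_of_forall_sum_le {S : Set (HeightOneSpectrum (𝓞 K))} {s B : ℝ}
    (h : ∀ T : Finset (HeightOneSpectrum (𝓞 K)), (∀ v ∈ T, v ∈ S) →
      ∑ v ∈ T, (Ideal.absNorm v.asIdeal : ℝ) ^ (-s) ≤ B) :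
    primeSum S s ≤ B := by
  unfold primeSum
  refine Real.tsum_le_of_sum_le (fun _ => Real.rpow_nonneg (Nat.cast_nonneg _) _) fun F => ?_
  have h' := h (F.map (Function.Embedding.subtype _)) (fun v hv => by
    obtain ⟨w, -, rfl⟩ := Finset.mem_map.mp hv
    exact w.2)
  rw [Finset.sum_map] at h'
  exact h'

/-- the primes of given norm are finitely many. -/
theorem finite_primes_of_absNorm_eq (n : ℕ) :
    {v : HeightOneSpectrum (𝓞 K) | Ideal.absNorm v.asIdeal = n}.Finite := by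
  refine Set.Finite.of_injOn (f := fun v : HeightOneSpectrum (𝓞 K) => v.asIdeal)
    (t := {I : Ideal (𝓞 K) | Ideal.absNorm I = n}) (fun v hv => hv)
    (fun a _ b _ hab => HeightOneSpectrum.ext hab) (Ideal.finite_setOfPred_absNorm_eq (S := 𝓞 K) n)

/-- the primes containing a given nonzero element are finitely many. -/
theorem finite_primes_of_mem {x : 𝓞 K} (hx : x ≠ 0) :
    {v : HeightOneSpectrum (𝓞 K) | x ∈ v.asIdeal}.Finite := by
  have h := Ideal.finite_factors (R := 𝓞 K) (I := Ideal.span {x}) (by simpa using hx)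
  refine h.subset fun v hv => ?_
  show v.asIdeal ∣ Ideal.span {x}
  rw [Ideal.dvd_span_singleton]
  exact hv

end Fermat.Agent.S14
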