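import Fermat.Agent.S14.Density.PrimeSumUpper
import Fermat.Agent.S14.Density.HigherDegree

/-!
# S14-AN, task Z4b: `log (1/(s-1)) ≤ ∑_{deg v = 1} N v^{-s} + C`

Sketch.  By `exists_idealZeta_mul_prod_le_two`, `ζ(s) ≤ 2 ∏_{v ∈ T₀} (1 - x_v)⁻¹`, and
`- log (1 - x) ≤ x + x^2` for `0 ≤ x ≤ 1/2` (`primeTerm_le_half`), so
`log ζ(s) ≤ log 2 + ∑_{T₀} x_v + ∑_{T₀} x_v^2 ≤ log 2 + primeSum univ s + primeSum univ 2`
(`x_v^2 = N v ^ (-2s) ≤ N v ^ (-2)`).  Split `univ` into `{N v prime} ∪ {N v not prime}`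
(`primeSum_union_le`), use `primeSum_not_prime_le` and `log_idealZeta_bounds`.
-/

set_option autoImplicit false

namespace Fermat.Agent.S14

open NumberField IsDedekindDomain Filter Topology

variable (K : Type*) [Field K] [NumberField K]

theorem zeta_neg_log_le {x : ℝ} (h0 : 0 ≤ x) (h1 : x ≤ 1 / 2) :
    -Real.log (1 - x) ≤ x + x ^ 2 := by
  have habs : |x| = x := abs_of_nonneg h0
  have h := Real.abs_log_sub_add_sum_range_le (x := x) (by rw [habs]; linarith) 4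
  rw [habs] at h
  simp only [Finset.sum_range_succ, Finset.range_zero, Finset.sum_empty, zero_add, pow_one,
    Nat.cast_zero, div_one, Nat.reduceAdd, Nat.cast_one, Nat.cast_ofNat] at h
  have hx2 : 0 ≤ x ^ 2 := sq_nonneg x
  have h3 : x ^ 3 ≤ x ^ 2 * (1 / 2) := by
    have : x ^ 3 = x ^ 2 * x := by ring
    rw [this]
    exact mul_le_mul_of_nonneg_left h1 hx2
  have h4 : x ^ 4 ≤ x ^ 2 * (1 / 4) := by
    have : x ^ 4 = x ^ 3 * x := by ring
    rw [this]
    have : x ^ 3 * x ≤ x ^ 2 * (1 / 2) * (1 / 2) :=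
      mul_le_mul h3 h1 h0 (by positivity)
    linarith
  have h5 : x ^ 5 ≤ x ^ 2 * (1 / 8) := by
    have : x ^ 5 = x ^ 4 * x := by ring
    rw [this]
    have : x ^ 4 * x ≤ x ^ 2 * (1 / 4) * (1 / 2) :=
      mul_le_mul h4 h1 h0 (by positivity)
    linarith
  have h6 : x ^ 5 / (1 - x) ≤ 2 * x ^ 5 := by
    rw [div_le_iff₀ (by linarith)]
    have : 0 ≤ x ^ 5 := by positivity
    nlinarith
  have h7 := (abs_le.mp h).1
  norm_num at h7
  linarith

theorem zeta_sq_le {s : ℝ} (hs : 1 < s) (v : HeightOneSpectrum (𝓞 K)) :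
    ((Ideal.absNorm v.asIdeal : ℝ) ^ (-s)) ^ 2 ≤ (Ideal.absNorm v.asIdeal : ℝ) ^ (-2 : ℝ) := by
  have h2 : (2 : ℝ) ≤ (Ideal.absNorm v.asIdeal : ℝ) := by exact_mod_cast two_le_absNorm_prime v
  rw [← Real.rpow_natCast, ← Real.rpow_mul (by linarith)]
  apply Real.rpow_le_rpow_of_exponent_le (by linarith)
  push_cast
  linarith

theorem log_idealZeta_le_primeSum {s : ℝ} (hs : 1 < s) :
    Real.log (idealZeta K s) ≤ Real.log 2 +
      primeSum (Set.univ : Set (HeightOneSpectrum (𝓞 K))) s +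
      primeSum (Set.univ : Set (HeightOneSpectrum (𝓞 K))) 2 := by
  obtain ⟨T, hT⟩ := exists_idealZeta_mul_prod_le_two K hs
  have hT' := hT T (Finset.Subset.refl T)
  have e1 := zeta_log_euler K hs T
  have e2 : Real.log (idealZeta K s * ∏ v ∈ T, (1 - (Ideal.absNorm v.asIdeal : ℝ) ^ (-s))) ≤
      Real.log 2 :=
    Real.log_le_log (by linarith [one_le_idealZeta_mul_prod K hs T]) hT'
  have e3 : ∑ v ∈ T, -Real.log (1 - (Ideal.absNorm v.asIdeal : ℝ) ^ (-s)) ≤
      ∑ v ∈ T, (Ideal.absNorm v.asIdeal : ℝ) ^ (-s) +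
        ∑ v ∈ T, (Ideal.absNorm v.asIdeal : ℝ) ^ (-2 : ℝ) := by
    rw [← Finset.sum_add_distrib]
    refine Finset.sum_le_sum fun v _ => ?_
    have h3 := zeta_neg_log_le (primeTerm_pos v s).le (primeTerm_le_half v hs.le)
    have h4 := zeta_sq_le K hs v
    linarith
  have e4 : ∑ v ∈ T, (Ideal.absNorm v.asIdeal : ℝ) ^ (-2 : ℝ) ≤
      primeSum (Set.univ : Set (HeightOneSpectrum (𝓞 K))) 2 :=
    sum_le_primeSum T (fun v _ => Set.mem_univ v)
      (summable_primeNorm_rpow K (by norm_num : (1 : ℝ) < 2))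
  have e5 : ∑ v ∈ T, (Ideal.absNorm v.asIdeal : ℝ) ^ (-s) ≤
      primeSum (Set.univ : Set (HeightOneSpectrum (𝓞 K))) s :=
    sum_le_primeSum T (fun v _ => Set.mem_univ v) (summable_primeNorm_rpow K hs)
  linarith

/-- lower bound for the sum over the primes of degree one. -/
theorem le_primeSum_degree_one :
    ∃ C : ℝ, ∀ᶠ s in 𝓝[>] (1 : ℝ),
      Real.log (1 / (s - 1)) ≤
        primeSum {v : HeightOneSpectrum (𝓞 K) | (Ideal.absNorm v.asIdeal).Prime} s + C := by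
  obtain ⟨B, hB⟩ := log_idealZeta_bounds K
  obtain ⟨C, hC⟩ := primeSum_not_prime_le K
  refine ⟨B + Real.log 2 + primeSum (Set.univ : Set (HeightOneSpectrum (𝓞 K))) 2 + C, ?_⟩
  filter_upwards [hB, self_mem_nhdsWithin] with s h1 hs
  have hs' : 1 < s := hs
  have e1 := log_idealZeta_le_primeSum K hs'
  have e2 : primeSum (Set.univ : Set (HeightOneSpectrum (𝓞 K))) s ≤
      primeSum ({v : HeightOneSpectrum (𝓞 K) | (Ideal.absNorm v.asIdeal).Prime} ∪
        {v : HeightOneSpectrum (𝓞 K) | ¬ (Ideal.absNorm v.asIdeal).Prime}) s :=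
    primeSum_mono (fun v _ => by
      by_cases h : (Ideal.absNorm v.asIdeal).Prime
      · exact Or.inl h
      · exact Or.inr h) (summable_primeNorm_rpow K hs')
  have e3 := primeSum_union_le {v : HeightOneSpectrum (𝓞 K) | (Ideal.absNorm v.asIdeal).Prime}
    {v : HeightOneSpectrum (𝓞 K) | ¬ (Ideal.absNorm v.asIdeal).Prime}
    (summable_primeNorm_rpow K hs')
  have e4 := hC s hs'.le
  linarith [h1.1]

end Fermat.Agent.S14
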