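import Fermat.Agent.S14.Density.Euler
import Fermat.Agent.S14.Density.PrimeSumBasic

/-!
# S14-AN, task Z3: `∑_v N v^{-s} ≤ log (1/(s-1)) + C`

Sketch.  `summable_primeNorm_rpow`: `primeIdl` is injective, compose `summable_idealNorm_rpow`.
`sum_le_log_idealZeta`: `1 - x ≤ exp (-x)`, so by `one_le_idealZeta_mul_prod`
`1 ≤ ζ(s) * exp (- ∑_{v ∈ T} x_v)`; take logs.  Then `primeSum_le_of_forall_sum_le` and
`log_idealZeta_bounds`.
-/

set_option autoImplicit false

namespace Fermat.Agent.S14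

open NumberField IsDedekindDomain Filter Topology

variable (K : Type*) [Field K] [NumberField K]

theorem summable_primeNorm_rpow {s : ℝ} (hs : 1 < s) :
    Summable fun v : HeightOneSpectrum (𝓞 K) => (Ideal.absNorm v.asIdeal : ℝ) ^ (-s) := by
  have hinj : Function.Injective (primeIdl (K := K)) := by
    intro a b hab
    have h1 : a.asIdeal = b.asIdeal :=
      congrArg (fun x : nonZeroDivisors (Ideal (𝓞 K)) => (x : Ideal (𝓞 K))) hab
    exact HeightOneSpectrum.ext h1
  have h := (summable_idealNorm_rpow K hs).comp_injective hinj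
  exact h

/-- the logarithmic form of the Euler product. -/
theorem zeta_log_euler {s : ℝ} (hs : 1 < s) (T : Finset (HeightOneSpectrum (𝓞 K))) :
    Real.log (idealZeta K s) =
      Real.log (idealZeta K s * ∏ v ∈ T, (1 - (Ideal.absNorm v.asIdeal : ℝ) ^ (-s))) +
      ∑ v ∈ T, -Real.log (1 - (Ideal.absNorm v.asIdeal : ℝ) ^ (-s)) := by
  have hne : ∀ v ∈ T, 1 - (Ideal.absNorm v.asIdeal : ℝ) ^ (-s) ≠ 0 := fun v _ => by
    have := primeTerm_le_half v hs.le
    linarith
  rw [Real.log_mul (idealZeta_pos K hs).ne' (Finset.prod_ne_zero_iff.mpr hne),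
    Real.log_prod hne, Finset.sum_neg_distrib]
  ring

theorem sum_le_log_idealZeta {s : ℝ} (hs : 1 < s) (T : Finset (HeightOneSpectrum (𝓞 K))) :
    ∑ v ∈ T, (Ideal.absNorm v.asIdeal : ℝ) ^ (-s) ≤ Real.log (idealZeta K s) := by
  rw [zeta_log_euler K hs T]
  have h1 : 0 ≤ Real.log (idealZeta K s * ∏ v ∈ T, (1 - (Ideal.absNorm v.asIdeal : ℝ) ^ (-s))) :=
    Real.log_nonneg (one_le_idealZeta_mul_prod K hs T)
  have h2 : ∑ v ∈ T, (Ideal.absNorm v.asIdeal : ℝ) ^ (-s) ≤
      ∑ v ∈ T, -Real.log (1 - (Ideal.absNorm v.asIdeal : ℝ) ^ (-s)) := by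
    refine Finset.sum_le_sum fun v _ => ?_
    have h3 := primeTerm_le_half v hs.le
    have h4 := Real.log_le_sub_one_of_pos (x := 1 - (Ideal.absNorm v.asIdeal : ℝ) ^ (-s))
      (by linarith)
    linarith
  linarith

/-- upper bound for the sum over all primes. -/
theorem primeSum_univ_le :
    ∃ C : ℝ, ∀ᶠ s in 𝓝[>] (1 : ℝ),
      primeSum (Set.univ : Set (HeightOneSpectrum (𝓞 K))) s ≤ Real.log (1 / (s - 1)) + C := by
  obtain ⟨B, hB⟩ := log_idealZeta_bounds K
  refine ⟨B, ?_⟩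
  filter_upwards [hB, self_mem_nhdsWithin] with s h1 hs
  have hs' : 1 < s := hs
  have h2 : primeSum (Set.univ : Set (HeightOneSpectrum (𝓞 K))) s ≤ Real.log (idealZeta K s) :=
    primeSum_le_of_forall_sum_le fun T _ => sum_le_log_idealZeta K hs' T
  linarith [h1.2]

end Fermat.Agent.S14
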