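import Fermat.Agent.S14.Density.Lip
import Fermat.Agent.S14.Density.Unfold

/-!
# S14-AN, task P5: `∑_{y ∈ 𝓞 K} |wtO s (y + r) - wtO s y| ≤ M` uniformly in `s ∈ [1,2]`

Sketch.  `summable_norm_mixedEmbedding_rpow`: `ZLattice.summable_norm_rpow` for
`L = mixedEmbedding.integerLattice K` (rank `= finrank ℚ K`: `ZLattice.rank ℝ L` +
`mixedEmbedding.finrank`), transported along the bijection `𝓞 K ≃ L`, `y ↦ mixedEmbedding K y`
(`mixedEmbedding_injective`).
`exists_wtO_shift_bound`: for `‖y‖ ≥ R` use `exists_wt_shift_bound (mixedEmbedding K r)` (`map_add`);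
for `0 < ‖y‖ < R` use `0 ≤ wtO ≤ 1`: `|·| ≤ 1 ≤ R^(n+1) ‖y‖^{-(n+1)}`.  So `C' = max C (R^(n+1))`.
`exists_tsum_shift_bound`: `M = C' * ∑' ‖y‖^{-(n+1)} + 1` (the term `y = 0` is `≤ 1`;
note `‖0‖ ^ (-(n+1)) = 0`).
-/

set_option autoImplicit false

namespace Fermat.Agent.S14

open scoped Classical

open NumberField NumberField.mixedEmbedding

variable (K : Type*) [Field K] [NumberField K]

theorem shift_rank : Module.finrank ℤ (mixedEmbedding.integerLattice K) = Module.finrank ℚ K := by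
  rw [ZLattice.rank ℝ (mixedEmbedding.integerLattice K), mixedEmbedding.finrank]

theorem shift_summable_lattice :
    Summable fun z : mixedEmbedding.integerLattice K =>
      ‖(z : mixedSpace K)‖ ^ (-((Module.finrank ℚ K : ℝ) + 1)) := by
  have h := ZLattice.summable_norm_rpow (mixedEmbedding.integerLattice K)
    (-((Module.finrank ℚ K : ℝ) + 1)) (by rw [shift_rank]; linarith)
  exact h

omit [NumberField K] in
theorem shift_mem (y : 𝓞 K) : mixedEmbedding K (y : K) ∈ mixedEmbedding.integerLattice K := by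
  rw [LinearMap.mem_range]
  exact ⟨y, rfl⟩

theorem summable_norm_mixedEmbedding_rpow :
    Summable fun y : 𝓞 K => ‖mixedEmbedding K (y : K)‖ ^ (-((Module.finrank ℚ K : ℝ) + 1)) := by
  have h := shift_summable_lattice K
  have he : Function.Injective
      (fun y : 𝓞 K => (⟨mixedEmbedding K (y : K), shift_mem K y⟩ :
        mixedEmbedding.integerLattice K)) := by
    intro y y' hyy
    have h1 : mixedEmbedding K (y : K) = mixedEmbedding K (y' : K) := by
      rw [Subtype.mk.injEq] at hyy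
      exact hyy
    have h2 : (y : K) = (y' : K) := mixedEmbedding_injective K h1
    exact RingOfIntegers.ext h2
  have h3 := h.comp_injective he
  refine h3.congr ?_
  intro y
  rfl

theorem shift_norm_pos {y : 𝓞 K} (hy : y ≠ 0) : 0 < ‖mixedEmbedding K (y : K)‖ := by
  rw [norm_pos_iff]
  intro h
  apply hy
  have h1 : mixedEmbedding K (y : K) = mixedEmbedding K ((0 : 𝓞 K) : K) := by
    rw [h]; simp
  exact RingOfIntegers.ext (mixedEmbedding_injective K h1)

theorem exists_wtO_shift_bound (r : 𝓞 K) :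
    ∃ C : ℝ, 0 ≤ C ∧ ∀ s ∈ Set.Icc (1 : ℝ) 2, ∀ y : 𝓞 K, y ≠ 0 →
      |wtO K s (y + r) - wtO K s y| ≤
        C * ‖mixedEmbedding K (y : K)‖ ^ (-((Module.finrank ℚ K : ℝ) + 1)) := by
  obtain ⟨C, R, hC, hR, h⟩ := exists_wt_shift_bound K (mixedEmbedding K (r : K))
  set n1 : ℝ := (Module.finrank ℚ K : ℝ) + 1 with hn1
  have hn1pos : 0 < n1 := by rw [hn1]; positivity
  refine ⟨max C (R ^ n1), le_max_of_le_left hC, ?_⟩
  intro s hs y hy
  have hpos := shift_norm_pos K hy
  have hpw : 0 ≤ ‖mixedEmbedding K (y : K)‖ ^ (-n1) := Real.rpow_nonneg hpos.le _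
  rcases le_or_gt R ‖mixedEmbedding K (y : K)‖ with hRy | hRy
  · have h1 := h s hs (mixedEmbedding K (y : K)) hRy
    have h2 : wtO K s (y + r) = wt K s (mixedEmbedding K (y : K) + mixedEmbedding K (r : K)) := by
      rw [wtO, ← map_add]
      rfl
    rw [h2, wtO]
    exact h1.trans (mul_le_mul_of_nonneg_right (le_max_left _ _) hpw)
  · have hs0 : 0 < s := by have := hs.1; linarith
    have a1 := wtO_nonneg K s (y + r)
    have a2 := wtO_nonneg K s y
    have a3 := wtO_le_one K hs0 (y + r)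
    have a4 := wtO_le_one K hs0 y
    have h1 : |wtO K s (y + r) - wtO K s y| ≤ 1 := by
      rw [abs_le]; constructor <;> linarith
    have h2 : 1 ≤ R ^ n1 * ‖mixedEmbedding K (y : K)‖ ^ (-n1) := by
      rw [Real.rpow_neg hpos.le, ← div_eq_mul_inv, one_le_div (Real.rpow_pos_of_pos hpos _)]
      exact Real.rpow_le_rpow hpos.le hRy.le hn1pos.le
    exact h1.trans (h2.trans (mul_le_mul_of_nonneg_right (le_max_right _ _) hpw))

theorem exists_tsum_shift_bound (r : 𝓞 K) :
    ∃ M : ℝ, ∀ s ∈ Set.Icc (1 : ℝ) 2,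
      Summable (fun y : 𝓞 K => |wtO K s (y + r) - wtO K s y|) ∧
        ∑' y : 𝓞 K, |wtO K s (y + r) - wtO K s y| ≤ M := by
  obtain ⟨C, hC, h⟩ := exists_wtO_shift_bound K r
  have hsum := summable_norm_mixedEmbedding_rpow K
  set n1 : ℝ := (Module.finrank ℚ K : ℝ) + 1 with hn1
  set g : 𝓞 K → ℝ := fun y => C * ‖mixedEmbedding K (y : K)‖ ^ (-n1) + if y = 0 then 1 else 0
    with hg
  have hgs : Summable g :=
    (hsum.mul_left C).add (summable_of_hasFiniteSupport
      ((Set.finite_singleton (0 : 𝓞 K)).subset (by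
        intro y hy
        by_contra hne
        exact hy (if_neg hne))))
  refine ⟨∑' y, g y, ?_⟩
  intro s hs
  have hs0 : 0 < s := by have := hs.1; linarith
  have hle : ∀ y : 𝓞 K, |wtO K s (y + r) - wtO K s y| ≤ g y := by
    intro y
    rcases eq_or_ne y 0 with rfl | hy
    · have a1 := wtO_nonneg K s (0 + r)
      have a2 := wtO_nonneg K s 0
      have a3 := wtO_le_one K hs0 (0 + r)
      have a4 := wtO_le_one K hs0 0
      have h1 : |wtO K s (0 + r) - wtO K s 0| ≤ 1 := by
        rw [abs_le]; constructor <;> linarith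
      have h2 : 0 ≤ C * ‖mixedEmbedding K ((0 : 𝓞 K) : K)‖ ^ (-n1) :=
        mul_nonneg hC (Real.rpow_nonneg (norm_nonneg _) _)
      simp only [hg, if_true]
      linarith
    · simp only [hg, if_neg hy, add_zero]
      exact h s hs y hy
  have hs' : Summable (fun y : 𝓞 K => |wtO K s (y + r) - wtO K s y|) :=
    Summable.of_nonneg_of_le (fun _ => abs_nonneg _) hle hgs
  exact ⟨hs', hs'.tsum_le_tsum hle hgs⟩

end Fermat.Agent.S14
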