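import Fermat.Agent.S14.Density.Defs

/-!
# S14-AN, task P1: the tent function (pure real analysis, no number theory)

Sketch.  `hasSum_tent_int`: with `n = ⌊c⌋`, `t = c - n ∈ [0,1)`, only `m = -n` and `m = -n-1` give
nonzero terms: `tent t + tent (t - 1) = (1 - t) + t = 1` (`hasSum_sum_of_ne_finset_zero`).
`hasSum_prod_tent`: the function is supported on the finite box
`Fintype.piFinset fun i => {-⌊c i⌋, -⌊c i⌋ - 1}`, and `Finset.prod_univ_sum` turns the product of sums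
into the sum over the box.  `abs_prod_tent_sub_le`: induction / `Finset.prod_sub`-free telescoping,
all factors are in `[0,1]` and `tent` is `1`-Lipschitz.
-/

set_option autoImplicit false

namespace Fermat.Agent.S14

theorem tent_nonneg (t : ℝ) : 0 ≤ tent t := le_max_left _ _

theorem tent_le_one (t : ℝ) : tent t ≤ 1 :=
  max_le zero_le_one (by linarith [abs_nonneg t])

theorem tent_eq_zero {t : ℝ} (ht : 1 ≤ |t|) : tent t = 0 :=
  max_eq_left (by linarith)

theorem abs_lt_one_of_tent_ne_zero {t : ℝ} (ht : tent t ≠ 0) : |t| < 1 := by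
  by_contra h
  exact ht (tent_eq_zero (not_lt.mp h))

theorem abs_tent_sub_le (a b : ℝ) : |tent a - tent b| ≤ |a - b| := by
  unfold tent
  rw [max_comm 0, max_comm 0]
  refine (abs_max_sub_max_le_abs (1 - |a|) (1 - |b|) 0).trans ?_
  have h : 1 - |a| - (1 - |b|) = |b| - |a| := by ring
  rw [h, abs_sub_comm a b]
  exact abs_abs_sub_abs_le_abs_sub b a

namespace Tent

theorem tent_eq_zero_of_notMem (c : ℝ) (m : ℤ) (hm : m ∉ ({-⌊c⌋, -⌊c⌋ - 1} : Finset ℤ)) :
    tent (c + m) = 0 := by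
  apply tent_eq_zero
  simp only [Finset.mem_insert, Finset.mem_singleton, not_or] at hm
  obtain ⟨h1, h2⟩ := hm
  have hf1 : (⌊c⌋ : ℝ) ≤ c := Int.floor_le c
  have hf2 : c < ⌊c⌋ + 1 := Int.lt_floor_add_one c
  rcases lt_or_gt_of_ne (show ⌊c⌋ + m ≠ 0 by omega) with h | h
  · have h3 : ⌊c⌋ + m ≤ -2 := by omega
    have h4 : ((⌊c⌋ : ℝ) + m) ≤ -2 := by exact_mod_cast h3
    rw [le_abs]
    right
    linarith
  · have h3 : 1 ≤ ⌊c⌋ + m := by omega
    have h4 : (1 : ℝ) ≤ (⌊c⌋ : ℝ) + m := by exact_mod_cast h3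
    rw [le_abs]
    left
    linarith

theorem sum_tent (c : ℝ) : ∑ m ∈ ({-⌊c⌋, -⌊c⌋ - 1} : Finset ℤ), tent (c + m) = 1 := by
  have hf1 : (⌊c⌋ : ℝ) ≤ c := Int.floor_le c
  have hf2 : c < ⌊c⌋ + 1 := Int.lt_floor_add_one c
  rw [Finset.sum_pair (by omega)]
  push_cast
  have h1 : tent (c + -(⌊c⌋ : ℝ)) = 1 - (c - ⌊c⌋) := by
    unfold tent
    rw [abs_of_nonneg (by linarith), max_eq_right (by linarith)]
    ring
  have h2 : tent (c + (-(⌊c⌋ : ℝ) - 1)) = c - ⌊c⌋ := by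
    unfold tent
    rw [abs_of_nonpos (by linarith), max_eq_right (by linarith)]
    ring
  rw [h1, h2]
  ring

theorem abs_prod_sub_le {ι : Type*} (s : Finset ι) (x y : ι → ℝ) (hx0 : ∀ i, 0 ≤ x i)
    (hx1 : ∀ i, x i ≤ 1) (hy0 : ∀ i, 0 ≤ y i) (hy1 : ∀ i, y i ≤ 1) :
    |∏ i ∈ s, x i - ∏ i ∈ s, y i| ≤ ∑ i ∈ s, |x i - y i| := by
  classical
  induction s using Finset.induction_on with
  | empty => simp
  | insert a s ha ih =>
    rw [Finset.prod_insert ha, Finset.prod_insert ha, Finset.sum_insert ha]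
    have hY0 : 0 ≤ ∏ i ∈ s, y i := Finset.prod_nonneg fun i _ => hy0 i
    have hY1 : ∏ i ∈ s, y i ≤ 1 := Finset.prod_le_one (fun i _ => hy0 i) fun i _ => hy1 i
    have h : x a * ∏ i ∈ s, x i - y a * ∏ i ∈ s, y i =
        (x a - y a) * ∏ i ∈ s, y i + x a * (∏ i ∈ s, x i - ∏ i ∈ s, y i) := by ring
    rw [h]
    refine (abs_add_le _ _).trans ?_
    rw [abs_mul, abs_mul, abs_of_nonneg hY0, abs_of_nonneg (hx0 a)]
    have h1 : |x a - y a| * ∏ i ∈ s, y i ≤ |x a - y a| :=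
      mul_le_of_le_one_right (abs_nonneg _) hY1
    have h2 : x a * |∏ i ∈ s, x i - ∏ i ∈ s, y i| ≤ |∏ i ∈ s, x i - ∏ i ∈ s, y i| :=
      mul_le_of_le_one_left (abs_nonneg _) (hx1 a)
    linarith

end Tent

theorem hasSum_tent_int (c : ℝ) : HasSum (fun m : ℤ => tent (c + m)) 1 := by
  have h : HasSum (fun m : ℤ => tent (c + m))
      (∑ m ∈ ({-⌊c⌋, -⌊c⌋ - 1} : Finset ℤ), tent (c + m)) :=
    hasSum_sum_of_ne_finset_zero (fun m hm => Tent.tent_eq_zero_of_notMem c m hm)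
  rwa [Tent.sum_tent] at h

theorem hasSum_prod_tent {ι : Type*} [Fintype ι] (c : ι → ℝ) :
    HasSum (fun m : ι → ℤ => ∏ i, tent (c i + m i)) 1 := by
  classical
  have h : HasSum (fun m : ι → ℤ => ∏ i, tent (c i + m i))
      (∑ m ∈ Fintype.piFinset fun i => ({-⌊c i⌋, -⌊c i⌋ - 1} : Finset ℤ),
        ∏ i, tent (c i + m i)) := hasSum_sum_of_ne_finset_zero (by
      intro m hm
      rw [Fintype.mem_piFinset] at hm
      push Not at hm
      obtain ⟨i, hi⟩ := hm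
      exact Finset.prod_eq_zero (Finset.mem_univ i) (Tent.tent_eq_zero_of_notMem (c i) (m i) hi))
  rw [← Finset.prod_univ_sum (fun i => ({-⌊c i⌋, -⌊c i⌋ - 1} : Finset ℤ))
    (fun i (j : ℤ) => tent (c i + j))] at h
  simpa [Tent.sum_tent] using h

theorem prod_tent_nonneg {ι : Type*} [Fintype ι] (a : ι → ℝ) : 0 ≤ ∏ i, tent (a i) :=
  Finset.prod_nonneg fun _ _ => tent_nonneg _

theorem prod_tent_le_one {ι : Type*} [Fintype ι] (a : ι → ℝ) : ∏ i, tent (a i) ≤ 1 :=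
  Finset.prod_le_one (fun _ _ => tent_nonneg _) fun _ _ => tent_le_one _

theorem abs_prod_tent_sub_le {ι : Type*} [Fintype ι] (a b : ι → ℝ) :
    |∏ i, tent (a i) - ∏ i, tent (b i)| ≤ ∑ i, |a i - b i| := by
  refine (Tent.abs_prod_sub_le Finset.univ (fun i => tent (a i)) (fun i => tent (b i))
    (fun i => tent_nonneg _) (fun i => tent_le_one _) (fun i => tent_nonneg _)
    (fun i => tent_le_one _)).trans ?_
  exact Finset.sum_le_sum fun i _ => abs_tent_sub_le _ _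

end Fermat.Agent.S14
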