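import Fermat.Agent.S14.Density.PrimeSumLower

/-! # S14-AN: aggregator for the zeta/Euler product part (Z1-Z4, B1). -/
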